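/-
TEAM CFT, sub-project P0: finite group cohomology toolkit over Mathlib's `groupCohomology`.
This file only contains definitions and statements-as-Props (`Stmt_*`).  Each package proves
`theorem xxx (h : Stmt_a) ... : Stmt_b` in its own file.
-/
import Mathlib

set_option autoImplicit false

noncomputable section

namespace Fermat.Agent.CFT.P0

open CategoryTheory CategoryTheory.Limits groupCohomology Rep

universe u

section Defs

variable {k G : Type u} [CommRing k] [Group G]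

/-- restriction `Hⁿ(G,A) ⟶ Hⁿ(H,A)` -/
abbrev resMap (A : Rep.{u} k G) (H : Subgroup G) (n : ℕ) :
    groupCohomology A n ⟶ groupCohomology (Rep.res H.subtype A) n :=
  groupCohomology.map H.subtype (𝟙 _) n

/-- inflation `Hⁿ(G/N,A^N) ⟶ Hⁿ(G,A)` -/
abbrev infMap (A : Rep.{u} k G) (N : Subgroup G) [N.Normal] (n : ℕ) :
    groupCohomology (A.quotientToInvariants N) n ⟶ groupCohomology A n :=
  groupCohomology.map (QuotientGroup.mk' N) (Rep.ofHom <| A.ρ.quotientToInvariants_lift N) n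

/-- A dimension shifting datum: `0 → A → I → B → 0` with `I` acyclic for all subgroups and
`I^N` acyclic for all quotients `G/N`. -/
structure Shift (A : Rep.{u} k G) where
  I : Rep.{u} k G
  B : Rep.{u} k G
  i : A ⟶ I
  q : I ⟶ B
  zero : i ≫ q = 0
  exact : (ShortComplex.mk i q zero).ShortExact
  acyclic_res : ∀ (H : Subgroup G) (n : ℕ),
    IsZero (groupCohomology (Rep.res H.subtype I) (n + 1))
  acyclic_inv : ∀ (N : Subgroup G) [N.Normal] (n : ℕ),
    IsZero (groupCohomology (I.quotientToInvariants N) (n + 1))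

end Defs

/-- P0-1 : dimension shifting data exist (take `I = Coind_1^G A`). -/
def Stmt_shift : Prop :=
  ∀ (k G : Type u) [CommRing k] [Group G] (A : Rep.{u} k G), Nonempty (Shift A)

/-- P0-2 : `res x = 0 ⇒ [G:H] x = 0` (i.e. `cor ∘ res = index`, without defining `cor`). -/
def Stmt_resIndex : Prop :=
  ∀ (k G : Type u) [CommRing k] [Group G] (A : Rep.{u} k G) (H : Subgroup G) [H.FiniteIndex]
    (n : ℕ) (x : groupCohomology A n), (resMap A H n).hom x = 0 → H.index • x = 0

/-- P0-2' : `|G|` kills `Hⁿ⁺¹(G,A)`. -/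
def Stmt_cardSmul : Prop :=
  ∀ (k G : Type u) [CommRing k] [Group G] [Finite G] (A : Rep.{u} k G)
    (n : ℕ) (x : groupCohomology A (n + 1)), Nat.card G • x = 0

/-- P0-3 : inflation-restriction in degree `n+1` when `Hⁱ(N,A) = 0` for `0 < i < n+1`. -/
def Stmt_infRes : Prop :=
  ∀ (k G : Type u) [CommRing k] [Group G] (A : Rep.{u} k G) (N : Subgroup G) [N.Normal] (n : ℕ),
    (∀ i : ℕ, 0 < i → i < n + 1 → IsZero (groupCohomology (Rep.res N.subtype A) i)) →
    Function.Injective (infMap A N (n + 1)).hom ∧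
    ∀ x : groupCohomology A (n + 1), (resMap A N (n + 1)).hom x = 0 →
      ∃ y, (infMap A N (n + 1)).hom y = x

/-- P0-4 : periodicity for finite cyclic groups. -/
def Stmt_periodic : Prop :=
  ∀ (k G : Type u) [CommRing k] [Group G] [Finite G] [IsCyclic G] (A : Rep.{u} k G) (n : ℕ),
    Nonempty (groupCohomology A (n + 1) ≅ groupCohomology A (n + 3))

/-- P0-5a : vanishing can be tested on Sylow subgroups. -/
def Stmt_sylowVanish : Prop :=
  ∀ (k G : Type u) [CommRing k] [Group G] [Finite G] (A : Rep.{u} k G) (n : ℕ),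
    (∀ (p : ℕ) [Fact p.Prime] (P : Sylow p G),
      IsZero (groupCohomology (Rep.res (P : Subgroup G).subtype A) (n + 1))) →
    IsZero (groupCohomology A (n + 1))

/-- P0-5b : order bound through Sylow subgroups. -/
def Stmt_sylowCard : Prop :=
  ∀ (G : Type) [Group G] [Finite G] (A : Rep.{0} ℤ G) (n : ℕ),
    (∀ (p : ℕ) [Fact p.Prime] (P : Sylow p G),
      Finite (groupCohomology (Rep.res (P : Subgroup G).subtype A) (n + 1)) ∧
      Nat.card (groupCohomology (Rep.res (P : Subgroup G).subtype A) (n + 1)) ∣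
        Nat.card (P : Subgroup G)) →
    Finite (groupCohomology A (n + 1)) ∧ Nat.card (groupCohomology A (n + 1)) ∣ Nat.card G

/-- The hypothesis of the "ugly lemma": all layers `H/N` of prime order inside `G` satisfy
`H¹(H/N, A^N) = 0` and `|H²(H/N, A^N)|` divides `[H:N]`. -/
def PrimeLayers {G : Type} [Group G] (A : Rep.{0} ℤ G) : Prop :=
  ∀ (H : Subgroup G) (N : Subgroup H) [N.Normal], (Nat.card (H ⧸ N)).Prime →
    IsZero (groupCohomology ((Rep.res H.subtype A).quotientToInvariants N) 1) ∧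
    Finite (groupCohomology ((Rep.res H.subtype A).quotientToInvariants N) 2) ∧
    Nat.card (groupCohomology ((Rep.res H.subtype A).quotientToInvariants N) 2) ∣
      Nat.card (H ⧸ N)

/-- P0-5 : the "ugly lemma". -/
def Stmt_ugly : Prop :=
  ∀ (G : Type) [Group G] [Finite G] (A : Rep.{0} ℤ G), PrimeLayers A →
    IsZero (groupCohomology A 1) ∧ Finite (groupCohomology A 2) ∧
      Nat.card (groupCohomology A 2) ∣ Nat.card G

/-- P0-6 : cohomological triviality criterion (upward direction). -/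
def Stmt_cohTriv : Prop :=
  ∀ (k G : Type u) [CommRing k] [Group G] [Finite G] (A : Rep.{u} k G),
    (∀ H : Subgroup G, IsZero (groupCohomology (Rep.res H.subtype A) 1) ∧
      IsZero (groupCohomology (Rep.res H.subtype A) 2)) →
    ∀ (H : Subgroup G) (n : ℕ), IsZero (groupCohomology (Rep.res H.subtype A) (n + 1))

/-- A class module: `H¹(H,C) = 0` and `H²(H,C)` is cyclic of order `|H|` for all `H ≤ G`. -/
def IsClassModule {G : Type} [Group G] (C : Rep.{0} ℤ G) : Prop :=
  ∀ H : Subgroup G, IsZero (groupCohomology (Rep.res H.subtype C) 1) ∧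
    Nat.card (groupCohomology (Rep.res H.subtype C) 2) = Nat.card H ∧
    ∃ γ : groupCohomology (Rep.res H.subtype C) 2, ∀ x, ∃ m : ℤ, x = m • γ

/-- P0-7 : Tate's theorem in degree 3 and 4. -/
def Stmt_tate : Prop :=
  ∀ (G : Type) [Group G] [Finite G] (C : Rep.{0} ℤ G), IsClassModule C →
    IsZero (groupCohomology C 3) ∧
    Nonempty (groupCohomology C 4 ≅ groupCohomology (Rep.trivial ℤ G ℤ) 2)

section Herbrand

variable {A : Type*} [AddCommGroup A]

/-- `[ker D : im N]` -/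
def hq0 (D N : A →+ A) : ℕ := N.range.relIndex D.ker

/-- `[ker N : im D]` -/
def hq1 (D N : A →+ A) : ℕ := D.range.relIndex N.ker

end Herbrand

/-- P0-8a : multiplicativity of the Herbrand quotient (elementary form).  `D`, `N` stand for
`σ - 1` and the norm. -/
def Stmt_herbrandMul : Prop :=
  ∀ (A B C : Type) [AddCommGroup A] [AddCommGroup B] [AddCommGroup C]
    (DA NA : A →+ A) (DB NB : B →+ B) (DC NC : C →+ C) (i : A →+ B) (q : B →+ C),
    DA.comp NA = 0 → NA.comp DA = 0 → DB.comp NB = 0 → NB.comp DB = 0 →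
    DC.comp NC = 0 → NC.comp DC = 0 →
    Function.Injective i → Function.Surjective q → i.range = q.ker →
    (∀ a, i (DA a) = DB (i a)) → (∀ a, i (NA a) = NB (i a)) →
    (∀ b, q (DB b) = DC (q b)) → (∀ b, q (NB b) = NC (q b)) →
    ((hq0 DA NA ≠ 0 ∧ hq1 DA NA ≠ 0 ∧ hq0 DC NC ≠ 0 ∧ hq1 DC NC ≠ 0) ∨
     (hq0 DA NA ≠ 0 ∧ hq1 DA NA ≠ 0 ∧ hq0 DB NB ≠ 0 ∧ hq1 DB NB ≠ 0) ∨
     (hq0 DB NB ≠ 0 ∧ hq1 DB NB ≠ 0 ∧ hq0 DC NC ≠ 0 ∧ hq1 DC NC ≠ 0)) →
    (hq0 DA NA ≠ 0 ∧ hq1 DA NA ≠ 0 ∧ hq0 DB NB ≠ 0 ∧ hq1 DB NB ≠ 0 ∧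
      hq0 DC NC ≠ 0 ∧ hq1 DC NC ≠ 0) ∧
    hq0 DB NB * hq1 DA NA * hq1 DC NC = hq1 DB NB * hq0 DA NA * hq0 DC NC

/-- P0-8b : finite modules have Herbrand quotient `1`. -/
def Stmt_herbrandFinite : Prop :=
  ∀ (A : Type) [AddCommGroup A] [Finite A] (D N : A →+ A),
    D.comp N = 0 → N.comp D = 0 → hq0 D N = hq1 D N ∧ hq0 D N ≠ 0

/-- P0-8c : bridge to `groupCohomology` for a finite cyclic group with generator `g`. -/
def Stmt_herbrandBridge : Prop :=
  ∀ (G : Type) [Group G] [Finite G] (g : G), (∀ x : G, x ∈ Subgroup.zpowers g) →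
    ∀ (A : Rep.{0} ℤ G),
    Nat.card (groupCohomology A 2) =
      hq0 ((A.ρ g).toAddMonoidHom - AddMonoidHom.id A) (∑ᶠ x : G, (A.ρ x).toAddMonoidHom) ∧
    Nat.card (groupCohomology A 1) =
      hq1 ((A.ρ g).toAddMonoidHom - AddMonoidHom.id A) (∑ᶠ x : G, (A.ρ x).toAddMonoidHom)

end Fermat.Agent.CFT.P0

end
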