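/-
TEAM CFT, sub-project P0, second interface file: Shapiro in concrete form, products, directed
unions, explicit `H²` of cyclic groups.
-/
import Fermat.Agent.CFT.P0.Interface

set_option autoImplicit false

noncomputable section

namespace Fermat.Agent.CFT.P0

open CategoryTheory CategoryTheory.Limits groupCohomology Rep

universe u

section Defs

variable {k G : Type u} [CommRing k] [Group G]

/-- `π : Res_D A ⟶ B` exhibits `A` as the module coinduced from `B`:
`a ↦ (g ↦ π (g a))` is a bijection from `A` onto `{f : G → B | f (d g) = d f(g)}`. -/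
def IsCoind {D : Subgroup G} {A : Rep.{u} k G} {B : Rep.{u} k D}
    (π : Rep.res D.subtype A ⟶ B) : Prop :=
  (∀ a : A, (∀ g : G, π.hom (A.ρ g a) = 0) → a = 0) ∧
  (∀ f : G → B, (∀ (d : D) (g : G), f (d * g) = B.ρ d (f g)) →
    ∃ a : A, ∀ g : G, π.hom (A.ρ g a) = f g)

end Defs

/-- P0-9 : Shapiro's lemma in concrete form: the map `π_* ∘ res` is bijective. -/
def Stmt_shapiro : Prop :=
  ∀ (k G : Type u) [CommRing k] [Group G] (D : Subgroup G) (A : Rep.{u} k G) (B : Rep.{u} k D)
    (π : Rep.res D.subtype A ⟶ B), IsCoind π →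
    ∀ n : ℕ, Function.Bijective (groupCohomology.map D.subtype π n).hom

/-- P0-10 : cohomology commutes with arbitrary products. -/
def Stmt_prod : Prop :=
  ∀ (k G : Type u) [CommRing k] [Group G] (ι : Type u) (A : Rep.{u} k G) (Ai : ι → Rep.{u} k G)
    (π : ∀ i, A ⟶ Ai i), Function.Bijective (fun (a : A) (i : ι) => (π i).hom a) →
    ∀ n : ℕ, Function.Bijective
      (fun (x : groupCohomology A n) (i : ι) => (groupCohomology.map (MonoidHom.id G) (π i) n).hom x)

/-- P0-11 : for finite `G`, cohomology commutes with directed unions. -/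
def Stmt_union : Prop :=
  ∀ (k G : Type u) [CommRing k] [Group G] [Finite G] (ι : Type u) [Nonempty ι]
    (A : Rep.{u} k G) (Ai : ι → Rep.{u} k G) (f : ∀ i, Ai i ⟶ A),
    (∀ i, Function.Injective (f i).hom) →
    (∀ i j, ∃ l, Set.range (f i).hom ⊆ Set.range (f l).hom ∧
      Set.range (f j).hom ⊆ Set.range (f l).hom) →
    (∀ a : A, ∃ i, a ∈ Set.range (f i).hom) →
    ∀ n : ℕ,
      (∀ x : groupCohomology A n, ∃ (i : ι) (y : groupCohomology (Ai i) n),
        (groupCohomology.map (MonoidHom.id G) (f i) n).hom y = x) ∧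
      (∀ (i : ι) (y : groupCohomology (Ai i) n),
        (groupCohomology.map (MonoidHom.id G) (f i) n).hom y = 0 →
        ∃ (l : ι) (g : Ai i ⟶ Ai l), g ≫ f l = f i ∧
          (groupCohomology.map (MonoidHom.id G) g n).hom y = 0)

section Cyclic

variable {G : Type} [Group G] [Finite G]

/-- discrete logarithm: the least `e` with `g ^ e = x` (junk `0` if there is none). -/
def dlog (g x : G) : ℕ := sInf {e : ℕ | g ^ e = x}

/-- the standard 2-cochain of a cyclic group `⟨g⟩` attached to `a`: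
`(gⁱ, gʲ) ↦ a` if `i + j ≥ |G|`, `0` otherwise (`0 ≤ i, j < |G|`). -/
def cycCochain (g : G) {A : Type} [AddCommGroup A] (a : A) : G × G → A :=
  fun x => if Nat.card G ≤ dlog g x.1 + dlog g x.2 then a else 0

end Cyclic

/-- P0-12a : the standard cochain is a cocycle when `a` is invariant; the resulting map
`A^G → H²(G,A)` is surjective with kernel the norms. -/
def Stmt_cycH2 : Prop :=
  ∀ (G : Type) [Group G] [Finite G] (g : G), (∀ x : G, x ∈ Subgroup.zpowers g) →
    ∀ (A : Rep.{0} ℤ G),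
    (∀ a : A, (∀ x : G, A.ρ x a = a) → cycCochain g a ∈ cocycles₂ A) ∧
    (∀ x : H2 A, ∃ (a : A) (h : cycCochain g a ∈ cocycles₂ A), (∀ y : G, A.ρ y a = a) ∧
      (H2π A).hom ⟨cycCochain g a, h⟩ = x) ∧
    (∀ (a : A) (h : cycCochain g a ∈ cocycles₂ A), (∀ y : G, A.ρ y a = a) →
      ((H2π A).hom ⟨cycCochain g a, h⟩ = 0 ↔ ∃ b : A, a = ∑ᶠ y : G, A.ρ y b))

/-- P0-12b : inflation of the standard class along `G → G/N` is the standard class of `|N| • a`. -/
def Stmt_cycInf : Prop :=
  ∀ (G : Type) [Group G] [Finite G] (g : G), (∀ x : G, x ∈ Subgroup.zpowers g) →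
    ∀ (A : Rep.{0} ℤ G) (N : Subgroup G) [N.Normal] (a : A), (∀ x : G, A.ρ x a = a) →
    ∀ (h1 : cycCochain g (Nat.card N • a) ∈ cocycles₂ A)
      (a' : A.quotientToInvariants N), a'.1 = a →
    ∀ (h2 : cycCochain (QuotientGroup.mk g : G ⧸ N) a' ∈ cocycles₂ (A.quotientToInvariants N)),
      (infMap A N 2).hom ((H2π _).hom ⟨_, h2⟩) = (H2π A).hom ⟨_, h1⟩

/-- P0-12c : restriction of the standard class to the subgroup `H = ⟨g ^ [G:H]⟩` is the standard
class of the same element. -/
def Stmt_cycRes : Prop :=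
  ∀ (G : Type) [Group G] [Finite G] (g : G), (∀ x : G, x ∈ Subgroup.zpowers g) →
    ∀ (A : Rep.{0} ℤ G) (H : Subgroup G) (a : A), (∀ x : G, A.ρ x a = a) →
    ∀ (h1 : cycCochain g a ∈ cocycles₂ A) (gH : H), (gH : G) = g ^ H.index →
    ∀ (h2 : cycCochain gH (a : Rep.res H.subtype A) ∈ cocycles₂ (Rep.res H.subtype A)),
      (resMap A H 2).hom ((H2π A).hom ⟨_, h1⟩) = (H2π _).hom ⟨_, h2⟩

/-- P0-12d : naturality of the standard class (trivial, for convenience). -/
def Stmt_cycNat : Prop :=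
  ∀ (G : Type) [Group G] [Finite G] (g : G) (A B : Rep.{0} ℤ G) (φ : A ⟶ B) (a : A)
    (h1 : cycCochain g a ∈ cocycles₂ A) (h2 : cycCochain g (φ.hom a) ∈ cocycles₂ B),
      (groupCohomology.map (MonoidHom.id G) φ 2).hom ((H2π A).hom ⟨_, h1⟩) = (H2π B).hom ⟨_, h2⟩

end Fermat.Agent.CFT.P0

end
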