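/-
TEAM CFT, sub-project P0, package P0-12: explicit `H²` of finite cyclic groups.
-/
import Fermat.Agent.CFT.P0.Interface2

set_option autoImplicit false

noncomputable section

namespace Fermat.Agent.CFT.P0

open CategoryTheory CategoryTheory.Limits groupCohomology Rep

namespace CycH2

section Dlog

variable {G : Type} [Group G] [Finite G]

lemma dlog_pow (g : G) (k : ℕ) : dlog g (g ^ k) = k % orderOf g := by
  have hpos : 0 < orderOf g := orderOf_pos g
  unfold dlog
  apply le_antisymm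
  · apply Nat.sInf_le
    change g ^ (k % orderOf g) = g ^ k
    exact pow_mod_orderOf g k
  · apply le_csInf (⟨k, rfl⟩ : {e : ℕ | g ^ e = g ^ k}.Nonempty)
    intro e he
    have he' : g ^ e = g ^ k := he
    rw [pow_eq_pow_iff_modEq] at he'
    have : k % orderOf g = e % orderOf g := he'.symm
    rw [this]
    exact Nat.mod_le _ _

lemma exists_pow_of_gen {g : G} (hg : ∀ x : G, x ∈ Subgroup.zpowers g) (x : G) :
    ∃ k : ℕ, g ^ k = x := by
  have := hg x
  rw [← mem_powers_iff_mem_zpowers] at this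
  exact this

omit [Finite G] in
lemma orderOf_gen {g : G} (hg : ∀ x : G, x ∈ Subgroup.zpowers g) : orderOf g = Nat.card G :=
  orderOf_eq_card_of_forall_mem_zpowers hg

lemma pow_dlog {g : G} (hg : ∀ x : G, x ∈ Subgroup.zpowers g) (x : G) : g ^ dlog g x = x := by
  obtain ⟨k, rfl⟩ := exists_pow_of_gen hg x
  rw [dlog_pow, pow_mod_orderOf]

lemma dlog_lt {g : G} (hg : ∀ x : G, x ∈ Subgroup.zpowers g) (x : G) :
    dlog g x < Nat.card G := by
  obtain ⟨k, rfl⟩ := exists_pow_of_gen hg x
  rw [dlog_pow, ← orderOf_gen hg]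
  exact Nat.mod_lt _ (orderOf_pos g)

/-- the carry -/
def carry (g x y : G) : ℕ := if Nat.card G ≤ dlog g x + dlog g y then 1 else 0

lemma dlog_add {g : G} (hg : ∀ x : G, x ∈ Subgroup.zpowers g) (x y : G) :
    dlog g x + dlog g y = dlog g (x * y) + Nat.card G * carry g x y := by
  have hx := dlog_lt hg x
  have hy := dlog_lt hg y
  have h : dlog g (x * y) = (dlog g x + dlog g y) % Nat.card G := by
    conv_lhs => rw [← pow_dlog hg x, ← pow_dlog hg y, ← pow_add, dlog_pow, orderOf_gen hg]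
  unfold carry
  split_ifs with hc
  · rw [h, Nat.mod_eq_sub_mod hc, Nat.mod_eq_of_lt (by omega)]
    omega
  · rw [h, Nat.mod_eq_of_lt (by omega)]
    omega

omit [Finite G] in
lemma cycCochain_eq (g : G) {A : Type} [AddCommGroup A] (a : A) (x y : G) :
    cycCochain g a (x, y) = carry g x y • a := by
  unfold cycCochain carry
  split_ifs <;> simp

lemma carry_assoc {g : G} (hg : ∀ x : G, x ∈ Subgroup.zpowers g) (x y z : G) :
    carry g (x * y) z + carry g x y = carry g y z + carry g x (y * z) := by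
  have h1 := dlog_add hg (x * y) z
  have h2 := dlog_add hg x y
  have h3 := dlog_add hg y z
  have h4 := dlog_add hg x (y * z)
  rw [mul_assoc] at h1
  have hpos : 0 < Nat.card G := Nat.card_pos
  have : Nat.card G * (carry g (x * y) z + carry g x y)
      = Nat.card G * (carry g y z + carry g x (y * z)) := by
    rw [mul_add, mul_add]; omega
  exact Nat.eq_of_mul_eq_mul_left hpos this

lemma pow_bijective {g : G} (hg : ∀ x : G, x ∈ Subgroup.zpowers g) :
    Function.Bijective (fun j : Fin (Nat.card G) => g ^ (j : ℕ)) := by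
  constructor
  · intro i j hij
    have h : g ^ (i : ℕ) = g ^ (j : ℕ) := hij
    have h2 := congrArg (dlog g) h
    rw [dlog_pow, dlog_pow, orderOf_gen hg, Nat.mod_eq_of_lt i.2, Nat.mod_eq_of_lt j.2] at h2
    exact Fin.ext h2
  · intro x
    exact ⟨⟨dlog g x, dlog_lt hg x⟩, pow_dlog hg x⟩

lemma finsum_eq_sum_range {g : G} (hg : ∀ x : G, x ∈ Subgroup.zpowers g)
    {A : Type} [AddCommGroup A] (f : G → A) :
    ∑ᶠ y : G, f y = ∑ j ∈ Finset.range (Nat.card G), f (g ^ j) := by
  rw [← finsum_eq_of_bijective _ (pow_bijective hg) (fun j => rfl), finsum_eq_sum_of_fintype,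
    Fin.sum_univ_eq_sum_range (fun j => f (g ^ j))]

/-- discrete logarithms in a subgroup -/
lemma dlog_subgroup {g : G} (hg : ∀ x : G, x ∈ Subgroup.zpowers g) (H : Subgroup G) (gH : H)
    (hgH : (gH : G) = g ^ H.index) :
    (∀ x : H, x ∈ Subgroup.zpowers gH) ∧ ∀ x : H, dlog g (x : G) = H.index * dlog gH x := by
  have hcard : Nat.card H * H.index = Nat.card G := H.card_mul_index
  have hHpos : 0 < Nat.card H := Nat.card_pos
  have key : ∀ x : H, ∃ k : ℕ, dlog g (x : G) = H.index * k ∧ gH ^ k = x := by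
    intro x
    have h1 : (x : G) ^ Nat.card H = 1 := by
      have : x ^ Nat.card H = 1 := pow_card_eq_one'
      rw [← Subgroup.coe_pow, this, Subgroup.coe_one]
    rw [← pow_dlog hg (x : G), ← pow_mul, ← orderOf_dvd_iff_pow_eq_one, orderOf_gen hg, ← hcard,
      mul_comm (Nat.card H)] at h1
    obtain ⟨k, hk⟩ := Nat.dvd_of_mul_dvd_mul_right hHpos h1
    refine ⟨k, hk, ?_⟩
    apply Subtype.ext
    rw [Subgroup.coe_pow, hgH, ← pow_mul, ← hk, pow_dlog hg]
  have hgen : ∀ x : H, x ∈ Subgroup.zpowers gH := by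
    intro x
    obtain ⟨k, -, hk⟩ := key x
    exact ⟨k, by simpa using hk⟩
  refine ⟨hgen, ?_⟩
  intro x
  obtain ⟨k, hk1, hk2⟩ := key x
  have hlt := dlog_lt hg (x : G)
  rw [hk1, ← hcard, mul_comm] at hlt
  have hklt : k < Nat.card H := by
    by_contra hcon
    have : Nat.card H * H.index ≤ k * H.index := Nat.mul_le_mul_right _ (not_lt.1 hcon)
    omega
  rw [hk1, ← hk2, dlog_pow, orderOf_gen hgen, Nat.mod_eq_of_lt hklt]

/-- discrete logarithms in a quotient -/
lemma dlog_quotient {g : G} (hg : ∀ x : G, x ∈ Subgroup.zpowers g) (N : Subgroup G) [N.Normal] :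
    (∀ x : G ⧸ N, x ∈ Subgroup.zpowers (QuotientGroup.mk g : G ⧸ N)) ∧
    ∀ x : G, dlog (QuotientGroup.mk g : G ⧸ N) (QuotientGroup.mk x)
      = dlog g x % Nat.card (G ⧸ N) := by
  have hgen : ∀ x : G ⧸ N, x ∈ Subgroup.zpowers (QuotientGroup.mk g : G ⧸ N) := by
    intro x
    induction x using QuotientGroup.induction_on with
    | H x =>
      obtain ⟨k, rfl⟩ := exists_pow_of_gen hg x
      exact ⟨k, by simp⟩
  refine ⟨hgen, ?_⟩
  intro x
  conv_lhs => rw [← pow_dlog hg x, QuotientGroup.mk_pow, dlog_pow, orderOf_gen hgen]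

/-- the relation between the carries of `G` and `G ⧸ N` -/
lemma carry_quotient {g : G} (hg : ∀ x : G, x ∈ Subgroup.zpowers g) (N : Subgroup G) [N.Normal]
    (x y : G) :
    dlog g x / Nat.card (G ⧸ N) + dlog g y / Nat.card (G ⧸ N)
      + carry (QuotientGroup.mk g : G ⧸ N) (QuotientGroup.mk x) (QuotientGroup.mk y)
    = dlog g (x * y) / Nat.card (G ⧸ N) + Nat.card N * carry g x y := by
  obtain ⟨hgen, hd⟩ := dlog_quotient hg N
  have hcard : Nat.card N * Nat.card (G ⧸ N) = Nat.card G := N.card_mul_index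
  have hpos : 0 < Nat.card (G ⧸ N) := Nat.card_pos
  have h1 := dlog_add hg x y
  have h2 := dlog_add hgen (QuotientGroup.mk x) (QuotientGroup.mk y)
  rw [← QuotientGroup.mk_mul, hd, hd, hd] at h2
  have e1 := Nat.div_add_mod (dlog g x) (Nat.card (G ⧸ N))
  have e2 := Nat.div_add_mod (dlog g y) (Nat.card (G ⧸ N))
  have e3 := Nat.div_add_mod (dlog g (x * y)) (Nat.card (G ⧸ N))
  apply Nat.eq_of_mul_eq_mul_left hpos
  rw [← hcard] at h1
  have h3 : Nat.card N * Nat.card (G ⧸ N) * carry g x y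
      = Nat.card (G ⧸ N) * (Nat.card N * carry g x y) := by ring
  rw [h3] at h1
  rw [mul_add, mul_add, mul_add]
  omega

end Dlog

section Sums

variable {A : Type} [AddCommGroup A]

/-- partial sums -/
def W (s : ℕ → A) (m : ℕ) : A := ∑ j ∈ Finset.range m, s j

lemma W_zero (s : ℕ → A) : W s 0 = 0 := by simp [W]

lemma W_succ (s : ℕ → A) (m : ℕ) : W s (m + 1) = W s m + s m := by
  simp [W, Finset.sum_range_succ]

lemma W_add_period (s : ℕ → A) (n : ℕ) (hs : ∀ j, s (j + n) = s j) (m : ℕ) :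
    W s (m + n) = W s m + W s n := by
  induction m with
  | zero => simp [W_zero]
  | succ m ih =>
    rw [show m + 1 + n = (m + n) + 1 by ring, W_succ, ih, hs, W_succ]
    abel

lemma W_add_carry (s : ℕ → A) (n : ℕ) (hs : ∀ j, s (j + n) = s j) (m c : ℕ) :
    W s (m + n * c) = W s m + c • W s n := by
  induction c with
  | zero => simp
  | succ c ih =>
    rw [show m + n * (c + 1) = (m + n * c) + n by ring, W_add_period s n hs, ih, succ_nsmul]
    abel

end Sums

section Coh

variable {G : Type} [Group G] [Finite G] {g : G} (hg : ∀ x : G, x ∈ Subgroup.zpowers g)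
  (A : Rep.{0} ℤ G)

include hg

lemma W_dlog (s : ℕ → A) (hs : ∀ j, s (j + Nat.card G) = s j) (x y : G) :
    W s (dlog g x + dlog g y) = W s (dlog g (x * y)) + carry g x y • W s (Nat.card G) := by
  rw [dlog_add hg, W_add_carry s _ hs]

lemma cyc_mem (a : A) (ha : ∀ x : G, A.ρ x a = a) : cycCochain g a ∈ cocycles₂ A := by
  rw [mem_cocycles₂_iff]
  intro x y z
  simp only [cycCochain_eq]
  rw [map_nsmul, ha, ← add_smul, ← add_smul, carry_assoc hg]

omit hg [Finite G] in
lemma mem_cob (f : G × G → A) (w : G → A)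
    (h : ∀ x y, f (x, y) = A.ρ x (w y) - w (x * y) + w x) : f ∈ coboundaries₂ A := by
  refine ⟨w, ?_⟩
  ext ⟨x, y⟩
  rw [d₁₂_hom_apply, h]

omit hg [Finite G] in
lemma exists_of_mem_cob (f : G × G → A) (hf : f ∈ coboundaries₂ A) :
    ∃ w : G → A, ∀ x y, f (x, y) = A.ρ x (w y) - w (x * y) + w x := by
  obtain ⟨w, rfl⟩ := hf
  exact ⟨w, fun x y => by rw [d₁₂_hom_apply]⟩

omit hg [Finite G] in
lemma ρ_pow_add (i j : ℕ) (a : A) : A.ρ (g ^ i) (A.ρ (g ^ j) a) = A.ρ (g ^ (i + j)) a := by
  rw [pow_add, map_mul]; rfl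

omit hg [Finite G] in
lemma ρ_mul_apply (x y : G) (a : A) : A.ρ (x * y) a = A.ρ x (A.ρ y a) := by
  rw [map_mul]; rfl

omit hg [Finite G] in
/-- the key formula for a 2-cocycle on powers of `g` -/
lemma cocycle_formula (c : G × G → A) (hc : c ∈ cocycles₂ A) (i J : ℕ) :
    c (g ^ i, g ^ J) = A.ρ (g ^ i) (c (1, 1)) + W (fun j => c (g ^ j, g)) (i + J)
      - W (fun j => c (g ^ j, g)) i - A.ρ (g ^ i) (W (fun j => c (g ^ j, g)) J) := by
  induction J with
  | zero =>
    have := cocycles₂_map_one_snd ⟨c, hc⟩ (g ^ i)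
    simp only [cocycles₂.coe_mk] at this
    simp [W_zero, this]
  | succ J ih =>
    have h := (mem_cocycles₂_iff c).1 hc (g ^ i) (g ^ J) g
    rw [← pow_add, ← pow_succ] at h
    rw [← add_assoc, W_succ, W_succ, map_add]
    have h2 : c (g ^ i, g ^ (J + 1)) = c (g ^ (i + J), g) + c (g ^ i, g ^ J)
        - A.ρ (g ^ i) (c (g ^ J, g)) := by
      rw [h]; abel
    rw [h2, ih]
    abel

omit [Finite G] in
lemma periodic_s (c : G × G → A) (j : ℕ) :
    (fun j => c (g ^ j, g)) (j + Nat.card G) = (fun j => c (g ^ j, g)) j := by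
  simp only
  rw [pow_add, ← orderOf_gen hg, pow_orderOf_eq_one, mul_one]

/-- the invariant attached to a 2-cocycle -/
lemma T_invariant (c : G × G → A) (hc : c ∈ cocycles₂ A) (x : G) :
    A.ρ x (W (fun j => c (g ^ j, g)) (Nat.card G)) = W (fun j => c (g ^ j, g)) (Nat.card G) := by
  have h1 : A.ρ g (W (fun j => c (g ^ j, g)) (Nat.card G))
      = W (fun j => c (g ^ j, g)) (Nat.card G) := by
    have h := cocycle_formula A c hc (g := g) 1 (Nat.card G)
    have h0 := cocycles₂_map_one_snd ⟨c, hc⟩ (g ^ 1)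
    simp only [cocycles₂.coe_mk] at h0
    rw [← orderOf_gen hg, pow_orderOf_eq_one, h0, orderOf_gen hg,
      W_add_period _ _ (periodic_s hg A c)] at h
    rw [pow_one] at h
    have h' : (0 : A) = W (fun j => c (g ^ j, g)) (Nat.card G)
        - A.ρ g (W (fun j => c (g ^ j, g)) (Nat.card G)) := by
      have := congrArg (fun t => t - A.ρ g (c (1, 1))) h
      simp only [sub_self] at this
      rw [this]; abel
    exact (sub_eq_zero.1 h'.symm).symm
  obtain ⟨k, rfl⟩ := exists_pow_of_gen hg x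
  induction k with
  | zero => simp
  | succ k ih => rw [pow_succ, ρ_mul_apply, h1, ih]

/-- every 2-cocycle is cohomologous to a standard one -/
lemma cocycle_sub_cyc_mem (c : G × G → A) (hc : c ∈ cocycles₂ A) :
    c - cycCochain g (W (fun j => c (g ^ j, g)) (Nat.card G)) ∈ coboundaries₂ A := by
  apply mem_cob A _ (fun x => c (1, 1) - W (fun j => c (g ^ j, g)) (dlog g x))
  intro x y
  have h := cocycle_formula A c hc (g := g) (dlog g x) (dlog g y)
  rw [pow_dlog hg, pow_dlog hg, W_dlog hg A _ (periodic_s hg A c)] at h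
  rw [Pi.sub_apply, cycCochain_eq, h, map_sub]
  abel

omit hg [Finite G] in
lemma ρ_W_orbit (b : A) (i J : ℕ) :
    A.ρ (g ^ i) (W (fun j => A.ρ (g ^ j) b) J)
      = W (fun j => A.ρ (g ^ j) b) (i + J) - W (fun j => A.ρ (g ^ j) b) i := by
  induction J with
  | zero => simp [W_zero]
  | succ J ih =>
    rw [← add_assoc, W_succ, W_succ, map_add, ih, ρ_pow_add]
    abel

omit [Finite G] in
lemma periodic_orbit (b : A) (j : ℕ) :
    (fun j => A.ρ (g ^ j) b) (j + Nat.card G) = (fun j => A.ρ (g ^ j) b) j := by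
  simp only
  rw [pow_add, ← orderOf_gen hg, pow_orderOf_eq_one, mul_one]

lemma cyc_norm_mem_cob (b : A) :
    cycCochain g (W (fun j => A.ρ (g ^ j) b) (Nat.card G)) ∈ coboundaries₂ A := by
  apply mem_cob A _ (fun x => W (fun j => A.ρ (g ^ j) b) (dlog g x))
  intro x y
  have h := ρ_W_orbit A (g := g) b (dlog g x) (dlog g y)
  rw [pow_dlog hg, W_dlog hg A _ (periodic_orbit hg A b)] at h
  rw [cycCochain_eq, h]
  abel

omit [Finite G] in
lemma sum_shift {M : Type} [AddCancelCommMonoid M] (f : G → M) :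
    ∑ j ∈ Finset.range (Nat.card G), f (g ^ (j + 1)) = ∑ j ∈ Finset.range (Nat.card G), f (g ^ j) := by
  have h1 := Finset.sum_range_succ (fun j => f (g ^ j)) (Nat.card G)
  have h2 := Finset.sum_range_succ' (fun j => f (g ^ j)) (Nat.card G)
  rw [h1] at h2
  have h3 : g ^ Nat.card G = g ^ 0 := by
    rw [← orderOf_gen hg, pow_orderOf_eq_one, pow_zero]
  rw [h3] at h2
  exact (add_right_cancel h2).symm

lemma sum_carry : ∑ j ∈ Finset.range (Nat.card G), carry g (g ^ j) g = dlog g g := by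
  have h : ∀ j ∈ Finset.range (Nat.card G),
      dlog g (g ^ j) + dlog g g = dlog g (g ^ (j + 1)) + Nat.card G * carry g (g ^ j) g := by
    intro j _
    rw [dlog_add hg, pow_succ]
  have h2 := Finset.sum_congr rfl h
  rw [Finset.sum_add_distrib, Finset.sum_add_distrib, sum_shift hg (fun x => dlog g x),
    ← Finset.mul_sum, Finset.sum_const, Finset.card_range, smul_eq_mul] at h2
  have hpos : 0 < Nat.card G := Nat.card_pos
  exact (Nat.eq_of_mul_eq_mul_left hpos (add_left_cancel h2)).symm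

lemma T_cyc (a : A) :
    W (fun j => cycCochain g a (g ^ j, g)) (Nat.card G) = dlog g g • a := by
  unfold W
  simp only [cycCochain_eq]
  rw [← Finset.sum_smul, sum_carry hg]

omit [Finite G] in
lemma T_cob (f : G × G → A) (w : G → A)
    (h : ∀ x y, f (x, y) = A.ρ x (w y) - w (x * y) + w x) :
    W (fun j => f (g ^ j, g)) (Nat.card G) = W (fun j => A.ρ (g ^ j) (w g)) (Nat.card G) := by
  unfold W
  simp only [h, ← pow_succ]
  rw [Finset.sum_add_distrib, Finset.sum_sub_distrib, sum_shift hg w]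
  abel

lemma norm_eq (b : A) : ∑ᶠ y : G, A.ρ y b = W (fun j => A.ρ (g ^ j) b) (Nat.card G) :=
  finsum_eq_sum_range hg _

lemma cyc_mem_cob_iff (a : A) :
    cycCochain g a ∈ coboundaries₂ A ↔ ∃ b : A, a = ∑ᶠ y : G, A.ρ y b := by
  constructor
  · intro h
    obtain ⟨w, hw⟩ := exists_of_mem_cob A _ h
    have hpos : 0 < Nat.card G := Nat.card_pos
    rcases Nat.lt_or_ge 1 (Nat.card G) with h1 | h1
    · refine ⟨w g, ?_⟩
      rw [norm_eq hg, ← T_cob hg A _ w hw, T_cyc hg]
      have : dlog g g = 1 := by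
        have h2 := dlog_pow g 1
        rwa [pow_one, orderOf_gen hg, Nat.mod_eq_of_lt h1] at h2
      rw [this, one_smul]
    · have h1' : Nat.card G = 1 := by omega
      refine ⟨a, ?_⟩
      rw [norm_eq hg, h1']
      simp [W]
  · rintro ⟨b, rfl⟩
    rw [norm_eq hg]
    exact cyc_norm_mem_cob hg A b

end Coh

section Maps

variable {G H : Type} [Group G] [Group H] {A : Rep.{0} ℤ H} {B : Rep.{0} ℤ G}
  (f : G →* H) (φ : Rep.res f A ⟶ B)

/-- the map induced on `H²` in terms of explicit cocycles, up to coboundaries -/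
lemma map_H2π_eq (c : H × H → A) (hc : c ∈ cocycles₂ A) (c' : G × G → B) (hc' : c' ∈ cocycles₂ B)
    (h : (fun x : G × G => φ.hom (c (f x.1, f x.2))) - c' ∈ coboundaries₂ B) :
    (groupCohomology.map f φ 2).hom ((H2π A).hom ⟨c, hc⟩) = (H2π B).hom ⟨c', hc'⟩ := by
  have h1 := H2π_comp_map_apply f φ ⟨c, hc⟩
  refine h1.trans ?_
  apply (H2π_eq_iff _ _).2
  exact h

end Maps

end CycH2

theorem cycH2 : Stmt_cycH2 := by
  intro G _ _ g hg A
  refine ⟨fun a ha => CycH2.cyc_mem hg A a ha, ?_, ?_⟩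
  · intro x
    induction x using H2_induction_on with
    | h c =>
      obtain ⟨c, hc⟩ := c
      have hT := CycH2.T_invariant hg A c hc
      refine ⟨_, CycH2.cyc_mem hg A _ hT, hT, ?_⟩
      symm
      apply (H2π_eq_iff _ _).2
      exact CycH2.cocycle_sub_cyc_mem hg A c hc
  · intro a h _
    rw [← CycH2.cyc_mem_cob_iff hg A a]
    exact H2π_eq_zero_iff _

theorem cycNat : Stmt_cycNat := by
  intro G _ _ g A B φ a h1 h2
  apply CycH2.map_H2π_eq
  convert (coboundaries₂ B).zero_mem using 1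
  ext ⟨x, y⟩
  simp only [Pi.sub_apply, Pi.zero_apply, MonoidHom.id_apply, CycH2.cycCochain_eq, map_nsmul]
  exact sub_self _

theorem cycRes : Stmt_cycRes := by
  intro G _ _ g hg A H a _ h1 gH hgH h2
  obtain ⟨_, hd⟩ := CycH2.dlog_subgroup hg H gH hgH
  apply CycH2.map_H2π_eq
  convert (coboundaries₂ (Rep.res H.subtype A)).zero_mem using 1
  ext ⟨x, y⟩
  have hcard : Nat.card H * H.index = Nat.card G := H.card_mul_index
  have hpos : 0 < H.index := Nat.pos_of_ne_zero H.index_ne_zero_of_finite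
  have hiff : Nat.card G ≤ dlog g (x : G) + dlog g (y : G) ↔
      Nat.card H ≤ dlog gH x + dlog gH y := by
    rw [hd, hd, ← hcard, ← mul_add, mul_comm (Nat.card H)]
    exact Nat.mul_le_mul_left_iff hpos
  have heq : cycCochain g a ((x : G), (y : G))
      = cycCochain gH (a : Rep.res H.subtype A) (x, y) := by
    unfold cycCochain
    simp only [hiff]
  simp only [Pi.sub_apply, Pi.zero_apply, Subgroup.coe_subtype]
  rw [heq]
  exact sub_self _

theorem cycInf : Stmt_cycInf := by
  intro G _ _ g hg A N _ a ha h1 a' ha' h2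
  apply CycH2.map_H2π_eq
  apply CycH2.mem_cob A _ (fun x => -((dlog g x / Nat.card (G ⧸ N)) • a))
  intro x y
  have h := CycH2.carry_quotient hg N x y
  have h' := congrArg (fun t : ℕ => t • a) h
  simp only [add_smul, mul_smul] at h'
  rw [Pi.sub_apply, CycH2.cycCochain_eq, CycH2.cycCochain_eq, map_nsmul, map_neg, map_nsmul, ha,
    smul_comm]
  change CycH2.carry (QuotientGroup.mk g : G ⧸ N) (QuotientGroup.mk x) (QuotientGroup.mk y) • a'.1
    - _ = _
  rw [ha']
  generalize (dlog g x / Nat.card (G ⧸ N)) • a = X at *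
  generalize (dlog g y / Nat.card (G ⧸ N)) • a = Y at *
  generalize (dlog g (x * y) / Nat.card (G ⧸ N)) • a = Z at *
  generalize CycH2.carry (QuotientGroup.mk g : G ⧸ N) (QuotientGroup.mk x) (QuotientGroup.mk y) • a
    = C at *
  generalize Nat.card N • CycH2.carry g x y • a = D at *
  have hC : C = Z + D - X - Y := by rw [← h']; abel
  rw [hC]; abel

end Fermat.Agent.CFT.P0

end
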