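/-
TEAM CFT, sub-project P0-7b: Tate's theorem via the splitting module.
-/
import Fermat.Agent.CFT.P0.Interface

set_option autoImplicit false

noncomputable section

namespace Fermat.Agent.CFT.P0

open CategoryTheory CategoryTheory.Limits groupCohomology Rep

/-- An abstract model of the augmentation ideal `I_G` of `ℤ[G]`: it is the free abelian group on
the symbols `e σ = σ - 1` (`σ ≠ 1`, `e 1 = 0`), with `σ (e τ) = e (σ τ) - e σ`. -/
structure AugModel (G : Type) [Group G] where
  I : Rep.{0} ℤ G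
  e : G → I
  e_smul : ∀ σ τ : G, I.ρ σ (e τ) = e (σ * τ) - e σ
  lift : ∀ (M : Type) [AddCommGroup M] (φ : G → M), φ 1 = 0 →
    ∃ f : I →+ M, ∀ τ, f (e τ) = φ τ
  span : ∀ p : AddSubgroup I, (∀ τ, e τ ∈ p) → p = ⊤

namespace AugModel

variable {G : Type} [Group G] (A : AugModel G)

lemma hom_ext {M : Type} [AddCommGroup M] {f g : A.I →+ M}
    (h : ∀ τ, f (A.e τ) = g (A.e τ)) : f = g := by
  have := A.span (AddMonoidHom.eqLocus f g) h
  ext y
  have hy : y ∈ AddMonoidHom.eqLocus f g := this ▸ AddSubgroup.mem_top y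
  exact hy

end AugModel

namespace Split

attribute [-instance] AddCommGroup.toIntModule

variable {G : Type} [Group G] (A : AugModel G) (C : Rep.{0} ℤ G) (c : cocycles₂ C)

/-- the twisting maps `f_σ : I_G → C`, `e τ ↦ c(σ,τ) - c(σ,1)` -/
def tw (σ : G) : A.I →+ C :=
  Classical.choose (A.lift C (fun τ => c.1 (σ, τ) - c.1 (σ, 1)) (by simp))

lemma tw_e (σ τ : G) : tw A C c σ (A.e τ) = c.1 (σ, τ) - c.1 (σ, 1) :=
  Classical.choose_spec (A.lift C (fun τ => c.1 (σ, τ) - c.1 (σ, 1)) (by simp)) τ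

lemma coc (σ τ ρ : G) :
    c.1 (σ * τ, ρ) + c.1 (σ, τ) = C.ρ σ (c.1 (τ, ρ)) + c.1 (σ, τ * ρ) :=
  (mem_cocycles₂_iff c.1).1 c.2 σ τ ρ

lemma coc_one_left (τ : G) : c.1 (1, τ) = c.1 (1, 1) := by
  have := coc C c 1 1 τ
  simp only [mul_one, one_mul, map_one, Module.End.one_apply] at this
  exact (add_left_cancel this).symm

lemma coc_one_right (σ : G) : c.1 (σ, 1) = C.ρ σ (c.1 (1, 1)) := by
  have := coc C c σ 1 1
  simp only [mul_one] at this
  exact add_right_cancel this

lemma tw_one : tw A C c 1 = 0 := by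
  apply A.hom_ext
  intro τ
  rw [tw_e, coc_one_left]
  simp

lemma tw_mul (σ τ : G) (y : A.I) :
    tw A C c (σ * τ) y = C.ρ σ (tw A C c τ y) + tw A C c σ (A.I.ρ τ y) := by
  have : tw A C c (σ * τ) = (C.ρ σ).toAddMonoidHom.comp (tw A C c τ) +
      (tw A C c σ).comp (A.I.ρ τ).toAddMonoidHom := by
    apply A.hom_ext
    intro ρ
    simp only [AddMonoidHom.add_apply, AddMonoidHom.comp_apply, LinearMap.toAddMonoidHom_coe,
      tw_e, A.e_smul, map_sub]
    have h1 := coc C c σ τ ρ
    have h2 := coc C c σ τ 1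
    simp only [mul_one] at h2
    have h1' : c.1 (σ * τ, ρ) = C.ρ σ (c.1 (τ, ρ)) + c.1 (σ, τ * ρ) - c.1 (σ, τ) :=
      eq_sub_of_add_eq h1
    have h2' : c.1 (σ * τ, 1) = C.ρ σ (c.1 (τ, 1)) := add_right_cancel h2
    rw [h1', h2']
    abel
  exact DFunLike.congr_fun this y

/-- an additive map is `ℤ`-linear, for arbitrary `ℤ`-module structures -/
def toLin {M N : Type} [AddCommGroup M] [AddCommGroup N] [Module ℤ M] [Module ℤ N]
    (f : M →+ N) : M →ₗ[ℤ] N :=
  { toFun := f
    map_add' := f.map_add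
    map_smul' := fun m x => by simpa using map_intCast_smul f ℤ ℤ m x }

@[simp] lemma toLin_apply {M N : Type} [AddCommGroup M] [AddCommGroup N] [Module ℤ M]
    [Module ℤ N] (f : M →+ N) (x : M) : toLin f x = f x := rfl

/-- the action of `σ` on the splitting module `C × I_G` -/
def act (σ : G) : (C × A.I) →+ (C × A.I) :=
  AddMonoidHom.prod (AddMonoidHom.coprod (C.ρ σ).toAddMonoidHom (tw A C c σ))
    ((A.I.ρ σ).toAddMonoidHom.comp (AddMonoidHom.snd C A.I))

lemma act_apply (σ : G) (x : C) (y : A.I) :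
    act A C c σ (x, y) = (C.ρ σ x + tw A C c σ y, A.I.ρ σ y) := rfl

/-- the splitting module as a representation -/
def rho : Representation ℤ G (C × A.I) where
  toFun σ := toLin (act A C c σ)
  map_one' := by
    refine LinearMap.ext fun ⟨x, y⟩ => ?_
    simp [act_apply, tw_one]
  map_mul' σ τ := by
    refine LinearMap.ext fun ⟨x, y⟩ => ?_
    simp [act_apply, tw_mul, add_assoc]

lemma rho_apply (σ : G) (x : C) (y : A.I) :
    rho A C c σ (x, y) = (C.ρ σ x + tw A C c σ y, A.I.ρ σ y) := rfl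

/-- the splitting module -/
def M : Rep.{0} ℤ G := Rep.of (rho A C c)

/-- inclusion `C → C(γ)` -/
def inc : C ⟶ M A C c :=
  Rep.ofHom (ρ := C.ρ) (σ := rho A C c) ⟨toLin (AddMonoidHom.inl C A.I), fun g => by
    refine LinearMap.ext fun x => ?_
    simp [rho_apply]⟩

/-- projection `C(γ) → I_G` -/
def proj : M A C c ⟶ A.I :=
  Rep.ofHom (ρ := rho A C c) (σ := A.I.ρ) ⟨toLin (AddMonoidHom.snd C A.I), fun g => by
    refine LinearMap.ext fun ⟨x, y⟩ => ?_
    simp [rho_apply]⟩

lemma inc_apply (x : C) : (inc A C c).hom x = ((x, 0) : C × A.I) := rfl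

lemma proj_apply (x : C) (y : A.I) : (proj A C c).hom ((x, y) : C × A.I) = y := rfl

lemma inc_proj : inc A C c ≫ proj A C c = 0 := by
  ext x
  rfl

/-- the short complex `C → C(γ) → I_G` -/
def sc : ShortComplex (Rep.{0} ℤ G) := ShortComplex.mk (inc A C c) (proj A C c) (inc_proj A C c)

lemma sc_shortExact : (sc A C c).ShortExact where
  exact := by
    rw [← ShortComplex.exact_map_iff_of_faithful _ (forget₂ (Rep.{0} ℤ G) (ModuleCat ℤ)),
      ShortComplex.moduleCat_exact_iff]
    rintro ⟨x, y⟩ h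
    refine ⟨x, ?_⟩
    have hy : y = 0 := h
    subst hy
    rfl
  mono_f := by
    rw [Rep.mono_iff_injective]
    intro x x' h
    exact congrArg Prod.fst h
  epi_g := by
    rw [Rep.epi_iff_surjective]
    intro y
    exact ⟨((0, y) : C × A.I), rfl⟩

/-- the restriction of the splitting sequence to a subgroup -/
def scRes (H : Subgroup G) : ShortComplex (Rep.{0} ℤ H) :=
  (sc A C c).map (resFunctor H.subtype)

lemma scRes_shortExact (H : Subgroup G) : (scRes A C c H).ShortExact :=
  (shortExact_res H.subtype).2 (sc_shortExact A C c)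

/-- the tautological cocycle `σ ↦ σ - 1` -/
def zcoc (H : Subgroup G) : cocycles₁ (Rep.res H.subtype A.I) :=
  ⟨fun σ => A.e σ, by
    rw [mem_cocycles₁_iff]
    intro g h
    show A.e ((g : G) * h) = A.I.ρ g (A.e h) + A.e g
    rw [A.e_smul]; abel⟩

/-- Key computation: the connecting map sends the class of `σ ↦ σ - 1` to `res_H [c]`. -/
lemma delta_zcoc (H : Subgroup G) :
    (δ (scRes_shortExact A C c H) 1 2 rfl).hom (H1π _ (zcoc A H)) =
      (resMap C H 2).hom (H2π C c) := by
  have hx : (scRes A C c H).f.hom ∘ (fun p : H × H => c.1 ((p.1 : G), (p.2 : G))) =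
      d₁₂ (scRes A C c H).X₂ (fun σ : H => ((c.1 (1, 1), A.e σ) : C × A.I)) := by
    funext ⟨σ, τ⟩
    refine Eq.trans ?_ (d₁₂_hom_apply (scRes A C c H).X₂ _ _).symm
    show ((c.1 ((σ : G), (τ : G)), 0) : C × A.I) =
      rho A C c σ (c.1 (1, 1), A.e τ) - (c.1 (1, 1), A.e ((σ : G) * τ)) + (c.1 (1, 1), A.e σ)
    rw [rho_apply, tw_e, A.e_smul, coc_one_right C c σ]
    ext <;> simp
  have := δ₁_apply (scRes_shortExact A C c H) (zcoc A H)
    (fun σ : H => ((c.1 (1, 1), A.e σ) : C × A.I)) rfl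
    (fun p : H × H => c.1 ((p.1 : G), (p.2 : G))) hx
  refine this.trans ?_
  have h2 := H2π_comp_map_apply (A := C) (B := Rep.res H.subtype C) H.subtype (𝟙 _) c
  refine Eq.trans ?_ h2.symm
  rfl

end Split

section Abstract

/-- pure group theory: the image of a generator under a "restriction-like" map generates. -/
lemma gen_of_index {X Y : Type} [AddCommGroup X] [AddCommGroup Y] (r : X →+ Y) (γ : X)
    (hγ : ∀ x : X, ∃ m : ℤ, x = m • γ) (k h : ℕ) (hk : 0 < k) (hh : 0 < h)
    (hX : Nat.card X = k * h) (hY : Nat.card Y = h)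
    (hr : ∀ x : X, r x = 0 → k • x = 0) (y : Y) : ∃ m : ℤ, y = m • r γ := by
  have htop : AddSubgroup.zmultiples γ = ⊤ := by
    rw [eq_top_iff]
    intro x _
    obtain ⟨m, rfl⟩ := hγ x
    exact AddSubgroup.zsmul_mem_zmultiples γ m
  have hord : addOrderOf γ = k * h := by
    rw [← Nat.card_zmultiples, htop, ← hX]
    exact Nat.card_congr AddSubgroup.topEquiv.toEquiv
  have hfin : Finite Y := Nat.finite_of_card_ne_zero (by omega)
  have h1 : h ∣ addOrderOf (r γ) := by
    have h0 : r (addOrderOf (r γ) • γ) = 0 := by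
      rw [map_nsmul, addOrderOf_nsmul_eq_zero]
    have h2 := hr _ h0
    rw [← mul_nsmul', ← addOrderOf_dvd_iff_nsmul_eq_zero, hord] at h2
    exact Nat.dvd_of_mul_dvd_mul_left hk h2
  have h2 : addOrderOf (r γ) ∣ h := hY ▸ addOrderOf_dvd_natCard (r γ)
  have h3 : addOrderOf (r γ) = h := Nat.dvd_antisymm h2 h1
  have h4 : AddSubgroup.zmultiples (r γ) = ⊤ := by
    apply AddSubgroup.eq_top_of_card_eq
    rw [Nat.card_zmultiples, h3, hY]
  have hy : y ∈ AddSubgroup.zmultiples (r γ) := h4 ▸ AddSubgroup.mem_top y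
  obtain ⟨m, hm⟩ := AddSubgroup.mem_zmultiples_iff.1 hy
  exact ⟨m, hm.symm⟩

end Abstract

section Top

universe u

variable {k G : Type u} [CommRing k] [Group G]

/-- `Hⁿ(G,A) ≅ Hⁿ(⊤,A)` -/
def topIso (A : Rep.{u} k G) (n : ℕ) :
    groupCohomology A n ≅ groupCohomology (Rep.res (⊤ : Subgroup G).subtype A) n :=
  (mapIso (A := A) (B := Rep.res (⊤ : Subgroup G).subtype A) Subgroup.topEquiv
    (LinearEquiv.refl k A.V) (fun _ => rfl) n).symm

lemma topIso_hom (A : Rep.{u} k G) (n : ℕ) : (topIso A n).hom = resMap A ⊤ n := by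
  simp only [topIso, Iso.symm_hom]
  exact map_congr rfl rfl n

end Top

section Main

variable {G : Type} [Group G] [Finite G]

/-- In a class module there is a fundamental class whose restrictions generate all `H²(H,C)`. -/
lemma exists_fundamental (hres : Stmt_resIndex.{0}) (C : Rep.{0} ℤ G) (hC : IsClassModule C) :
    ∃ γ : groupCohomology C 2, ∀ (H : Subgroup G)
      (y : groupCohomology (Rep.res H.subtype C) 2), ∃ m : ℤ, y = m • (resMap C H 2).hom γ := by
  obtain ⟨-, hcard, γ', hγ'⟩ := hC ⊤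
  let e := (topIso C 2).toLinearEquiv
  refine ⟨e.symm γ', fun H y => ?_⟩
  have hgen : ∀ x : groupCohomology C 2, ∃ m : ℤ, x = m • e.symm γ' := by
    intro x
    obtain ⟨m, hm⟩ := hγ' (e x)
    refine ⟨m, ?_⟩
    rw [← map_zsmul, ← hm, LinearEquiv.symm_apply_apply]
  have hcardG : Nat.card (groupCohomology C 2) = H.index * Nat.card H := by
    rw [Nat.card_congr e.toEquiv, hcard, Subgroup.index_mul_card]
    exact Nat.card_congr Subgroup.topEquiv.toEquiv
  exact gen_of_index (resMap C H 2).hom.toAddMonoidHom (e.symm γ') hgen H.index (Nat.card H)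
    (Nat.pos_of_ne_zero H.index_ne_zero_of_finite) Nat.card_pos hcardG (hC H).2.1
    (fun x hx => hres ℤ G C H 2 x hx) y

omit [Finite G] in
/-- if `δ : H¹(X₃) → H²(X₁)` is bijective, `H¹(X₁) = 0` and `H²(X₃) = 0` then
`H¹(X₂) = H²(X₂) = 0`. -/
lemma isZero_mid {X : ShortComplex (Rep.{0} ℤ G)} (hX : X.ShortExact)
    (h1 : IsZero (groupCohomology X.X₁ 1)) (h2 : IsZero (groupCohomology X.X₃ 2))
    (hbij : Function.Bijective (δ hX 1 2 rfl).hom) :
    IsZero (groupCohomology X.X₂ 1) ∧ IsZero (groupCohomology X.X₂ 2) := by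
  have hmono : Mono (δ hX 1 2 rfl) := (ModuleCat.mono_iff_injective _).2 hbij.1
  have hepi : Epi (δ hX 1 2 rfl) := (ModuleCat.epi_iff_surjective _).2 hbij.2
  constructor
  · refine (mapShortComplex₂_exact hX 1).isZero_X₂ ?_ ?_
    · exact h1.eq_of_src _ _
    · have h3 := (mapShortComplex₃ hX (i := 1) (j := 2) rfl).zero
      exact (cancel_mono (δ hX 1 2 rfl)).1 (h3.trans zero_comp.symm)
  · refine (mapShortComplex₂_exact hX 2).isZero_X₂ ?_ ?_
    · have h1 := (mapShortComplex₁ hX (i := 1) (j := 2) rfl).zero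
      exact (cancel_epi (δ hX 1 2 rfl)).1 (h1.trans comp_zero.symm)
    · exact h2.eq_of_tgt _ _

/-- The splitting module of a fundamental class has trivial `H¹` and `H²` for all subgroups. -/
lemma split_vanish (A : AugModel G) (C : Rep.{0} ℤ G) (hC : IsClassModule C) (c : cocycles₂ C)
    (hcard : ∀ H : Subgroup G,
      Nat.card (groupCohomology (Rep.res H.subtype A.I) 1) = Nat.card H)
    (hH2 : ∀ H : Subgroup G, IsZero (groupCohomology (Rep.res H.subtype A.I) 2))
    (hc : ∀ (H : Subgroup G) (y : groupCohomology (Rep.res H.subtype C) 2),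
      ∃ m : ℤ, y = m • (resMap C H 2).hom (H2π C c)) (H : Subgroup G) :
    IsZero (groupCohomology (Rep.res H.subtype (Split.M A C c)) 1) ∧
      IsZero (groupCohomology (Rep.res H.subtype (Split.M A C c)) 2) := by
  have hX := Split.scRes_shortExact A C c H
  have hsurj : Function.Surjective (δ hX 1 2 rfl).hom := by
    intro y
    obtain ⟨m, hm⟩ := hc H y
    refine ⟨m • H1π _ (Split.zcoc A H), ?_⟩
    refine (map_zsmul (δ hX 1 2 rfl).hom m _).trans ?_
    exact (congrArg (fun t => m • t) (Split.delta_zcoc A C c H)).trans hm.symm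
  have hfin : Finite (groupCohomology (Split.scRes A C c H).X₃ 1) :=
    Nat.finite_of_card_ne_zero (by
      show Nat.card (groupCohomology (Rep.res H.subtype A.I) 1) ≠ 0
      rw [hcard H]; exact Nat.card_pos.ne')
  have hbij : Function.Bijective (δ hX 1 2 rfl).hom :=
    hsurj.bijective_of_nat_card_le (by
      show Nat.card (groupCohomology (Rep.res H.subtype A.I) 1) ≤
        Nat.card (groupCohomology (Rep.res H.subtype C) 2)
      rw [hcard H, (hC H).2.1])
  exact isZero_mid hX (hC H).1 (hH2 H) hbij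

/-- **Tate's theorem** (degrees 3 and 4), relative to a model of the augmentation ideal. -/
theorem tate_of_model (h : Stmt_cohTriv.{0}) (hres : Stmt_resIndex.{0}) (A : AugModel G)
    (hcard : ∀ H : Subgroup G,
      Nat.card (groupCohomology (Rep.res H.subtype A.I) 1) = Nat.card H)
    (hH2 : ∀ H : Subgroup G, IsZero (groupCohomology (Rep.res H.subtype A.I) 2))
    (hshift : Nonempty (groupCohomology A.I 3 ≅ groupCohomology (Rep.trivial ℤ G ℤ) 2))
    (C : Rep.{0} ℤ G) (hC : IsClassModule C) :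
    IsZero (groupCohomology C 3) ∧
      Nonempty (groupCohomology C 4 ≅ groupCohomology (Rep.trivial ℤ G ℤ) 2) := by
  obtain ⟨γ, hγ⟩ := exists_fundamental hres C hC
  induction γ using H2_induction_on with
  | h c =>
    have hv := split_vanish A C hC c hcard hH2 hγ
    have hacyc : ∀ n : ℕ, IsZero (groupCohomology (Split.M A C c) (n + 1)) := fun n =>
      (h ℤ G (Split.M A C c) hv ⊤ n).of_iso (topIso (Split.M A C c) (n + 1))
    have hX := Split.sc_shortExact A C c
    have i2 : IsIso (δ hX 2 3 rfl) := isIso_δ_of_isZero hX 2 (hacyc 1) (hacyc 2)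
    have i3 : IsIso (δ hX 3 4 rfl) := isIso_δ_of_isZero hX 3 (hacyc 2) (hacyc 3)
    have hI2 : IsZero (groupCohomology A.I 2) := (hH2 ⊤).of_iso (topIso A.I 2)
    obtain ⟨e⟩ := hshift
    exact ⟨hI2.of_iso (asIso (δ hX 2 3 rfl)).symm, ⟨(asIso (δ hX 3 4 rfl)).symm ≪≫ e⟩⟩

end Main

end Fermat.Agent.CFT.P0

end
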