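/-
TEAM CFT, P0-6 : cohomological triviality criterion (upward direction).
-/
import Fermat.Agent.CFT.P0.Interface

set_option autoImplicit false

noncomputable section

namespace Fermat.Agent.CFT.P0.CohTriv

open CategoryTheory CategoryTheory.Limits groupCohomology Rep

universe u

variable {k : Type u} [CommRing k]

/-- transport of cohomology along a group isomorphism onto the image. -/
lemma isZero_transport {G G₁ G₂ : Type u} [Group G] [Group G₁] [Group G₂] (A : Rep.{u} k G)
    (f₁ : G₁ →* G) (f₂ : G₂ →* G) (e : G₁ ≃* G₂) (he : ∀ g, f₂ (e g) = f₁ g) (n : ℕ)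
    (h : IsZero (groupCohomology (Rep.res f₂ A) n)) :
    IsZero (groupCohomology (Rep.res f₁ A) n) := by
  have i : groupCohomology (Rep.res f₁ A) n ≅ groupCohomology (Rep.res f₂ A) n :=
    groupCohomology.mapIso e (LinearEquiv.refl k _) (by
      intro g
      ext x
      change A.ρ (f₁ g) x = A.ρ (f₂ (e g)) x
      rw [he]) n
  exact h.of_iso i

/-- The hypothesis, in a form which is stable under restriction. -/
def Hyp {G : Type u} [Group G] (A : Rep.{u} k G) : Prop :=
  ∀ (G' : Type u) [Group G'] (f : G' →* G), Function.Injective f →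
    IsZero (groupCohomology (Rep.res f A) 1) ∧ IsZero (groupCohomology (Rep.res f A) 2)

lemma hyp_of_subgroups {G : Type u} [Group G] (A : Rep.{u} k G)
    (h : ∀ H : Subgroup G, IsZero (groupCohomology (Rep.res H.subtype A) 1) ∧
      IsZero (groupCohomology (Rep.res H.subtype A) 2)) : Hyp A := by
  intro G' _ f hf
  have e : G' ≃* f.range := MonoidHom.ofInjective hf
  exact ⟨isZero_transport A f f.range.subtype (MonoidHom.ofInjective hf) (fun g => rfl) 1
      (h f.range).1,
    isZero_transport A f f.range.subtype (MonoidHom.ofInjective hf) (fun g => rfl) 2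
      (h f.range).2⟩

lemma isZero_of_res_id {G : Type u} [Group G] (A : Rep.{u} k G) (n : ℕ)
    (h : IsZero (groupCohomology (Rep.res (MonoidHom.id G) A) n)) :
    IsZero (groupCohomology A n) := by
  have i : groupCohomology A n ≅ groupCohomology (Rep.res (MonoidHom.id G) A) n :=
    groupCohomology.mapIso (MulEquiv.refl G) (LinearEquiv.refl k _) (by
      intro g
      rfl) n
  exact h.of_iso i

lemma isZero_res_res {G G₁ G₂ : Type u} [Group G] [Group G₁] [Group G₂] (A : Rep.{u} k G)
    (f : G₁ →* G) (g : G₂ →* G₁) (n : ℕ)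
    (h : IsZero (groupCohomology (Rep.res (f.comp g) A) n)) :
    IsZero (groupCohomology (Rep.res g (Rep.res f A)) n) := by
  have i : groupCohomology (Rep.res g (Rep.res f A)) n ≅
      groupCohomology (Rep.res (f.comp g) A) n :=
    groupCohomology.mapIso (MulEquiv.refl G₂) (LinearEquiv.refl k _) (by
      intro g
      rfl) n
  exact h.of_iso i

lemma Hyp.res {G G₁ : Type u} [Group G] [Group G₁] {A : Rep.{u} k G} (h : Hyp A)
    (f : G₁ →* G) (hf : Function.Injective f) : Hyp (Rep.res f A) := by
  intro G' _ g hg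
  have := h G' (f.comp g) (hf.comp hg)
  exact ⟨isZero_res_res A f g 1 this.1, isZero_res_res A f g 2 this.2⟩

lemma Hyp.self {G : Type u} [Group G] {A : Rep.{u} k G} (h : Hyp A) :
    IsZero (groupCohomology A 1) ∧ IsZero (groupCohomology A 2) := by
  have := h G (MonoidHom.id G) (fun _ _ h => h)
  exact ⟨isZero_of_res_id A 1 this.1, isZero_of_res_id A 2 this.2⟩

/-- cyclic groups -/
lemma cyclic (h3 : Stmt_periodic.{u}) {G : Type u} [Group G] [Finite G] [IsCyclic G]
    (A : Rep.{u} k G) (ha : IsZero (groupCohomology A 1)) (hb : IsZero (groupCohomology A 2)) :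
    ∀ n : ℕ, IsZero (groupCohomology A (n + 1))
  | 0 => ha
  | 1 => hb
  | (n + 2) => by
    obtain ⟨i⟩ := h3 k G A n
    exact (cyclic h3 A ha hb n).of_iso i.symm

/-- the inductive step -/
lemma step (h1 : Stmt_infRes.{u}) (h3 : Stmt_periodic.{u}) {G : Type u} [Group G] [Finite G]
    (A : Rep.{u} k G) (N : Subgroup G) [N.Normal] [IsCyclic (G ⧸ N)]
    (ha : IsZero (groupCohomology A 1)) (hb : IsZero (groupCohomology A 2))
    (hN : ∀ n : ℕ, IsZero (groupCohomology (Rep.res N.subtype A) (n + 1))) (n : ℕ) :
    IsZero (groupCohomology A (n + 1)) := by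
  have key : ∀ m : ℕ, Function.Injective (infMap A N (m + 1)).hom ∧
      ∀ x : groupCohomology A (m + 1), ∃ y, (infMap A N (m + 1)).hom y = x := by
    intro m
    obtain ⟨hi, hs⟩ := h1 k G A N m (by
      intro i hi _
      obtain ⟨j, rfl⟩ : ∃ j, i = j + 1 := ⟨i - 1, by omega⟩
      exact hN j)
    refine ⟨hi, fun x => hs x ?_⟩
    have := ModuleCat.subsingleton_of_isZero (hN m)
    exact Subsingleton.elim _ _
  have hq : ∀ m : ℕ, IsZero (groupCohomology A (m + 1)) →
      IsZero (groupCohomology (A.quotientToInvariants N) (m + 1)) := by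
    intro m hm
    have := ModuleCat.subsingleton_of_isZero hm
    have : Subsingleton (groupCohomology (A.quotientToInvariants N) (m + 1)) :=
      ⟨fun x y => (key m).1 (Subsingleton.elim _ _)⟩
    exact ModuleCat.isZero_of_subsingleton _
  have hz := cyclic h3 (A.quotientToInvariants N) (hq 0 ha) (hq 1 hb) n
  have := ModuleCat.subsingleton_of_isZero hz
  have : Subsingleton (groupCohomology A (n + 1)) := by
    refine ⟨fun x y => ?_⟩
    obtain ⟨x', rfl⟩ := (key n).2 x
    obtain ⟨y', rfl⟩ := (key n).2 y
    rw [Subsingleton.elim x' y']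
  exact ModuleCat.isZero_of_subsingleton _

/-- `p`-groups -/
lemma pgroup (h1 : Stmt_infRes.{u}) (h3 : Stmt_periodic.{u}) (p : ℕ) [hp : Fact p.Prime] :
    ∀ (m : ℕ) (G : Type u) [Group G] [Finite G] (A : Rep.{u} k G), Nat.card G = p ^ m →
      Hyp A → ∀ n : ℕ, IsZero (groupCohomology A (n + 1)) := by
  intro m
  induction m with
  | zero =>
    intro G _ _ A hG hA n
    have : Subsingleton G := by
      rw [pow_zero] at hG
      exact (Nat.card_eq_one_iff_unique.1 hG).1
    exact cyclic h3 A hA.self.1 hA.self.2 n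
  | succ m ih =>
    intro G _ _ A hG hA n
    obtain ⟨N, hN⟩ := Sylow.exists_subgroup_card_pow_prime (G := G) p (n := m)
      (by rw [hG]; exact pow_dvd_pow p (Nat.le_succ m))
    have hidx : N.index = p := by
      have h := N.card_mul_index
      rw [hN, hG, pow_succ] at h
      exact Nat.eq_of_mul_eq_mul_left (pow_pos hp.out.pos m) h
    have hnorm : N.Normal := by
      apply Subgroup.normal_of_index_eq_minFac_card
      rw [hidx, hG, Nat.Prime.pow_minFac hp.out (Nat.succ_ne_zero m)]
    have hcyc : IsCyclic (G ⧸ N) := by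
      apply isCyclic_of_prime_card (p := p)
      rw [← Subgroup.index_eq_card, hidx]
    exact step h1 h3 A N hA.self.1 hA.self.2
      (ih N (Rep.res N.subtype A) hN (hA.res N.subtype N.subtype_injective)) n

/-- general finite groups -/
lemma general (h1 : Stmt_infRes.{u}) (h2 : Stmt_sylowVanish.{u}) (h3 : Stmt_periodic.{u})
    (G : Type u) [Group G] [Finite G] (A : Rep.{u} k G) (hA : Hyp A) (n : ℕ) :
    IsZero (groupCohomology A (n + 1)) := by
  apply h2 k G A n
  intro p _ P
  obtain ⟨m, hm⟩ := (IsPGroup.iff_card.1 P.isPGroup')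
  exact pgroup h1 h3 p m (P : Subgroup G) _ hm
    (hA.res (P : Subgroup G).subtype (P : Subgroup G).subtype_injective) n

end Fermat.Agent.CFT.P0.CohTriv

namespace Fermat.Agent.CFT.P0

universe u

/-- P0-6 : cohomological triviality criterion. -/
theorem cohTriv (h1 : Stmt_infRes.{u}) (h2 : Stmt_sylowVanish.{u}) (h3 : Stmt_periodic.{u}) :
    Stmt_cohTriv.{u} := by
  intro k G _ _ _ A h H n
  exact CohTriv.general h1 h2 h3 H _
    ((CohTriv.hyp_of_subgroups A h).res H.subtype H.subtype_injective) n

end Fermat.Agent.CFT.P0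

end
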