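import Fermat.Agent.CFT.P0.Interface

/-!
# CFT / P0-4 : periodicity for finite cyclic groups, Herbrand bridge
-/

set_option autoImplicit false

noncomputable section

namespace Fermat.Agent.CFT.P0

open CategoryTheory CategoryTheory.Limits groupCohomology Rep

universe u

theorem periodic : Stmt_periodic.{u} := by
  intro k G _ _ _ _ A n
  obtain ⟨g, hg⟩ := IsCyclic.exists_generator (α := G)
  let _ : CommGroup G := IsCyclic.commGroup
  let _ : Fintype G := Fintype.ofFinite G
  rcases Nat.even_or_odd (n + 1) with h | h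
  · have h' : Even (n + 3) := by
      have : n + 3 = (n + 1) + 2 := rfl
      rw [this]
      exact h.add even_two
    exact ⟨Rep.FiniteCyclicGroup.groupCohomologyIsoEven A g hg (n + 1) h ≪≫
      (Rep.FiniteCyclicGroup.groupCohomologyIsoEven A g hg (n + 3) h').symm⟩
  · have h' : Odd (n + 3) := by
      have : n + 3 = (n + 1) + 2 := rfl
      rw [this]
      exact h.add_even even_two
    exact ⟨Rep.FiniteCyclicGroup.groupCohomologyIsoOdd A g hg (n + 1) h ≪≫
      (Rep.FiniteCyclicGroup.groupCohomologyIsoOdd A g hg (n + 3) h').symm⟩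

theorem cyc_card_eq_relIndex {A X : Type*} [AddCommGroup A] [AddCommGroup X]
    (K R : AddSubgroup A) (φ : K →+ X) (hs : Function.Surjective φ)
    (hk : ∀ x : K, φ x = 0 ↔ (x : A) ∈ R) : Nat.card X = R.relIndex K := by
  have h1 : φ.ker = R.addSubgroupOf K := by
    ext x
    rw [AddMonoidHom.mem_ker, hk, AddSubgroup.mem_addSubgroupOf]
  rw [AddSubgroup.relIndex, ← h1, AddSubgroup.index_ker,
    AddMonoidHom.range_eq_top.mpr hs]
  exact (Nat.card_congr AddSubgroup.topEquiv.toEquiv).symm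

theorem cyc_abstract {k : Type u} [CommRing k] {M : Type u} [AddCommGroup M] [Module k M]
    (Kl Rl : Submodule k M) (X : ModuleCat.{u} k) (π : ModuleCat.of k Kl ⟶ X) [Epi π]
    (hπ : ∀ x : Kl, π.hom x = 0 ↔ x.1 ∈ Rl) (K R : AddSubgroup M)
    (hK : ∀ a, a ∈ K ↔ a ∈ Kl) (hR : ∀ a, a ∈ R ↔ a ∈ Rl) : Nat.card X = R.relIndex K := by
  have hsurj : Function.Surjective π.hom := (ModuleCat.epi_iff_surjective π).mp inferInstance
  let φ : K →+ X :=
    { toFun := fun x => π.hom ⟨x.1, (hK _).mp x.2⟩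
      map_zero' := map_zero π.hom
      map_add' := fun x y => map_add π.hom ⟨x.1, (hK _).mp x.2⟩ ⟨y.1, (hK _).mp y.2⟩ }
  refine cyc_card_eq_relIndex K R φ ?_ ?_
  · intro y
    obtain ⟨x, rfl⟩ := hsurj y
    exact ⟨⟨x.1, (hK _).mpr x.2⟩, rfl⟩
  · intro x
    exact (hπ ⟨x.1, (hK _).mp x.2⟩).trans (hR _).symm

section Bridge

variable {k G : Type u} [CommRing k] [CommGroup G] [Fintype G] (A : Rep.{u} k G) (g : G)
  (hg : ∀ x, x ∈ Subgroup.zpowers g)

omit [Fintype G] in
theorem cyc_D_apply (a : A) : (applyAsHom A g - 𝟙 A).hom.toLinearMap a =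
    ((A.ρ g).toAddMonoidHom - AddMonoidHom.id A) a := by
  simp [sub_hom, applyAsHom]

theorem cyc_N_apply (a : A) : A.norm.hom.toLinearMap a =
    (∑ x : G, (A.ρ x).toAddMonoidHom) a := by
  simp [Rep.norm, Representation.norm]

include hg in
theorem cyc_card_H2 : Nat.card (groupCohomology A 2) =
    hq0 ((A.ρ g).toAddMonoidHom - AddMonoidHom.id A) (∑ x : G, (A.ρ x).toAddMonoidHom) := by
  have hepi : Epi (Rep.FiniteCyclicGroup.groupCohomologyπEven A g hg 2 even_two) := by
    dsimp only [Rep.FiniteCyclicGroup.groupCohomologyπEven]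
    have h1 : IsIso (ShortComplex.moduleCatCyclesIso
      (Rep.FiniteCyclicGroup.normHomCompSub A g)).inv := Iso.isIso_inv _
    have h2 : IsIso (Rep.FiniteCyclicGroup.groupCohomologyIsoEven A g hg 2 even_two).inv :=
      Iso.isIso_inv _
    have e1 : Epi (ShortComplex.moduleCatCyclesIso
      (Rep.FiniteCyclicGroup.normHomCompSub A g)).inv := IsIso.epi_of_iso _
    have e2 : Epi (ShortComplex.homologyπ (Rep.FiniteCyclicGroup.normHomCompSub A g) ≫
      (Rep.FiniteCyclicGroup.groupCohomologyIsoEven A g hg 2 even_two).inv) := epi_comp _ _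
    exact @epi_comp _ _ _ _ _ _ e1 _ e2
  refine cyc_abstract _ _ _ (Rep.FiniteCyclicGroup.groupCohomologyπEven A g hg 2 even_two)
    (Rep.FiniteCyclicGroup.groupCohomologyπEven_eq_zero_iff A g hg 2 even_two) _ _ ?_ ?_
  · intro a
    rw [LinearMap.mem_ker, cyc_D_apply, AddMonoidHom.mem_ker]
  · intro a
    constructor
    · rintro ⟨b, hb⟩
      exact ⟨b, by rw [cyc_N_apply]; exact hb⟩
    · rintro ⟨b, hb⟩
      exact ⟨b, by rw [← hb, cyc_N_apply]⟩

include hg in
theorem cyc_card_H1 : Nat.card (groupCohomology A 1) =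
    hq1 ((A.ρ g).toAddMonoidHom - AddMonoidHom.id A) (∑ x : G, (A.ρ x).toAddMonoidHom) := by
  have hepi : Epi (Rep.FiniteCyclicGroup.groupCohomologyπOdd A g hg 1 odd_one) := by
    dsimp only [Rep.FiniteCyclicGroup.groupCohomologyπOdd]
    have h1 : IsIso (ShortComplex.moduleCatCyclesIso
      (Rep.FiniteCyclicGroup.subCompNormHom A g)).inv := Iso.isIso_inv _
    have h2 : IsIso (Rep.FiniteCyclicGroup.groupCohomologyIsoOdd A g hg 1 odd_one).inv :=
      Iso.isIso_inv _
    have e1 : Epi (ShortComplex.moduleCatCyclesIso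
      (Rep.FiniteCyclicGroup.subCompNormHom A g)).inv := IsIso.epi_of_iso _
    have e2 : Epi (ShortComplex.homologyπ (Rep.FiniteCyclicGroup.subCompNormHom A g) ≫
      (Rep.FiniteCyclicGroup.groupCohomologyIsoOdd A g hg 1 odd_one).inv) := epi_comp _ _
    exact @epi_comp _ _ _ _ _ _ e1 _ e2
  refine cyc_abstract _ _ _ (Rep.FiniteCyclicGroup.groupCohomologyπOdd A g hg 1 odd_one)
    (Rep.FiniteCyclicGroup.groupCohomologyπOdd_eq_zero_iff A g hg 1 odd_one) _ _ ?_ ?_
  · intro a
    rw [LinearMap.mem_ker, cyc_N_apply, AddMonoidHom.mem_ker]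
  · intro a
    constructor
    · rintro ⟨b, hb⟩
      exact ⟨b, by rw [cyc_D_apply]; exact hb⟩
    · rintro ⟨b, hb⟩
      exact ⟨b, by rw [← hb, cyc_D_apply]⟩

end Bridge

theorem herbrandBridge : Stmt_herbrandBridge := by
  intro G _ _ g hg A
  have hcyc : IsCyclic G := ⟨g, hg⟩
  let _ : CommGroup G := IsCyclic.commGroup
  let _ : Fintype G := Fintype.ofFinite G
  rw [finsum_eq_sum_of_fintype]
  exact ⟨cyc_card_H2 A g hg, cyc_card_H1 A g hg⟩

end Fermat.Agent.CFT.P0

end
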