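/-
TEAM CFT, sub-project P0, package P0-8: the Herbrand quotient in elementary form.
`herbrandMul : Stmt_herbrandMul`, `herbrandFinite : Stmt_herbrandFinite`.

Proof of multiplicativity: no hexagon is built.  Inside `B` put `𝔄 = i(A) = ker q` and
  `hbU D N 𝔄 = [ker D ∩ 𝔄 : N B ∩ 𝔄]`, `hbV N 𝔄 = [N B ∩ 𝔄 : N 𝔄]`,
  `hbW D N 𝔄 = [ker D : (ker D ∩ 𝔄) + N B]`.
Then `hq0 A = V(N) U(D,N)`, `hq0 B = U(D,N) W(D,N)`, `hq0 C = W(D,N) V(D)` unconditionally
(with the convention index `0` = infinite), and symmetrically for `hq1`.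
-/
import Fermat.Agent.CFT.P0.Interface

set_option autoImplicit false

namespace Fermat.Agent.CFT.P0

section Aux

variable {B : Type*} [AddCommGroup B]

/-- `[ker D ∩ 𝔄 : N B ∩ 𝔄]` -/
noncomputable def hbU (D N : B →+ B) (𝔄 : AddSubgroup B) : ℕ := (N.range ⊓ 𝔄).relIndex (D.ker ⊓ 𝔄)

/-- `[N B ∩ 𝔄 : N 𝔄]` -/
noncomputable def hbV (N : B →+ B) (𝔄 : AddSubgroup B) : ℕ := (𝔄.map N).relIndex (N.range ⊓ 𝔄)

/-- `[ker D : (ker D ∩ 𝔄) + N B]` -/
noncomputable def hbW (D N : B →+ B) (𝔄 : AddSubgroup B) : ℕ := ((D.ker ⊓ 𝔄) ⊔ N.range).relIndex D.ker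

lemma hb_range_le_ker {D N : B →+ B} (h : D.comp N = 0) : N.range ≤ D.ker := by
  rintro _ ⟨x, rfl⟩
  exact DFunLike.congr_fun h x

/-- the middle term -/
lemma hb_mid (D N : B →+ B) (h : D.comp N = 0) (𝔄 : AddSubgroup B) :
    hq0 D N = hbU D N 𝔄 * hbW D N 𝔄 := by
  have hle := hb_range_le_ker h
  unfold hq0 hbU hbW
  rw [← AddSubgroup.relIndex_mul_relIndex N.range ((D.ker ⊓ 𝔄) ⊔ N.range) D.ker le_sup_right
    (sup_le inf_le_left hle)]
  congr 1
  rw [AddSubgroup.relIndex_sup_right, ← AddSubgroup.inf_relIndex_right N.range]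
  congr 1
  rw [← inf_assoc, inf_eq_left.2 hle]

/-- the sub term -/
lemma hb_sub {A : Type*} [AddCommGroup A] (DA NA : A →+ A) (D N : B →+ B) (i : A →+ B)
    (h : D.comp N = 0) (hi : Function.Injective i)
    (hD : ∀ a, i (DA a) = D (i a)) (hN : ∀ a, i (NA a) = N (i a)) :
    hq0 DA NA = hbV N i.range * hbU D N i.range := by
  have hle := hb_range_le_ker h
  have h1 : NA.range.map i = i.range.map N := by
    ext x
    simp only [AddSubgroup.mem_map, AddMonoidHom.mem_range]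
    constructor
    · rintro ⟨_, ⟨a, rfl⟩, rfl⟩
      exact ⟨i a, ⟨a, rfl⟩, (hN a).symm⟩
    · rintro ⟨_, ⟨a, rfl⟩, rfl⟩
      exact ⟨NA a, ⟨a, rfl⟩, hN a⟩
  have h2 : DA.ker.map i = D.ker ⊓ i.range := by
    ext x
    simp only [AddSubgroup.mem_map, AddSubgroup.mem_inf, AddMonoidHom.mem_ker,
      AddMonoidHom.mem_range]
    constructor
    · rintro ⟨a, ha, rfl⟩
      exact ⟨by rw [← hD, ha, map_zero], a, rfl⟩
    · rintro ⟨hx, a, rfl⟩
      refine ⟨a, hi ?_, rfl⟩
      rw [hD, hx, map_zero]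
  unfold hq0 hbV hbU
  rw [← AddSubgroup.relIndex_map_map_of_injective NA.range DA.ker hi, h1, h2]
  refine (AddSubgroup.relIndex_mul_relIndex _ _ _ ?_ (inf_le_inf_right _ hle)).symm
  refine le_inf (AddSubgroup.map_le_range N _) ?_
  rw [← h1]
  exact AddSubgroup.map_le_range i _

/-- the quotient term -/
lemma hb_quot {C : Type*} [AddCommGroup C] (DC NC : C →+ C) (D N : B →+ B) (q : B →+ C)
    (h : D.comp N = 0) (hq : Function.Surjective q)
    (hD : ∀ b, q (D b) = DC (q b)) (hN : ∀ b, q (N b) = NC (q b)) :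
    hq0 DC NC = hbW D N q.ker * hbV D q.ker := by
  have hle := hb_range_le_ker h
  have h1 : NC.range.comap q = N.range ⊔ q.ker := by
    have : NC.range = N.range.map q := by
      ext x
      simp only [AddSubgroup.mem_map, AddMonoidHom.mem_range]
      constructor
      · rintro ⟨c, rfl⟩
        obtain ⟨b, rfl⟩ := hq c
        exact ⟨N b, ⟨b, rfl⟩, hN b⟩
      · rintro ⟨_, ⟨b, rfl⟩, rfl⟩
        exact ⟨q b, (hN b).symm⟩
    rw [this, AddSubgroup.comap_map_eq]
  have h2 : DC.ker.comap q = q.ker.comap D := by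
    ext x
    simp only [AddSubgroup.mem_comap, AddMonoidHom.mem_ker, hD]
  have h3 : DC.ker = (q.ker.comap D).map q := by
    rw [← h2, AddSubgroup.map_comap_eq_self_of_surjective hq]
  have hA : q.ker ≤ q.ker.comap D := by
    intro x hx
    simp only [AddSubgroup.mem_comap, AddMonoidHom.mem_ker] at hx ⊢
    rw [hD, hx, map_zero]
  have hK : D.ker ≤ q.ker.comap D := by
    intro x hx
    simp only [AddSubgroup.mem_comap, AddMonoidHom.mem_ker] at hx ⊢
    rw [hx, map_zero]
  unfold hq0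
  rw [h3, ← AddSubgroup.relIndex_comap, h1,
    ← AddSubgroup.relIndex_mul_relIndex (N.range ⊔ q.ker) (D.ker ⊔ q.ker) (q.ker.comap D)
      (sup_le_sup_right hle _) (sup_le hK hA)]
  congr 1
  · -- `[ker D + 𝔄 : N B + 𝔄] = [ker D : (ker D ∩ 𝔄) + N B]`
    unfold hbW
    have e1 : D.ker ⊔ q.ker = D.ker ⊔ (N.range ⊔ q.ker) := by
      rw [← sup_assoc, sup_eq_left.2 hle]
    rw [e1, AddSubgroup.relIndex_sup_right, ← AddSubgroup.inf_relIndex_right]
    congr 1
    -- modular law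
    rw [sup_inf_assoc_of_le q.ker hle, sup_comm, inf_comm]
  · -- `[D⁻¹ 𝔄 : ker D + 𝔄] = [D B ∩ 𝔄 : D 𝔄]`
    unfold hbV
    rw [sup_comm, ← AddSubgroup.comap_map_eq, AddSubgroup.relIndex_comap,
      AddSubgroup.map_comap_eq]

end Aux

theorem herbrandMul : Stmt_herbrandMul := by
  intro A B C _ _ _ DA NA DB NB DC NC i q hA1 hA2 hB1 hB2 hC1 hC2 hi hq hiq hiD hiN hqD hqN hfin
  have a0 : hq0 DA NA = hbV NB q.ker * hbU DB NB q.ker := by
    rw [← hiq]; exact hb_sub DA NA DB NB i hB1 hi hiD hiN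
  have a1 : hq1 DA NA = hbV DB q.ker * hbU NB DB q.ker := by
    rw [← hiq]; exact hb_sub NA DA NB DB i hB2 hi hiN hiD
  have b0 : hq0 DB NB = hbU DB NB q.ker * hbW DB NB q.ker := hb_mid DB NB hB1 _
  have b1 : hq1 DB NB = hbU NB DB q.ker * hbW NB DB q.ker := hb_mid NB DB hB2 _
  have c0 : hq0 DC NC = hbW DB NB q.ker * hbV DB q.ker := hb_quot DC NC DB NB q hB1 hq hqD hqN
  have c1 : hq1 DC NC = hbW NB DB q.ker * hbV NB q.ker := hb_quot NC DC NB DB q hB2 hq hqN hqD
  rw [a0, a1, b0, b1, c0, c1] at hfin ⊢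
  simp only [ne_eq, mul_eq_zero, not_or] at hfin ⊢
  refine ⟨by tauto, by ring⟩

theorem herbrandFinite : Stmt_herbrandFinite := by
  intro A _ _ D N h1 h2
  have hND := hb_range_le_ker h1
  have hDN := hb_range_le_ker h2
  have e0 : Nat.card N.range * hq0 D N = Nat.card D.ker := by
    have := AddSubgroup.relIndex_mul_relIndex ⊥ N.range D.ker bot_le hND
    rwa [AddSubgroup.relIndex_bot_left, AddSubgroup.relIndex_bot_left] at this
  have e1 : Nat.card D.range * hq1 D N = Nat.card N.ker := by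
    have := AddSubgroup.relIndex_mul_relIndex ⊥ D.range N.ker bot_le hDN
    rwa [AddSubgroup.relIndex_bot_left, AddSubgroup.relIndex_bot_left] at this
  have f0 : Nat.card D.ker * Nat.card D.range = Nat.card A := by
    rw [← AddSubgroup.index_ker, AddSubgroup.card_mul_index]
  have f1 : Nat.card N.ker * Nat.card N.range = Nat.card A := by
    rw [← AddSubgroup.index_ker, AddSubgroup.card_mul_index]
  have pN : 0 < Nat.card N.range := Nat.card_pos
  have pD : 0 < Nat.card D.range := Nat.card_pos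
  have pK : 0 < Nat.card D.ker := Nat.card_pos
  constructor
  · have : (Nat.card N.range * Nat.card D.range) * hq0 D N =
        (Nat.card N.range * Nat.card D.range) * hq1 D N := by
      calc (Nat.card N.range * Nat.card D.range) * hq0 D N
          = (Nat.card N.range * hq0 D N) * Nat.card D.range := by ring
        _ = Nat.card A := by rw [e0, f0]
        _ = (Nat.card D.range * hq1 D N) * Nat.card N.range := by rw [e1, f1]
        _ = _ := by ring
    exact Nat.eq_of_mul_eq_mul_left (Nat.mul_pos pN pD) this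
  · intro h
    rw [h, mul_zero] at e0
    omega

end Fermat.Agent.CFT.P0
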