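/-
TEAM CFT, P0-3: inflation-restriction in degree `n+1` by dimension shifting.
-/
import Mathlib
import Fermat.Agent.CFT.P0.Interface

set_option autoImplicit false

noncomputable section

namespace Fermat.Agent.CFT.P0

open CategoryTheory CategoryTheory.Limits groupCohomology Rep

universe u

namespace InfRes

variable {k G G' : Type u} [CommRing k] [Group G] [Group G']

theorem cochainsMap_comm (f : G' →* G) {A₁ A₂ : Rep.{u} k G} {B₁ B₂ : Rep.{u} k G'}
    (a : A₁ ⟶ A₂) (b : B₁ ⟶ B₂) (φ₁ : res f A₁ ⟶ B₁) (φ₂ : res f A₂ ⟶ B₂)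
    (c : φ₁ ≫ b = (resFunctor f).map a ≫ φ₂) :
    cochainsMap f φ₁ ≫ cochainsMap (MonoidHom.id G') b =
      cochainsMap (MonoidHom.id G) a ≫ cochainsMap f φ₂ := by
  have h1 : cochainsMap f φ₁ ≫ cochainsMap (MonoidHom.id G') b = cochainsMap f (φ₁ ≫ b) := rfl
  have h2 : cochainsMap (MonoidHom.id G) a ≫ cochainsMap f φ₂ =
      cochainsMap f ((resFunctor f).map a ≫ φ₂) := rfl
  rw [h1, h2, c]

/-- naturality of the connecting homomorphism along a group homomorphism -/
theorem δ_naturality_map (f : G' →* G)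
    {X : ShortComplex (Rep.{u} k G)} {Y : ShortComplex (Rep.{u} k G')} (hX : X.ShortExact)
    (hY : Y.ShortExact) (φ₁ : res f X.X₁ ⟶ Y.X₁) (φ₂ : res f X.X₂ ⟶ Y.X₂)
    (φ₃ : res f X.X₃ ⟶ Y.X₃) (c₁₂ : φ₁ ≫ Y.f = (resFunctor f).map X.f ≫ φ₂)
    (c₂₃ : φ₂ ≫ Y.g = (resFunctor f).map X.g ≫ φ₃) (i j : ℕ) (hij : i + 1 = j) :
    δ hX i j hij ≫ groupCohomology.map f φ₁ j = groupCohomology.map f φ₃ i ≫ δ hY i j hij := by
  let φ : X.map (cochainsFunctor k G) ⟶ Y.map (cochainsFunctor k G') :=
    { τ₁ := cochainsMap f φ₁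
      τ₂ := cochainsMap f φ₂
      τ₃ := cochainsMap f φ₃
      comm₁₂ := cochainsMap_comm f X.f Y.f φ₁ φ₂ c₁₂
      comm₂₃ := cochainsMap_comm f X.g Y.g φ₂ φ₃ c₂₃ }
  exact HomologicalComplex.HomologySequence.δ_naturality φ
    (map_cochainsFunctor_shortExact hX) (map_cochainsFunctor_shortExact hY) i j hij

instance preservesZero_quotientToInvariants (N : Subgroup G) [N.Normal] :
    (quotientToInvariantsFunctor.{u} k N).PreservesZeroMorphisms where
  map_zero _ _ := by
    ext x
    rfl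

/-- If `H¹(N, X₁) = 0`, taking `N`-invariants preserves the short exact sequence. -/
theorem shortExact_invariants {X : ShortComplex (Rep.{u} k G)} (hX : X.ShortExact)
    (N : Subgroup G) [N.Normal] (h1 : IsZero (groupCohomology (Rep.res N.subtype X.X₁) 1)) :
    (X.map (quotientToInvariantsFunctor k N)).ShortExact := by
  have hXN : (X.map (resFunctor N.subtype)).ShortExact := (Rep.shortExact_res N.subtype).mpr hX
  have hinj : Function.Injective X.f.hom := (Rep.mono_iff_injective X.f).1 hX.mono_f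
  have hex : LinearMap.range X.f.hom.toLinearMap = LinearMap.ker X.g.hom.toLinearMap :=
    (hX.exact.map (forget₂ (Rep k G) (ModuleCat k))).moduleCat_range_eq_ker
  -- surjectivity on invariants
  have hepi : Epi (groupCohomology.map (A := res N.subtype X.X₂) (B := res N.subtype X.X₃)
      (MonoidHom.id N) ((resFunctor N.subtype).map X.g) 0) := by
    have hex3 := mapShortComplex₃_exact hXN (i := 0) (j := 1) rfl
    exact hex3.epi_f (h1.eq_of_tgt _ _)
  have hepi2 : Epi ((invariantsFunctor k N).map ((resFunctor N.subtype).map X.g)) := by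
    have h := map_id_comp_H0Iso_hom ((resFunctor N.subtype).map X.g)
    have : (invariantsFunctor k N).map ((resFunctor N.subtype).map X.g) =
        (H0Iso _).inv ≫ groupCohomology.map (A := res N.subtype X.X₂) (B := res N.subtype X.X₃)
          (MonoidHom.id N) ((resFunctor N.subtype).map X.g) 0 ≫ (H0Iso _).hom := by
      rw [h, Iso.inv_hom_id_assoc]
    rw [this]
    infer_instance
  have hsurj := (ModuleCat.epi_iff_surjective _).1 hepi2
  refine { exact := ?_, mono_f := ?_, epi_g := ?_ }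
  · rw [← ShortComplex.exact_map_iff_of_faithful _ (forget₂ (Rep k (G ⧸ N)) (ModuleCat k)),
      ShortComplex.moduleCat_exact_iff]
    intro x hx
    let x' : Representation.invariants (X.X₂.ρ.comp N.subtype) := x
    have hx' : X.g.hom x'.1 = 0 := congrArg Subtype.val hx
    have hmem : x'.1 ∈ LinearMap.range X.f.hom.toLinearMap := by rw [hex]; exact hx'
    obtain ⟨a, ha⟩ := hmem
    refine ⟨(⟨a, fun s => ?_⟩ : Representation.invariants (X.X₁.ρ.comp N.subtype)), Subtype.ext ha⟩
    apply hinj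
    have h2 := hom_comm_apply X.f s.1 a
    have h3 : X.X₂.ρ s.1 x'.1 = x'.1 := x'.2 s
    have ha' : X.f.hom a = x'.1 := ha
    change X.f.hom (X.X₁.ρ s.1 a) = X.f.hom a
    rw [h2, ha', h3]
  · rw [Rep.mono_iff_injective]
    intro x y hxy
    apply Subtype.ext
    apply hinj
    exact congrArg Subtype.val hxy
  · rw [Rep.epi_iff_surjective]
    exact hsurj

theorem isZero_of_top (I : Rep.{u} k G) (n : ℕ)
    (h : IsZero (groupCohomology (Rep.res (⊤ : Subgroup G).subtype I) n)) :
    IsZero (groupCohomology I n) := by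
  refine h.of_iso (groupCohomology.mapIso (A := I) (B := Rep.res (⊤ : Subgroup G).subtype I)
    Subgroup.topEquiv (LinearEquiv.refl k _) (fun g => rfl) n).symm

theorem step (A : Rep.{u} k G) (N : Subgroup G) [N.Normal] (n : ℕ) (Sh : Shift A)
    (h1 : IsZero (groupCohomology (Rep.res N.subtype A) 1))
    (hB : Function.Injective (infMap Sh.B N (n + 1)).hom ∧
      ∀ x : groupCohomology Sh.B (n + 1), (resMap Sh.B N (n + 1)).hom x = 0 →
        ∃ y, (infMap Sh.B N (n + 1)).hom y = x) :
    Function.Injective (infMap A N (n + 2)).hom ∧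
      ∀ x : groupCohomology A (n + 2), (resMap A N (n + 2)).hom x = 0 →
        ∃ y, (infMap A N (n + 2)).hom y = x := by
  obtain ⟨hBinj, hBex⟩ := hB
  set X : ShortComplex (Rep.{u} k G) := ShortComplex.mk Sh.i Sh.q Sh.zero with hXdef
  have hX : X.ShortExact := Sh.exact
  have hXN : (X.map (resFunctor N.subtype)).ShortExact := (Rep.shortExact_res N.subtype).mpr hX
  have hXQ : (X.map (quotientToInvariantsFunctor k N)).ShortExact :=
    shortExact_invariants hX N h1
  have c1 : δ hXQ (n + 1) (n + 2) rfl ≫ infMap A N (n + 2) =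
      infMap Sh.B N (n + 1) ≫ δ hX (n + 1) (n + 2) rfl :=
    δ_naturality_map (QuotientGroup.mk' N) hXQ hX
      (Rep.ofHom <| A.ρ.quotientToInvariants_lift N) (Rep.ofHom <| Sh.I.ρ.quotientToInvariants_lift N)
      (Rep.ofHom <| Sh.B.ρ.quotientToInvariants_lift N) rfl rfl (n + 1) (n + 2) rfl
  have c2 : δ hX (n + 1) (n + 2) rfl ≫ resMap A N (n + 2) =
      resMap Sh.B N (n + 1) ≫ δ hXN (n + 1) (n + 2) rfl :=
    δ_naturality_map N.subtype hX hXN (𝟙 _) (𝟙 _) (𝟙 _) rfl rfl (n + 1) (n + 2) rfl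
  have eQ : Epi (δ hXQ (n + 1) (n + 2) rfl) :=
    epi_δ_of_isZero hXQ (n + 1) (Sh.acyclic_inv N (n + 1))
  have eG : Epi (δ hX (n + 1) (n + 2) rfl) :=
    epi_δ_of_isZero hX (n + 1) (isZero_of_top _ _ (Sh.acyclic_res ⊤ (n + 1)))
  have mG : Mono (δ hX (n + 1) (n + 2) rfl) :=
    mono_δ_of_isZero hX (n + 1) (isZero_of_top _ _ (Sh.acyclic_res ⊤ n))
  have mN : Mono (δ hXN (n + 1) (n + 2) rfl) :=
    mono_δ_of_isZero hXN (n + 1) (Sh.acyclic_res N n)
  have sQ := (ModuleCat.epi_iff_surjective _).1 eQ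
  have sG := (ModuleCat.epi_iff_surjective _).1 eG
  have iG := (ModuleCat.mono_iff_injective _).1 mG
  have iN := (ModuleCat.mono_iff_injective _).1 mN
  have c1' : ∀ y, (infMap A N (n + 2)).hom ((δ hXQ (n + 1) (n + 2) rfl).hom y) =
      (δ hX (n + 1) (n + 2) rfl).hom ((infMap Sh.B N (n + 1)).hom y) := fun y =>
    congrArg (fun m => m.hom y) c1
  have c2' : ∀ y, (resMap A N (n + 2)).hom ((δ hX (n + 1) (n + 2) rfl).hom y) =
      (δ hXN (n + 1) (n + 2) rfl).hom ((resMap Sh.B N (n + 1)).hom y) := fun y =>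
    congrArg (fun m => m.hom y) c2
  constructor
  · rw [injective_iff_map_eq_zero]
    intro y hy
    obtain ⟨y', rfl⟩ := sQ y
    have h2 := c1' y'
    have hy' : (infMap A N (n + 2)).hom ((δ hXQ (n + 1) (n + 2) rfl).hom y') = 0 := hy
    rw [hy'] at h2
    have h3 : (infMap Sh.B N (n + 1)).hom y' = 0 := iG (by rw [← h2]; exact (map_zero _).symm)
    have h4 : y' = 0 := hBinj (by rw [h3]; exact (map_zero _).symm)
    rw [h4]
    exact map_zero _
  · intro x hx
    obtain ⟨x', rfl⟩ := sG x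
    have h2 := c2' x'
    have hx' : (resMap A N (n + 2)).hom ((δ hX (n + 1) (n + 2) rfl).hom x') = 0 := hx
    rw [hx'] at h2
    have h3 : (resMap Sh.B N (n + 1)).hom x' = 0 := iN (by rw [← h2]; exact (map_zero _).symm)
    obtain ⟨y', hy'⟩ := hBex x' h3
    refine ⟨(δ hXQ (n + 1) (n + 2) rfl).hom y', ?_⟩
    exact (c1' y').trans (congrArg (δ hX (n + 1) (n + 2) rfl).hom hy')

/-- the shifted module satisfies the vanishing hypothesis one degree lower -/
theorem isZero_shift (A : Rep.{u} k G) (N : Subgroup G) (Sh : Shift A) (i : ℕ)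
    (h : IsZero (groupCohomology (Rep.res N.subtype A) (i + 2))) :
    IsZero (groupCohomology (Rep.res N.subtype Sh.B) (i + 1)) := by
  set X : ShortComplex (Rep.{u} k G) := ShortComplex.mk Sh.i Sh.q Sh.zero with hXdef
  have hX : X.ShortExact := Sh.exact
  have hXN : (X.map (resFunctor N.subtype)).ShortExact := (Rep.shortExact_res N.subtype).mpr hX
  have mN : Mono (δ hXN (i + 1) (i + 2) rfl) :=
    mono_δ_of_isZero hXN (i + 1) (Sh.acyclic_res N i)
  exact @IsZero.of_mono _ _ _ _ _ (δ hXN (i + 1) (i + 2) rfl) mN h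

end InfRes

open InfRes in
theorem infRes (h : Stmt_shift.{u}) : Stmt_infRes.{u} := by
  intro k G _ _ A N _ n
  induction n generalizing A with
  | zero =>
    intro _
    constructor
    · exact (ModuleCat.mono_iff_injective _).1 (inferInstanceAs (Mono (H1InfRes A N).f))
    · intro x hx
      have hex := H1InfRes_exact A N
      rw [ShortComplex.moduleCat_exact_iff] at hex
      exact hex x hx
  | succ n ih =>
    intro hA
    obtain ⟨Sh⟩ := h k G A
    refine step A N n Sh (hA 1 one_pos (by omega)) (ih Sh.B ?_)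
    intro i hi0 hi
    obtain ⟨i, rfl⟩ := Nat.exists_eq_succ_of_ne_zero hi0.ne'
    exact isZero_shift A N Sh i (hA (i + 2) (by omega) (by omega))

end Fermat.Agent.CFT.P0
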