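/-
TEAM CFT, sub-project P0, package P0-10: group cohomology commutes with arbitrary products.
-/
import Fermat.Agent.CFT.P0.Interface2

set_option autoImplicit false

noncomputable section

namespace Fermat.Agent.CFT.P0

open CategoryTheory CategoryTheory.Limits groupCohomology Rep

universe u

namespace ProdAux

variable {k : Type u} [CommRing k] {α : Type*} {c : ComplexShape α}

/-- a cochain killed by the differential is the image of a cycle -/
theorem exists_cycle (K : HomologicalComplex (ModuleCat.{u} k) c) (n : α) (x : K.X n)
    (hx : (K.d n (c.next n)).hom x = 0) : ∃ z : K.cycles n, (K.iCycles n).hom z = x := by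
  have hex : (ShortComplex.mk (K.iCycles n) (K.d n (c.next n)) (K.iCycles_d n _)).Exact :=
    ShortComplex.exact_of_f_is_kernel _ (K.cyclesIsKernel n (c.next n) rfl)
  rw [ShortComplex.moduleCat_exact_iff] at hex
  exact hex x hx

/-- a cycle whose class vanishes is a boundary -/
theorem exists_boundary (K : HomologicalComplex (ModuleCat.{u} k) c) (n : α) (z : K.cycles n)
    (hz : (K.homologyπ n).hom z = 0) : ∃ w : K.X (c.prev n), (K.toCycles (c.prev n) n).hom w = z := by
  have hex : (ShortComplex.mk (K.toCycles (c.prev n) n) (K.homologyπ n)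
      (K.toCycles_comp_homologyπ _ n)).Exact :=
    ShortComplex.exact_of_g_is_cokernel _ (K.homologyIsCokernel (c.prev n) n rfl)
  rw [ShortComplex.moduleCat_exact_iff] at hex
  exact hex z hz

theorem iCycles_injective (K : HomologicalComplex (ModuleCat.{u} k) c) (n : α) :
    Function.Injective (K.iCycles n).hom :=
  (ModuleCat.mono_iff_injective _).1 inferInstance

theorem homologyπ_surjective (K : HomologicalComplex (ModuleCat.{u} k) c) (n : α) :
    Function.Surjective (K.homologyπ n).hom :=
  (ModuleCat.epi_iff_surjective _).1 inferInstance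

theorem homology_prod {ι : Type*} (K : HomologicalComplex (ModuleCat.{u} k) c)
    (Ki : ι → HomologicalComplex (ModuleCat.{u} k) c) (φ : ∀ i, K ⟶ Ki i)
    (hφ : ∀ n, Function.Bijective (fun (x : K.X n) (i : ι) => ((φ i).f n).hom x)) (n : α) :
    Function.Bijective
      (fun (x : K.homology n) (i : ι) => (HomologicalComplex.homologyMap (φ i) n).hom x) := by
  have hπ : ∀ (i : ι) (z : K.cycles n), (HomologicalComplex.homologyMap (φ i) n).hom
      ((K.homologyπ n).hom z) =
      ((Ki i).homologyπ n).hom ((HomologicalComplex.cyclesMap (φ i) n).hom z) := by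
    intro i z
    have := HomologicalComplex.homologyπ_naturality (φ i) n
    exact congrArg (fun f => f.hom z) this
  have hi : ∀ (i : ι) (z : K.cycles n), ((Ki i).iCycles n).hom
      ((HomologicalComplex.cyclesMap (φ i) n).hom z) = ((φ i).f n).hom ((K.iCycles n).hom z) := by
    intro i z
    have := HomologicalComplex.cyclesMap_i (φ i) n
    exact congrArg (fun f => f.hom z) this
  have hd : ∀ (i : ι) (a b : α) (x : K.X a), ((φ i).f b).hom ((K.d a b).hom x) =
      ((Ki i).d a b).hom (((φ i).f a).hom x) := by
    intro i a b x
    have := (φ i).comm a b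
    exact (congrArg (fun f => f.hom x) this).symm
  have ht : ∀ (L : HomologicalComplex (ModuleCat.{u} k) c) (w : L.X (c.prev n)),
      (L.iCycles n).hom ((L.toCycles (c.prev n) n).hom w) = (L.d (c.prev n) n).hom w := by
    intro L w
    have := L.toCycles_i (c.prev n) n
    exact congrArg (fun f => f.hom w) this
  have hid : ∀ (L : HomologicalComplex (ModuleCat.{u} k) c) (z : L.cycles n),
      (L.d n (c.next n)).hom ((L.iCycles n).hom z) = 0 := by
    intro L z
    have := L.iCycles_d n (c.next n)
    exact congrArg (fun f => f.hom z) this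
  have htπ : ∀ (L : HomologicalComplex (ModuleCat.{u} k) c) (w : L.X (c.prev n)),
      (L.homologyπ n).hom ((L.toCycles (c.prev n) n).hom w) = 0 := by
    intro L w
    have := L.toCycles_comp_homologyπ (c.prev n) n
    exact congrArg (fun f => f.hom w) this
  constructor
  · intro x y hxy
    obtain ⟨z, hz⟩ := homologyπ_surjective K n (x - y)
    have h0 : ∀ i, ((Ki i).homologyπ n).hom ((HomologicalComplex.cyclesMap (φ i) n).hom z) = 0 := by
      intro i
      rw [← hπ, hz, map_sub, sub_eq_zero]
      exact congrFun hxy i
    choose w hw using fun i => exists_boundary (Ki i) n _ (h0 i)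
    obtain ⟨v, hv⟩ := (hφ (c.prev n)).2 w
    have hv' : ∀ i, ((φ i).f (c.prev n)).hom v = w i := fun i => congrFun hv i
    have hzv : (K.toCycles (c.prev n) n).hom v = z := by
      apply iCycles_injective K n
      apply (hφ n).1
      funext i
      show ((φ i).f n).hom _ = ((φ i).f n).hom _
      rw [ht, hd, hv', ← hi, ← hw, ht]
    have : x - y = 0 := by rw [← hz, ← hzv, htπ]
    exact sub_eq_zero.1 this
  · intro x
    choose z hz using fun i => homologyπ_surjective (Ki i) n (x i)
    obtain ⟨b, hb⟩ := (hφ n).2 (fun i => ((Ki i).iCycles n).hom (z i))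
    have hb' : ∀ i, ((φ i).f n).hom b = ((Ki i).iCycles n).hom (z i) := fun i => congrFun hb i
    have hdb : (K.d n (c.next n)).hom b = 0 := by
      apply (hφ (c.next n)).1
      funext i
      show ((φ i).f _).hom _ = ((φ i).f _).hom _
      rw [hd, hb', hid, map_zero]
    obtain ⟨y, hy⟩ := exists_cycle K n b hdb
    refine ⟨(K.homologyπ n).hom y, ?_⟩
    funext i
    show (HomologicalComplex.homologyMap (φ i) n).hom _ = x i
    rw [hπ, ← hz]
    congr 1
    apply iCycles_injective (Ki i) n
    rw [hi, hy, hb']

end ProdAux

/-- P0-10 : cohomology commutes with arbitrary products. -/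
theorem prod : Stmt_prod.{u} := by
  intro k G _ _ ι A Ai π hπ n
  refine ProdAux.homology_prod (inhomogeneousCochains A) (fun i => inhomogeneousCochains (Ai i))
    (fun i => cochainsMap (MonoidHom.id G) (π i)) ?_ n
  intro m
  constructor
  · intro x y hxy
    funext g
    apply hπ.1
    funext i
    exact congrFun (congrFun hxy i) g
  · intro f
    choose a ha using fun g : Fin m → G => hπ.2 (fun i => f i g)
    refine ⟨a, ?_⟩
    funext i g
    exact congrFun (ha g) i

end Fermat.Agent.CFT.P0

end
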