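/-
TEAM CFT, P0-2 : `res x = 0 ⇒ [G:H] x = 0`, `|G|` kills `Hⁿ⁺¹(G,A)`.
-/
import Fermat.Agent.CFT.P0.Interface

set_option autoImplicit false

noncomputable section

namespace Fermat.Agent.CFT.P0

open CategoryTheory CategoryTheory.Limits groupCohomology Rep

universe u

section Naturality

variable {k G H : Type u} [CommRing k] [Group G] [Group H]

/-- The morphism of short complexes of cochain complexes induced by a group homomorphism. -/
def cochainsResHom (f : H →* G) (X : ShortComplex (Rep.{u} k G)) :
    X.map (cochainsFunctor k G) ⟶ (X.map (resFunctor f)).map (cochainsFunctor k H) where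
  τ₁ := cochainsMap f (𝟙 _)
  τ₂ := cochainsMap f (𝟙 _)
  τ₃ := cochainsMap f (𝟙 _)
  comm₁₂ := rfl
  comm₂₃ := rfl

/-- Naturality of the connecting homomorphism with respect to a group homomorphism
(restriction, inflation of the same module, ...). -/
theorem res_δ (f : H →* G) {X : ShortComplex (Rep.{u} k G)} (hX : X.ShortExact)
    (i j : ℕ) (hij : i + 1 = j) :
    δ hX i j hij ≫ groupCohomology.map f (𝟙 (res f X.X₁)) j =
      groupCohomology.map f (𝟙 (res f X.X₃)) i ≫ δ ((shortExact_res f).2 hX) i j hij :=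
  HomologicalComplex.HomologySequence.δ_naturality (cochainsResHom f X)
    (map_cochainsFunctor_shortExact hX)
    (map_cochainsFunctor_shortExact ((shortExact_res f).2 hX)) i j hij

/-- The morphism of short complexes of cochain complexes induced by a group homomorphism `f`
and a morphism of short complexes `Res(f)(X) ⟶ Y`. -/
def cochainsMapHom (f : H →* G) {X : ShortComplex (Rep.{u} k G)} {Y : ShortComplex (Rep.{u} k H)}
    (Φ : X.map (resFunctor f) ⟶ Y) :
    X.map (cochainsFunctor k G) ⟶ Y.map (cochainsFunctor k H) where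
  τ₁ := cochainsMap f Φ.τ₁
  τ₂ := cochainsMap f Φ.τ₂
  τ₃ := cochainsMap f Φ.τ₃
  comm₁₂ := by
    have h1 : cochainsMap f Φ.τ₁ ≫ cochainsMap (MonoidHom.id H) Y.f =
        cochainsMap f (Φ.τ₁ ≫ Y.f) := rfl
    have h2 : cochainsMap (MonoidHom.id G) X.f ≫ cochainsMap f Φ.τ₂ =
        cochainsMap f ((X.map (resFunctor f)).f ≫ Φ.τ₂) := rfl
    exact h1.trans ((congrArg (cochainsMap f) Φ.comm₁₂).trans h2.symm)
  comm₂₃ := by
    have h1 : cochainsMap f Φ.τ₂ ≫ cochainsMap (MonoidHom.id H) Y.g =
        cochainsMap f (Φ.τ₂ ≫ Y.g) := rfl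
    have h2 : cochainsMap (MonoidHom.id G) X.g ≫ cochainsMap f Φ.τ₃ =
        cochainsMap f ((X.map (resFunctor f)).g ≫ Φ.τ₃) := rfl
    exact h1.trans ((congrArg (cochainsMap f) Φ.comm₂₃).trans h2.symm)

/-- General naturality of the connecting homomorphism: for a group homomorphism `f : H →* G`,
short exact sequences `X` of `G`-representations, `Y` of `H`-representations and a morphism
`Res(f)(X) ⟶ Y` (covers restriction and inflation). -/
theorem map_δ (f : H →* G) {X : ShortComplex (Rep.{u} k G)} {Y : ShortComplex (Rep.{u} k H)}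
    (hX : X.ShortExact) (hY : Y.ShortExact) (Φ : X.map (resFunctor f) ⟶ Y)
    (i j : ℕ) (hij : i + 1 = j) :
    δ hX i j hij ≫ groupCohomology.map f Φ.τ₁ j =
      groupCohomology.map f Φ.τ₃ i ≫ δ hY i j hij :=
  HomologicalComplex.HomologySequence.δ_naturality (cochainsMapHom f Φ)
    (map_cochainsFunctor_shortExact hX) (map_cochainsFunctor_shortExact hY) i j hij

end Naturality

section Aux

variable {k G : Type u} [CommRing k] [Group G]

theorem isZero_groupCohomology_of_top (I : Rep.{u} k G) (n : ℕ)
    (h : IsZero (groupCohomology (Rep.res (⊤ : Subgroup G).subtype I) n)) :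
    IsZero (groupCohomology I n) :=
  h.of_iso (mapIso (A := I) (B := Rep.res (⊤ : Subgroup G).subtype I) Subgroup.topEquiv
    (LinearEquiv.refl k _) (fun _ => rfl) n).symm

theorem Shift.acyclic {A : Rep.{u} k G} (S : Shift A) (n : ℕ) :
    IsZero (groupCohomology S.I (n + 1)) :=
  isZero_groupCohomology_of_top S.I (n + 1) (S.acyclic_res ⊤ n)

/-- The invariant vector underlying a class in `H⁰`. -/
def h0val (A : Rep.{u} k G) : groupCohomology A 0 →ₗ[k] A.V :=
  A.ρ.invariants.subtype ∘ₗ (H0Iso A).hom.hom

theorem h0val_injective (A : Rep.{u} k G) : Function.Injective (h0val A) := by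
  intro x y hxy
  have h1 : (H0Iso A).hom.hom x = (H0Iso A).hom.hom y := Subtype.ext hxy
  have h2 := congrArg (H0Iso A).inv.hom h1
  simpa using h2

theorem h0val_mem (A : Rep.{u} k G) (x : groupCohomology A 0) (g : G) :
    A.ρ g (h0val A x) = h0val A x :=
  ((H0Iso A).hom.hom x).2 g

theorem exists_h0val (A : Rep.{u} k G) (a : A.V) (ha : ∀ g, A.ρ g a = a) :
    ∃ x, h0val A x = a := by
  refine ⟨(H0Iso A).inv.hom ⟨a, ha⟩, ?_⟩
  simp [h0val]

theorem h0val_map {H : Type u} [Group H] (f : H →* G) (A : Rep.{u} k G) (B : Rep.{u} k H)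
    (φ : res f A ⟶ B) (x : groupCohomology A 0) :
    h0val B ((groupCohomology.map f φ 0).hom x) = φ.hom (h0val A x) :=
  map_H0Iso_hom_f_apply f φ x

/-- restriction is injective in degree zero -/
theorem resMap_zero_injective (A : Rep.{u} k G) (H : Subgroup G) :
    Function.Injective (resMap A H 0).hom := by
  intro x y hxy
  apply h0val_injective A
  have h1 := h0val_map H.subtype A _ (𝟙 _) x
  have h2 := h0val_map H.subtype A _ (𝟙 _) y
  rw [hxy] at h1
  exact h1.symm.trans h2

/-- The transfer (norm from `H` to `G`) on invariants. -/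
theorem exists_transfer (I : Rep.{u} k G) (H : Subgroup G) [H.FiniteIndex] (z : I.V)
    (hz : ∀ h : H, I.ρ (h : G) z = z) :
    ∃ w : I.V, (∀ g, I.ρ g w = w) ∧ ∀ (B : Rep.{u} k G) (q : I ⟶ B),
      (∀ g, B.ρ g (q.hom z) = q.hom z) → q.hom w = H.index • q.hom z := by
  classical
  let _ : Fintype (G ⧸ H) := Subgroup.fintypeQuotientOfFiniteIndex
  let φ : G ⧸ H → I.V := Quotient.lift (fun g : G => I.ρ g z) (by
    intro a b hab
    have hab' : a⁻¹ * b ∈ H := QuotientGroup.leftRel_apply.1 hab
    have h1 : b = a * (a⁻¹ * b) := by group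
    show I.ρ a z = I.ρ b z
    rw [h1, map_mul, Module.End.mul_apply, hz ⟨_, hab'⟩])
  have hφ : ∀ a : G, φ (a : G ⧸ H) = I.ρ a z := fun _ => rfl
  refine ⟨∑ c, φ c, fun g => ?_, fun B q hq => ?_⟩
  · rw [map_sum, ← Equiv.sum_comp (MulAction.toPerm g : Equiv.Perm (G ⧸ H)) φ]
    refine Finset.sum_congr rfl fun c _ => ?_
    induction c using QuotientGroup.induction_on with
    | H a =>
      rw [hφ, MulAction.toPerm_apply]
      show _ = φ ((g * a : G) : G ⧸ H)
      rw [hφ, map_mul, Module.End.mul_apply]
  · rw [map_sum, Subgroup.index_eq_card, Nat.card_eq_fintype_card, ← Finset.card_univ,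
      ← Finset.sum_const]
    refine Finset.sum_congr rfl fun c _ => ?_
    induction c using QuotientGroup.induction_on with
    | H a => rw [hφ, hom_comm_apply, hq]

end Aux

theorem resIndex (h : Stmt_shift.{u}) : Stmt_resIndex.{u} := by
  intro k G _ _ A H _ n
  induction n generalizing A with
  | zero =>
    intro x hx
    have : x = 0 := resMap_zero_injective A H (by rw [hx, map_zero])
    rw [this, smul_zero]
  | succ n ih =>
    intro x hx
    obtain ⟨S⟩ := h k G A
    let X : ShortComplex (Rep.{u} k G) := ShortComplex.mk S.i S.q S.zero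
    have hX : X.ShortExact := S.exact
    have hX' : (X.map (resFunctor H.subtype)).ShortExact := (shortExact_res H.subtype).2 hX
    have hepi : Epi (δ hX n (n + 1) rfl) := epi_δ_of_isZero hX n (S.acyclic n)
    obtain ⟨y, rfl⟩ := (ModuleCat.epi_iff_surjective _).1 hepi x
    let rA : groupCohomology X.X₁ (n + 1) ⟶
        groupCohomology (X.map (resFunctor H.subtype)).X₁ (n + 1) :=
      groupCohomology.map H.subtype (𝟙 _) (n + 1)
    let rB : groupCohomology X.X₃ n ⟶ groupCohomology (X.map (resFunctor H.subtype)).X₃ n :=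
      groupCohomology.map H.subtype (𝟙 _) n
    have hnat : δ hX n (n + 1) rfl ≫ rA = rB ≫ δ hX' n (n + 1) rfl :=
      res_δ H.subtype hX n (n + 1) rfl
    have hnat' : (δ hX' n (n + 1) rfl).hom (rB.hom y) = 0 :=
      (congrArg (fun f => f.hom y) hnat).symm.trans hx
    suffices hy : (δ hX n (n + 1) rfl).hom (H.index • y) = 0 from
      (map_nsmul (δ hX n (n + 1) rfl).hom H.index y).symm.trans hy
    cases n with
    | zero =>
      have hex := mapShortComplex₃_exact hX' (i := 0) (j := 1) rfl
      obtain ⟨z, hz⟩ := (ShortComplex.moduleCat_exact_iff _).1 hex _ hnat'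
      have hz' : (groupCohomology.map (MonoidHom.id H) (X.map (resFunctor H.subtype)).g 0).hom z =
          rB.hom y := hz
      -- the underlying invariant vectors
      let z₀ : S.I.V := h0val (X.map (resFunctor H.subtype)).X₂ z
      have hz₀ : ∀ h : H, S.I.ρ (h : G) z₀ = z₀ := fun h =>
        h0val_mem (X.map (resFunctor H.subtype)).X₂ z h
      have hq : S.q.hom z₀ = h0val S.B y := by
        have e1 := h0val_map (MonoidHom.id H) (X.map (resFunctor H.subtype)).X₂
          (X.map (resFunctor H.subtype)).X₃ (X.map (resFunctor H.subtype)).g z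
        have e2 := h0val_map H.subtype S.B (X.map (resFunctor H.subtype)).X₃ (𝟙 _) y
        exact e1.symm.trans ((congrArg _ hz').trans e2)
      obtain ⟨w, hw, hwq⟩ := exists_transfer S.I H z₀ hz₀
      have hwq' := hwq S.B S.q (fun g => by rw [hq]; exact h0val_mem S.B y g)
      obtain ⟨w', hw'⟩ := exists_h0val S.I w hw
      have hmap : (groupCohomology.map (MonoidHom.id G) X.g 0).hom w' = H.index • y := by
        apply h0val_injective S.B
        have e3 := h0val_map (MonoidHom.id G) S.I S.B S.q w'
        rw [map_nsmul, ← hq, ← hwq', ← hw']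
        exact e3
      have hzero := (mapShortComplex₃ hX (i := 0) (j := 1) rfl).zero
      have hzero' := congrArg (fun f => f.hom w') hzero
      exact (congrArg _ hmap).symm.trans hzero'
    | succ m =>
      have hmono : Mono (δ hX' (m + 1) (m + 2) rfl) :=
        mono_δ_of_isZero hX' (m + 1) (S.acyclic_res H m)
      have h2 : rB.hom y = 0 :=
        (ModuleCat.mono_iff_injective _).1 hmono (hnat'.trans (map_zero _).symm)
      have h3 : H.index • y = 0 := ih S.B y h2
      exact (congrArg _ h3).trans (map_zero _)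

theorem cardSmul (h : Stmt_resIndex.{u}) : Stmt_cardSmul.{u} := by
  intro k G _ _ _ A n x
  have hz : IsZero (groupCohomology (Rep.res (⊥ : Subgroup G).subtype A) (n + 1)) :=
    isZero_groupCohomology_succ_of_subsingleton _ n
  have h0 : resMap A ⊥ (n + 1) = 0 := hz.eq_of_tgt _ _
  have h1 := h k G A ⊥ (n + 1) x (by rw [h0]; rfl)
  rwa [Subgroup.index_bot] at h1

end Fermat.Agent.CFT.P0
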