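/-
TEAM CFT, sub-project P0, package P0-9: Shapiro's lemma in concrete form.
-/
import Fermat.Agent.CFT.P0.Interface2

set_option autoImplicit false

noncomputable section

namespace Fermat.Agent.CFT.P0

open CategoryTheory CategoryTheory.Limits groupCohomology Rep

universe u

namespace Shapiro

variable {k G : Type u} [CommRing k] [Group G] (D : Subgroup G)

/-- the counit of the adjunction: evaluation at `1`. -/
def eps (B : Rep.{u} k D) : Rep.res D.subtype (coind D.subtype B) ⟶ B :=
  (resCoindHomEquiv.{u} D.subtype (coind D.subtype B) B).symm (𝟙 _)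

lemma eps_apply (B : Rep.{u} k D) (f : coind D.subtype B) : (eps D B).hom f = f.1 1 := rfl

lemma eps_naturality {B B' : Rep.{u} k D} (f : B ⟶ B') :
    (resFunctor D.subtype).map (coindMap D.subtype f) ≫ eps D B' = eps D B ≫ f := by
  ext x
  rfl

instance coindFunctor_additive : (coindFunctor.{u} k D.subtype).Additive where
  map_add := by intros; rfl

lemma coind_shortExact {X : ShortComplex (Rep.{u} k D)} (hX : X.ShortExact) :
    (X.map (coindFunctor.{u} k D.subtype)).ShortExact := by
  have h1 : PreservesFiniteLimits (coindFunctor.{u} k D.subtype) := inferInstance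
  have h2 := (Functor.preservesFiniteLimits_iff_forall_exact_map_and_mono
    (coindFunctor.{u} k D.subtype)).1 h1 X hX
  have : Mono (X.map (coindFunctor.{u} k D.subtype)).f := h2.2
  have : Epi X.g := hX.epi_g
  have : Epi (X.map (coindFunctor.{u} k D.subtype)).g :=
    inferInstanceAs (Epi ((coindFunctor.{u} k D.subtype).map X.g))
  exact ⟨h2.1⟩

/-- the morphism of short complexes of cochain complexes induced by the counit. -/
def compar (X : ShortComplex (Rep.{u} k D)) :
    (X.map (coindFunctor.{u} k D.subtype)).map (cochainsFunctor k G) ⟶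
      X.map (cochainsFunctor k D) where
  τ₁ := cochainsMap D.subtype (eps D X.X₁)
  τ₂ := cochainsMap D.subtype (eps D X.X₂)
  τ₃ := cochainsMap D.subtype (eps D X.X₃)
  comm₁₂ := rfl
  comm₂₃ := rfl

open HomologicalComplex.HomologySequence ComposableArrows in
lemma step {X : ShortComplex (Rep.{u} k D)} (hX : X.ShortExact) (n : ℕ)
    (hI : IsZero (groupCohomology X.X₂ (n + 1)))
    (h2 : IsIso (map D.subtype (eps D X.X₂) n)) (h3 : IsIso (map D.subtype (eps D X.X₃) n)) :
    IsIso (map D.subtype (eps D X.X₁) (n + 1)) := by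
  have hI' : IsZero (groupCohomology (coind D.subtype X.X₂) (n + 1)) :=
    hI.of_iso (coindIso X.X₂ (n + 1))
  have hS₁ := map_cochainsFunctor_shortExact (coind_shortExact D hX)
  have hS₂ := map_cochainsFunctor_shortExact hX
  have hnat := δ_naturality (compar D X) hS₁ hS₂ n (n + 1) rfl
  have hepi : Epi (map D.subtype (eps D X.X₁) (n + 1)) := by
    have e1 : Epi (hS₂.δ n (n + 1) rfl) := epi_δ_of_isZero hX n hI
    have e2 : Epi (HomologicalComplex.homologyMap (compar D X).τ₃ n ≫ hS₂.δ n (n + 1) rfl) := by
      have : Epi (HomologicalComplex.homologyMap (compar D X).τ₃ n) := by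
        have : IsIso (HomologicalComplex.homologyMap (compar D X).τ₃ n) := h3
        infer_instance
      exact epi_comp _ _
    exact @epi_of_epi_fac _ _ _ _ _ _ _ _ e2 hnat
  have hmono : Mono (map D.subtype (eps D X.X₁) (n + 1)) := by
    apply Abelian.mono_of_epi_of_mono_of_mono
      ((δ₀Functor ⋙ δlastFunctor).map (mapComposableArrows₅ (compar D X) hS₁ hS₂ n (n + 1) rfl))
    · exact (composableArrows₅_exact hS₁ n (n + 1) rfl).δ₀.δlast
    · exact (composableArrows₅_exact hS₂ n (n + 1) rfl).δ₀.δlast
    · have : IsIso (HomologicalComplex.homologyMap (compar D X).τ₂ n) := h2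
      exact inferInstanceAs (Epi (HomologicalComplex.homologyMap (compar D X).τ₂ n))
    · have : IsIso (HomologicalComplex.homologyMap (compar D X).τ₃ n) := h3
      exact inferInstanceAs (Mono (HomologicalComplex.homologyMap (compar D X).τ₃ n))
    · exact ⟨fun _ _ _ => hI'.eq_of_tgt _ _⟩
  exact isIso_of_mono_of_epi _

lemma map_zero_val {A : Rep.{u} k G} {B : Rep.{u} k D} (π : Rep.res D.subtype A ⟶ B)
    (x : groupCohomology A 0) :
    ((H0Iso B).hom ((map D.subtype π 0).hom x)).1 = π.hom ((H0Iso A).hom x).1 := by
  have := map_H0Iso_hom_f_apply D.subtype π x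
  exact this

lemma bijective_zero {A : Rep.{u} k G} {B : Rep.{u} k D} (π : Rep.res D.subtype A ⟶ B)
    (hπ : IsCoind π) : Function.Bijective (map D.subtype π 0).hom := by
  constructor
  · rw [injective_iff_map_eq_zero]
    intro x hx
    have h1 := map_zero_val D π x
    rw [hx, map_zero] at h1
    have h2 : ((H0Iso A).hom x).1 = 0 := by
      apply hπ.1
      intro g
      rw [((H0Iso A).hom x).2 g]
      exact h1.symm
    have h3 : (H0Iso A).hom x = 0 := Subtype.ext h2
    have h4 := congrArg (H0Iso A).inv h3
    simpa using h4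
  · intro y
    obtain ⟨a, ha⟩ := hπ.2 (fun _ => ((H0Iso B).hom y).1)
      (fun d _ => (((H0Iso B).hom y).2 d).symm)
    have hinv : ∀ h : G, A.ρ h a = a := by
      intro h
      rw [← sub_eq_zero]
      apply hπ.1
      intro g
      rw [map_sub, map_sub, ← Module.End.mul_apply, ← map_mul, ha, ha, sub_self]
    refine ⟨(H0Iso A).inv ⟨a, hinv⟩, ?_⟩
    have h1 := map_zero_val D π ((H0Iso A).inv ⟨a, hinv⟩)
    have h2 : (H0Iso B).hom ((map D.subtype π 0).hom ((H0Iso A).inv ⟨a, hinv⟩)) =
        (H0Iso B).hom y := by
      apply Subtype.ext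
      rw [h1]
      have := ha 1
      simpa using this
    have h4 := congrArg (H0Iso B).inv h2
    simpa using h4

lemma isCoind_eps (B : Rep.{u} k D) : IsCoind (eps D B) := by
  constructor
  · intro a ha
    apply Subtype.ext
    funext g
    have : a.1 (1 * g) = 0 := ha g
    simpa using this
  · intro f hf
    refine ⟨⟨f, hf⟩, fun g => ?_⟩
    change f (1 * g) = f g
    rw [one_mul]

section Emb

variable {H : Type u} [Group H]

/-- the embedding of `B` into the module coinduced from the trivial subgroup. -/
def emb (B : Rep.{u} k H) :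
    B ⟶ coind (⊥ : Subgroup H).subtype (Rep.res (⊥ : Subgroup H).subtype B) :=
  resCoindToHom _ B _ (𝟙 _)

instance mono_emb (B : Rep.{u} k H) : Mono (emb B) := by
  rw [Rep.mono_iff_injective]
  intro x y h
  have := congrArg (fun f => f.1 1) h
  simpa [emb] using this

lemma acyclic_emb (B : Rep.{u} k H) (n : ℕ) : IsZero (groupCohomology
    (coind (⊥ : Subgroup H).subtype (Rep.res (⊥ : Subgroup H).subtype B)) (n + 1)) :=
  (isZero_groupCohomology_succ_of_subsingleton _ n).of_iso (coindIso _ (n + 1))

end Emb

theorem isIso_eps (n : ℕ) : ∀ B : Rep.{u} k D, IsIso (map D.subtype (eps D B) n) := by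
  induction n with
  | zero =>
    intro B
    rw [ConcreteCategory.isIso_iff_bijective]
    exact bijective_zero D _ (isCoind_eps D B)
  | succ n ih =>
    intro B
    have hX : (ShortComplex.mk (emb B) (cokernel.π (emb B)) (cokernel.condition _)).ShortExact :=
      { exact := ShortComplex.exact_cokernel _ }
    exact step D hX n (acyclic_emb B n) (ih _) (ih _)

lemma isIso_toCoind {A : Rep.{u} k G} {B : Rep.{u} k D} (π : Rep.res D.subtype A ⟶ B)
    (hπ : IsCoind π) : IsIso (resCoindToHom D.subtype A B π) := by
  have h1 : Mono (resCoindToHom D.subtype A B π) := by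
    rw [Rep.mono_iff_injective, injective_iff_map_eq_zero]
    intro a ha
    apply hπ.1
    intro g
    have := congrArg (fun f => f.1 g) ha
    simpa using this
  have h2 : Epi (resCoindToHom D.subtype A B π) := by
    rw [Rep.epi_iff_surjective]
    intro f
    obtain ⟨a, ha⟩ := hπ.2 f.1 f.2
    exact ⟨a, Subtype.ext (funext fun g => by simpa using ha g)⟩
  exact isIso_of_mono_of_epi _

lemma map_eq {A : Rep.{u} k G} {B : Rep.{u} k D} (π : Rep.res D.subtype A ⟶ B) (n : ℕ) :
    map D.subtype π n =
      map (MonoidHom.id G) (resCoindToHom D.subtype A B π) n ≫ map D.subtype (eps D B) n := by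
  rw [← map_comp]
  refine map_congr rfl ?_ n
  ext a
  change π.hom a = π.hom (A.ρ 1 a)
  simp

end Shapiro

/-- P0-9 : Shapiro's lemma in concrete form. -/
theorem shapiro : Stmt_shapiro.{u} := by
  intro k G _ _ D A B π hπ n
  have h1 := Shapiro.isIso_toCoind D π hπ
  have h2 : IsIso (map (MonoidHom.id G) (resCoindToHom D.subtype A B π) n) :=
    inferInstanceAs (IsIso ((groupCohomology.functor k G n).map (resCoindToHom D.subtype A B π)))
  have h3 := Shapiro.isIso_eps D n B
  have h4 : IsIso (map D.subtype π n) := by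
    rw [Shapiro.map_eq]
    infer_instance
  exact (ConcreteCategory.isIso_iff_bijective _).1 h4

end Fermat.Agent.CFT.P0

end
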