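/-
TEAM CFT, P0-1 (helper50): dimension shifting data exist.
-/
import Fermat.Agent.CFT.P0.Interface

set_option autoImplicit false

noncomputable section

namespace Fermat.Agent.CFT.P0

open CategoryTheory CategoryTheory.Limits groupCohomology Rep

universe u

variable {k : Type u} [CommRing k]

/-- All functions `Γ → X`, with `Γ` acting by right translation `(g f)(x) = f (x g)`. -/
def shift_funRho (Γ : Type u) [Group Γ] (X : Type u) [AddCommGroup X] [Module k X] :
    Representation k Γ (Γ → X) where
  toFun g := LinearMap.funLeft k X (· * g)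
  map_one' := by ext f x; simp [LinearMap.funLeft]
  map_mul' g h := by ext f x; simp [LinearMap.funLeft, mul_assoc]

@[simp] lemma shift_funRho_apply (Γ : Type u) [Group Γ] (X : Type u) [AddCommGroup X] [Module k X]
    (g : Γ) (f : Γ → X) (x : Γ) : shift_funRho (k := k) Γ X g f x = f (x * g) := rfl

/-- The representation on all functions. -/
abbrev shift_fun (k : Type u) [CommRing k] (Γ : Type u) [Group Γ] (X : Type u) [AddCommGroup X]
    [Module k X] : Rep.{u} k Γ := Rep.of (shift_funRho (k := k) Γ X)

/-- `Fun(Γ,X)` is coinduced from the trivial subgroup. -/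
def shift_funIsoCoind (Γ : Type u) [Group Γ] (X : Type u) [AddCommGroup X] [Module k X] :
    shift_fun k Γ X ≅ coind (⊥ : Subgroup Γ).subtype (Rep.trivial k (⊥ : Subgroup Γ) X) :=
  Rep.mkIso <| Representation.Equiv.mk
    { toFun := fun f => ⟨f, fun g h => by
        have hg : (g : Γ) = 1 := Subgroup.mem_bot.1 g.2
        simp [hg]⟩
      map_add' := fun _ _ => rfl
      map_smul' := fun _ _ => rfl
      invFun := fun f => f.1
      left_inv := fun _ => rfl
      right_inv := fun _ => rfl }
    (fun g => by ext f x; rfl)

lemma shift_fun_acyclic (Γ : Type u) [Group Γ] (X : Type u) [AddCommGroup X] [Module k X] (n : ℕ) :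
    IsZero (groupCohomology (shift_fun k Γ X) (n + 1)) := by
  have h1 : IsZero (groupCohomology (Rep.trivial k (⊥ : Subgroup Γ) X) (n + 1)) :=
    isZero_groupCohomology_succ_of_subsingleton _ n
  have h2 := h1.of_iso (coindIso (Rep.trivial k (⊥ : Subgroup Γ) X) (n + 1))
  exact h2.of_iso ((groupCohomology.functor k Γ (n + 1)).mapIso (shift_funIsoCoind Γ X))

/-- Restricting `Fun(G,X)` to a subgroup `H` gives `Fun(H, Fun(G/H, X))`. -/
def shift_resIso {G : Type u} [Group G] (H : Subgroup G) (X : Type u) [AddCommGroup X]
    [Module k X] :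
    Rep.res H.subtype (shift_fun k G X) ≅ shift_fun k H ((G ⧸ H) → X) :=
  Rep.mkIso <| Representation.Equiv.mk
    { toFun := fun f h c => f (c.out * h)
      map_add' := fun _ _ => rfl
      map_smul' := fun _ _ => rfl
      invFun := fun F x => F ⟨((x : G ⧸ H).out)⁻¹ * x,
        QuotientGroup.eq.1 (QuotientGroup.out_eq' _)⟩ (x : G ⧸ H)
      left_inv := fun f => by
        funext x
        simp
      right_inv := fun F => by
        funext h c
        have hc : ((c.out * (h : G) : G) : G ⧸ H) = c := by
          rw [QuotientGroup.mk_mul_of_mem _ h.2, QuotientGroup.out_eq']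
        have : ∀ (d : G ⧸ H) (hd : d = c) (hm : d.out⁻¹ * (c.out * (h : G)) ∈ H),
            F ⟨d.out⁻¹ * (c.out * (h : G)), hm⟩ d = F h c := by
          intro d hd hm
          subst hd
          congr 1
          ext
          simp
        exact this _ hc _ }
    (fun g => by
      ext f h c
      change f (c.out * (h : G) * (g : G)) = f (c.out * ((h * g : H) : G))
      rw [Subgroup.coe_mul, mul_assoc])

/-- The `N`-invariants of `Fun(G,X)` are `Fun(G/N,X)`. -/
def shift_invIso {G : Type u} [Group G] (N : Subgroup G) [N.Normal] (X : Type u) [AddCommGroup X]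
    [Module k X] :
    shift_fun k (G ⧸ N) X ≅ (shift_fun k G X).quotientToInvariants N :=
  Rep.mkIso <| Representation.Equiv.mk
    { toFun := fun F => ⟨fun x => F (x : G ⧸ N), fun n => by
        funext x
        change F ((x * (n : G) : G) : G ⧸ N) = F (x : G ⧸ N)
        rw [QuotientGroup.mk_mul_of_mem _ n.2]⟩
      map_add' := fun _ _ => rfl
      map_smul' := fun _ _ => rfl
      invFun := fun f c => f.1 c.out
      left_inv := fun F => by
        funext c
        simp
      right_inv := fun f => by
        apply Subtype.ext
        funext x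
        change f.1 ((x : G ⧸ N).out) = f.1 x
        have hm : x⁻¹ * (x : G ⧸ N).out ∈ N :=
          QuotientGroup.eq.1 (QuotientGroup.out_eq' _).symm
        have := congrFun (f.2 ⟨_, hm⟩) x
        change f.1 (x * (x⁻¹ * (x : G ⧸ N).out)) = f.1 x at this
        rwa [mul_inv_cancel_left] at this }
    (fun g => by
      induction g using QuotientGroup.induction_on with
      | H g =>
        ext F x
        rfl)

/-- The canonical embedding `A → Fun(G,A)`, `a ↦ (x ↦ x a)`. -/
def shift_emb {G : Type u} [Group G] (A : Rep.{u} k G) : A ⟶ shift_fun k G A.V :=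
  Rep.ofHom (ρ := A.ρ) (σ := shift_funRho (k := k) G A.V)
    ⟨{ toFun := fun a x => A.ρ x a
       map_add' := fun a b => by funext x; simp
       map_smul' := fun c a => by funext x; simp }, fun g => by
      ext a x
      change A.ρ x (A.ρ g a) = A.ρ (x * g) a
      simp⟩

lemma shift_emb_apply {G : Type u} [Group G] (A : Rep.{u} k G) (a : A.V) (x : G) :
    (shift_emb A).hom a x = A.ρ x a := rfl

instance shift_emb_mono {G : Type u} [Group G] (A : Rep.{u} k G) : Mono (shift_emb A) := by
  rw [Rep.mono_iff_injective]
  intro a b hab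
  have h1 : A.ρ 1 a = A.ρ 1 b := congrFun hab 1
  simpa using h1

/-- P0-1 : dimension shifting data exist. -/
theorem shift : Stmt_shift.{u} := by
  intro k G _ _ A
  exact ⟨{
    I := shift_fun k G A.V
    B := cokernel (shift_emb A)
    i := shift_emb A
    q := cokernel.π (shift_emb A)
    zero := cokernel.condition _
    exact :=
      { exact := ShortComplex.exact_cokernel _
        mono_f := shift_emb_mono A
        epi_g := inferInstanceAs (Epi (cokernel.π (shift_emb A))) }
    acyclic_res := fun H n =>
      (shift_fun_acyclic H ((G ⧸ H) → A.V) n).of_iso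
        ((groupCohomology.functor k H (n + 1)).mapIso (shift_resIso H A.V))
    acyclic_inv := fun N _ n =>
      (shift_fun_acyclic (G ⧸ N) A.V n).of_iso
        ((groupCohomology.functor k (G ⧸ N) (n + 1)).mapIso (shift_invIso N A.V).symm) }⟩

end Fermat.Agent.CFT.P0

end
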