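/-
TEAM CFT, sub-project P0, package P0-5ab: reduction to Sylow subgroups.
-/
import Fermat.Agent.CFT.P0.Interface

set_option autoImplicit false
set_option linter.style.haveILetI false

noncomputable section

namespace Fermat.Agent.CFT.P0

open CategoryTheory CategoryTheory.Limits groupCohomology Rep

universe u

/-- An element killed by `N ≠ 0` and, for every prime `p ∣ N`, by some integer prime to `p`,
vanishes. -/
lemma sylow_eq_zero_of_local {X : Type*} [AddCommGroup X] (N : ℕ) (x : X)
    (hNx : N • x = 0)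
    (h : ∀ p : ℕ, p.Prime → p ∣ N → ∃ m : ℕ, ¬ p ∣ m ∧ m • x = 0) : x = 0 := by
  by_contra hx
  have h1 : addOrderOf x ≠ 1 := by
    intro h1
    exact hx (AddMonoid.addOrderOf_eq_one_iff.1 h1)
  obtain ⟨p, hp, hpd⟩ := Nat.exists_prime_and_dvd h1
  have hN : addOrderOf x ∣ N := addOrderOf_dvd_of_nsmul_eq_zero hNx
  obtain ⟨m, hm, hmx⟩ := h p hp (hpd.trans hN)
  exact hm (hpd.trans (addOrderOf_dvd_of_nsmul_eq_zero hmx))

/-- A finite abelian group whose `p`-part embeds, for every `p`, in a group of order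
dividing `N`, has order dividing `N`. -/
lemma sylow_card_dvd_of_local {X : Type*} [AddCommGroup X] [Finite X] (N : ℕ)
    (h : ∀ p : ℕ, p.Prime → ∃ (Y : Type) (_ : AddCommGroup Y) (f : X →+ Y) (m : ℕ),
      ¬ p ∣ m ∧ (∀ x, f x = 0 → m • x = 0) ∧ Nat.card Y ∣ N) : Nat.card X ∣ N := by
  rw [Nat.dvd_iff_prime_pow_dvd_dvd]
  intro p k hp hpk
  haveI : Fact p.Prime := ⟨hp⟩
  obtain ⟨Y, _, f, m, hm, hf, hY⟩ := h p hp
  have hpk' : p ^ k ∣ Nat.card (Multiplicative X) := by
    rw [Nat.card_congr (Multiplicative.toAdd : Multiplicative X ≃ X)]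
    exact hpk
  obtain ⟨K, hK⟩ := Sylow.exists_subgroup_card_pow_prime p hpk'
  let g : K →* Multiplicative Y := (AddMonoidHom.toMultiplicative f).comp K.subtype
  have hg : Function.Injective g := by
    rw [injective_iff_map_eq_one]
    intro a ha
    have h1 : f (Multiplicative.toAdd (a : Multiplicative X)) = 0 := by
      have : Multiplicative.toAdd (g a) = 0 := by rw [ha]; rfl
      exact this
    have h2 : m • Multiplicative.toAdd (a : Multiplicative X) = 0 := hf _ h1
    have h3 : a ^ (p ^ k) = 1 := by rw [← hK]; exact pow_card_eq_one'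
    have h4 : (p ^ k) • Multiplicative.toAdd (a : Multiplicative X) = 0 := by
      have := congrArg (fun z : K => Multiplicative.toAdd (z : Multiplicative X)) h3
      simpa using this
    have h5 : Multiplicative.toAdd (a : Multiplicative X) = 0 := by
      refine sylow_eq_zero_of_local (p ^ k) _ h4 ?_
      intro q hq hqd
      have : q = p := (Nat.prime_dvd_prime_iff_eq hq hp).1 (hq.dvd_of_dvd_pow hqd)
      subst this
      exact ⟨m, hm, h2⟩
    apply Subtype.ext
    exact h5
  have h6 : Nat.card K ∣ Nat.card (Multiplicative Y) := Subgroup.card_dvd_of_injective g hg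
  rw [hK] at h6
  have h7 : Nat.card (Multiplicative Y) = Nat.card Y :=
    Nat.card_congr (Multiplicative.toAdd : Multiplicative Y ≃ Y)
  rw [h7] at h6
  exact h6.trans hY

/-- P0-5a -/
theorem sylowVanish (h : Stmt_resIndex.{u}) (h2 : Stmt_cardSmul.{u}) : Stmt_sylowVanish.{u} := by
  intro k G _ _ _ A n hS
  rw [ModuleCat.isZero_iff_subsingleton]
  have key : ∀ x : groupCohomology A (n + 1), x = 0 := by
    intro x
    refine sylow_eq_zero_of_local (Nat.card G) x (h2 k G A n x) ?_
    intro p hp _
    haveI : Fact p.Prime := ⟨hp⟩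
    let P : Sylow p G := default
    refine ⟨(P : Subgroup G).index, P.not_dvd_index, ?_⟩
    refine h k G A (P : Subgroup G) (n + 1) x ?_
    haveI := ModuleCat.subsingleton_of_isZero (hS p P)
    exact Subsingleton.elim _ _
  exact ⟨fun x y => by rw [key x, key y]⟩

/-- P0-5b -/
theorem sylowCard (h : Stmt_resIndex.{0}) (h2 : Stmt_cardSmul.{0}) : Stmt_sylowCard := by
  intro G _ _ A n hS
  have hfin : Finite (groupCohomology A (n + 1)) := by
    let Y : (Nat.card G).primeFactors → Type := fun p =>
      haveI : Fact p.1.Prime := ⟨Nat.prime_of_mem_primeFactors p.2⟩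
      groupCohomology (Rep.res ((default : Sylow p.1 G) : Subgroup G).subtype A) (n + 1)
    let F : groupCohomology A (n + 1) → ∀ p, Y p := fun x p =>
      haveI : Fact p.1.Prime := ⟨Nat.prime_of_mem_primeFactors p.2⟩
      (resMap A ((default : Sylow p.1 G) : Subgroup G) (n + 1)).hom x
    haveI : ∀ p, Finite (Y p) := fun p =>
      haveI : Fact p.1.Prime := ⟨Nat.prime_of_mem_primeFactors p.2⟩
      (hS p.1 default).1
    refine Finite.of_injective F ?_
    intro x y hxy
    rw [← sub_eq_zero]
    refine sylow_eq_zero_of_local (Nat.card G) (x - y) (h2 ℤ G A n _) ?_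
    intro p hp hpG
    haveI : Fact p.Prime := ⟨hp⟩
    let P : Sylow p G := default
    refine ⟨(P : Subgroup G).index, P.not_dvd_index, ?_⟩
    refine h ℤ G A (P : Subgroup G) (n + 1) (x - y) ?_
    have hmem : p ∈ (Nat.card G).primeFactors :=
      Nat.mem_primeFactors.2 ⟨hp, hpG, Nat.card_pos.ne'⟩
    have := congrFun hxy ⟨p, hmem⟩
    rw [map_sub, sub_eq_zero]
    exact this
  refine ⟨hfin, ?_⟩
  refine sylow_card_dvd_of_local (Nat.card G) ?_
  intro p hp
  haveI : Fact p.Prime := ⟨hp⟩
  let P : Sylow p G := default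
  refine ⟨groupCohomology (Rep.res (P : Subgroup G).subtype A) (n + 1), inferInstance,
    (resMap A (P : Subgroup G) (n + 1)).hom.toAddMonoidHom, (P : Subgroup G).index,
    P.not_dvd_index, ?_, ?_⟩
  · intro x hx
    exact h ℤ G A (P : Subgroup G) (n + 1) x hx
  · exact (hS p P).2.trans (Subgroup.card_subgroup_dvd_card _)

end Fermat.Agent.CFT.P0

end
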