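/-
TEAM CFT, sub-project P0, package P0-7a: cohomology of the augmentation ideal.

Everything structural is done over a general commutative ring `k` (this avoids the `ℤ`-module
instance diamond on abstract objects of `Rep ℤ G`); `IG G` is the specialisation to `k = ℤ`.
-/
import Fermat.Agent.CFT.P0.Interface

set_option autoImplicit false

noncomputable section

namespace Fermat.Agent.CFT.P0

open CategoryTheory CategoryTheory.Limits groupCohomology Rep

universe u

/-! ### General lemmas -/

/-- A concrete criterion for short exactness in `Rep k G`. -/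
theorem aug_shortExact_of {k G : Type u} [CommRing k] [Group G] (S : ShortComplex (Rep.{u} k G))
    (h1 : Function.Injective S.f.hom) (h3 : Function.Surjective S.g.hom)
    (h2 : ∀ x, S.g.hom x = 0 → ∃ y, S.f.hom y = x) : S.ShortExact where
  exact := by
    rw [← ShortComplex.exact_map_iff_of_faithful _ (forget₂ (Rep.{u} k G) (ModuleCat.{u} k))]
    rw [ShortComplex.moduleCat_exact_iff]
    exact h2
  mono_f := (Rep.mono_iff_injective _).2 h1
  epi_g := (Rep.epi_iff_surjective _).2 h3

/-- If the identity of `M` is the "trace" `∑ h, h π h⁻¹` of a `k`-linear endomorphism `π`, then `M`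
is a retract of `Coind_1^H M`, hence is acyclic. -/
theorem aug_isZero_of_proj {k H : Type u} [CommRing k] [Group H] [Fintype H] (M : Rep.{u} k H)
    (π : M.V →ₗ[k] M.V) (hπ : ∀ m, ∑ h : H, M.ρ h (π (M.ρ h⁻¹ m)) = m) (n : ℕ) :
    IsZero (groupCohomology M (n + 1)) := by
  let B : Rep.{u} k (⊥ : Subgroup H) := Rep.res (⊥ : Subgroup H).subtype M
  let C : Rep.{u} k H := Rep.coind (⊥ : Subgroup H).subtype B
  let i : M ⟶ C := Rep.resCoindToHom (⊥ : Subgroup H).subtype M B (𝟙 _)
  let rl : C.V →ₗ[k] M.V :=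
    ∑ h : H, (M.ρ h⁻¹ ∘ₗ π ∘ₗ LinearMap.proj h ∘ₗ (B.ρ.coindV (⊥ : Subgroup H).subtype).subtype)
  have hrl : ∀ f : C.V, rl f = ∑ h : H, M.ρ h⁻¹ (π (f.1 h)) := by
    intro f
    simp only [rl, LinearMap.sum_apply]
    rfl
  let r : C ⟶ M := Rep.ofHom ⟨rl, by
    intro g
    ext f
    simp only [LinearMap.comp_apply]
    rw [hrl, hrl, map_sum]
    refine (Fintype.sum_equiv (Equiv.mulRight g) _ _ ?_)
    intro h
    have : (C.ρ g f).1 h = f.1 (h * g) := rfl
    rw [this]
    simp only [Equiv.coe_mulRight, mul_inv_rev]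
    rw [← Module.End.mul_apply (M.ρ g), ← map_mul, mul_inv_cancel_left]⟩
  have hC : IsZero (groupCohomology C (n + 1)) :=
    (isZero_groupCohomology_succ_of_subsingleton B n).of_iso (coindIso B (n + 1))
  have hir : i ≫ r = 𝟙 M := by
    ext m
    have h1 : (i ≫ r).hom.toLinearMap m = rl (i.hom m) := rfl
    rw [h1, hrl]
    have h2 : ∀ h : H, (i.hom m).1 h = M.ρ h m := fun h => rfl
    simp only [h2]
    rw [← Equiv.sum_comp (Equiv.inv H)]
    simpa using hπ m
  rw [IsZero.iff_id_eq_zero]
  have h1 : (functor k H (n + 1)).map i ≫ (functor k H (n + 1)).map r = 𝟙 _ := by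
    rw [← Functor.map_comp, hir, CategoryTheory.Functor.map_id]
  have h2 : (functor k H (n + 1)).map i = 0 := hC.eq_of_tgt _ _
  rw [h2, zero_comp] at h1
  exact h1.symm

/-! ### The group ring is acyclic for finite subgroups -/

section Proj

variable (k : Type u) {G : Type u} [CommRing k] [Group G]

open Classical in
/-- The projection of `k[G]` onto the span of `T ⊆ G`. -/
def aug_proj (T : Set G) : (Rep.leftRegular k G).V →ₗ[k] (Rep.leftRegular k G).V :=
  Finsupp.lift (MonoidAlgebra k G) k G (fun g => if g ∈ T then MonoidAlgebra.single g 1 else 0) ∘ₗ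
    (MonoidAlgebra.coeffLinearEquiv k).toLinearMap

open Classical in
theorem aug_proj_single (T : Set G) (g : G) (r : k) :
    aug_proj k T (MonoidAlgebra.single g r) = if g ∈ T then MonoidAlgebra.single g r else 0 := by
  simp only [aug_proj, LinearMap.comp_apply]
  split_ifs with h <;> simp [h]

/-- `∑ h, h π_T h⁻¹ = id` on `k[G]` when `T` is a set of representatives for `φ(H) \ G`. -/
theorem aug_proj_sum {H : Type u} [Group H] [Fintype H] (φ : H →* G) (T : Set G)
    (hT : ∀ g : G, ∃! h : H, (φ h)⁻¹ * g ∈ T) (m : (Rep.leftRegular k G).V) :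
    ∑ h : H, (Rep.leftRegular k G).ρ (φ h) (aug_proj k T ((Rep.leftRegular k G).ρ (φ h⁻¹) m))
      = m := by
  classical
  have key : ∑ h : H, ((Rep.leftRegular k G).ρ (φ h) ∘ₗ aug_proj k T ∘ₗ
      (Rep.leftRegular k G).ρ (φ h⁻¹)) = LinearMap.id := by
    ext g : 2
    simp only [LinearMap.comp_apply, LinearMap.sum_apply, MonoidAlgebra.lsingle_apply,
      LinearMap.id_apply]
    obtain ⟨h₀, hh₀, huniq⟩ := hT g
    rw [Finset.sum_eq_single h₀]
    · rw [Representation.ofMulAction_single, aug_proj_single, smul_eq_mul, map_inv, if_pos hh₀,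
        Representation.ofMulAction_single, smul_eq_mul, mul_inv_cancel_left]
    · intro h _ hne
      rw [Representation.ofMulAction_single, aug_proj_single, smul_eq_mul, map_inv, if_neg,
        map_zero]
      exact fun hh => hne (huniq h hh)
    · intro h; exact absurd (Finset.mem_univ _) h
  have := congrArg (fun f => f m) key
  simpa [LinearMap.sum_apply] using this

theorem aug_acyclic_of_hom {H : Type u} [Group H] [Finite H] (φ : H →* G) (T : Set G)
    (hT : ∀ g : G, ∃! h : H, (φ h)⁻¹ * g ∈ T) (n : ℕ) :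
    IsZero (groupCohomology (Rep.res φ (Rep.leftRegular k G)) (n + 1)) := by
  have := Fintype.ofFinite H
  exact aug_isZero_of_proj (Rep.res φ (Rep.leftRegular k G)) (aug_proj k T)
    (fun m => aug_proj_sum k φ T hT m) n

variable (G) in
/-- (a) `Hⁿ⁺¹(H, k[G]) = 0` for every finite subgroup `H ≤ G`. -/
theorem aug_acyclic_res (H : Subgroup G) [Finite H] (n : ℕ) :
    IsZero (groupCohomology (Rep.res H.subtype (Rep.leftRegular k G)) (n + 1)) := by
  obtain ⟨T, hT, -⟩ := Subgroup.exists_isComplement_right H 1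
  exact aug_acyclic_of_hom k H.subtype T
    (Subgroup.isComplement_iff_existsUnique_inv_mul_mem.1 hT) n

variable (G) in
/-- (a') `Hⁿ⁺¹(G, k[G]) = 0` for finite `G`. -/
theorem aug_acyclic_self [Finite G] (n : ℕ) :
    IsZero (groupCohomology (Rep.leftRegular k G) (n + 1)) :=
  aug_acyclic_of_hom k (MonoidHom.id G) {1}
    (fun g => ⟨g, by simp, fun h hh => by
      simpa [inv_mul_eq_one] using hh⟩) n

end Proj

/-! ### The augmentation ideal over a general base ring -/

section Aug

variable (k G : Type u) [CommRing k] [Group G]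

/-- The augmentation `ε : k[G] ⟶ k`, `g ↦ 1`. -/
def augHom : Rep.leftRegular k G ⟶ Rep.trivial k G k :=
  Rep.leftRegularHom (Rep.trivial k G k) (1 : k)

@[simp]
theorem augHom_single (g : G) (r : k) :
    (augHom k G).hom (MonoidAlgebra.single g r) = r := by
  simp [augHom]

theorem augHom_ρ (g : G) (x : (Rep.leftRegular k G).V) :
    (augHom k G).hom ((Rep.leftRegular k G).ρ g x) = (augHom k G).hom x :=
  Rep.hom_comm_apply (augHom k G) g x

/-- The augmentation ideal as a submodule of `k[G]`. -/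
def augSub : Submodule k (Rep.leftRegular k G).V := LinearMap.ker (augHom k G).hom.toLinearMap

theorem mem_augSub (x : (Rep.leftRegular k G).V) : x ∈ augSub k G ↔ (augHom k G).hom x = 0 :=
  Iff.rfl

theorem augSub_le_comap (g : G) :
    augSub k G ≤ (augSub k G).comap ((Rep.leftRegular k G).ρ g) := by
  intro x hx
  rw [Submodule.mem_comap, mem_augSub, augHom_ρ]
  exact hx

/-- The augmentation ideal `I_G ⊆ k[G]` as a `G`-representation. -/
abbrev augIdeal : Rep.{u} k G :=
  Rep.subrepresentation (Rep.leftRegular k G) (augSub k G) (augSub_le_comap k G)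

/-- The inclusion `I_G ⟶ k[G]`. -/
def augι : augIdeal k G ⟶ Rep.leftRegular k G :=
  Rep.subtype _ (augSub k G) (augSub_le_comap k G)

theorem augι_apply (x : (augIdeal k G).V) : (augι k G).hom x = x.1 := rfl

theorem augIdeal_ρ_coe (g : G) (x : (augIdeal k G).V) :
    ((augIdeal k G).ρ g x).1 = (Rep.leftRegular k G).ρ g x.1 := rfl

theorem augι_comp_augHom : augι k G ≫ augHom k G = 0 := by
  ext x
  exact x.2

/-- `0 ⟶ I_G ⟶ k[G] ⟶ k ⟶ 0`. -/
def augSes : ShortComplex (Rep.{u} k G) :=
  ShortComplex.mk (augι k G) (augHom k G) (augι_comp_augHom k G)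

theorem augSes_shortExact : (augSes k G).ShortExact :=
  aug_shortExact_of _ Subtype.val_injective
    (fun r => ⟨MonoidAlgebra.single 1 r, augHom_single k G 1 r⟩)
    (fun x hx => ⟨⟨x, hx⟩, rfl⟩)

variable {G}

/-- The restriction of the augmentation sequence to a subgroup. -/
abbrev augSesRes (H : Subgroup G) : ShortComplex (Rep.{u} k H) :=
  (augSes k G).map (Rep.resFunctor H.subtype)

theorem augSesRes_shortExact (H : Subgroup G) : (augSesRes k H).ShortExact :=
  (Rep.shortExact_res H.subtype).2 (augSes_shortExact k G)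

/-- The element `σ - 1` of the augmentation ideal. -/
def augGen (σ : G) : (augIdeal k G).V :=
  ⟨MonoidAlgebra.single σ 1 - MonoidAlgebra.single 1 1, by
    rw [mem_augSub, map_sub, augHom_single, augHom_single, sub_self]⟩

theorem augGen_coe (σ : G) :
    (augGen k σ).1 = MonoidAlgebra.single σ 1 - MonoidAlgebra.single 1 1 := rfl

@[simp]
theorem augGen_one : augGen k (1 : G) = 0 := Subtype.ext (by simp [augGen_coe])

theorem augIdeal_ρ_augGen (τ σ : G) :
    (augIdeal k G).ρ τ (augGen k σ) = augGen k (τ * σ) - augGen k τ := by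
  apply Subtype.ext
  rw [augIdeal_ρ_coe, augGen_coe, map_sub, Representation.ofMulAction_single,
    Representation.ofMulAction_single]
  simp [augGen_coe]

/-- The 1-cocycle `σ ↦ σ - 1` of `H` with values in `I_G`. -/
def augCocycle (H : Subgroup G) : cocycles₁ (Rep.res H.subtype (augIdeal k G)) :=
  ⟨fun σ => augGen k (σ : G), by
    rw [mem_cocycles₁_iff]
    intro g h
    have := augIdeal_ρ_augGen k (g : G) (h : G)
    change augGen k ((g : G) * (h : G)) = (augIdeal k G).ρ (g : G) (augGen k (h : G)) + _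
    rw [this]; abel⟩

theorem augCocycle_apply (H : Subgroup G) (σ : H) : augCocycle k H σ = augGen k (σ : G) := rfl

/-- The connecting map `H⁰(H, k) ⟶ H¹(H, I_G)` sends `z` to `z • [σ ↦ σ - 1]`. -/
theorem aug_δ_apply (H : Subgroup G) (z : (Rep.trivial k H k).ρ.invariants) :
    δ (augSesRes_shortExact k H) 0 1 rfl ((H0Iso (Rep.trivial k H k)).inv z) =
      z.1 • H1π (Rep.res H.subtype (augIdeal k G)) (augCocycle k H) := by
  have h := δ₀_apply (augSesRes_shortExact k H) z (MonoidAlgebra.single 1 z.1)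
    (augHom_single k G 1 z.1) (fun σ => z.1 • augGen k (σ : G)) (by
      funext σ
      change (z.1 • augGen k (σ : G)).1 =
        (Rep.leftRegular k G).ρ (σ : G) (MonoidAlgebra.single 1 z.1) - MonoidAlgebra.single 1 z.1
      rw [Representation.ofMulAction_single, Submodule.coe_smul, augGen_coe, smul_sub,
        MonoidAlgebra.smul_single, MonoidAlgebra.smul_single]
      simp)
  rw [← map_smul]
  exact h

/-- (c1) `H¹(H, I_G)` is generated by the class of `σ ↦ σ - 1`. -/
theorem aug_H1_gen (H : Subgroup G) [Finite H]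
    (x : groupCohomology (Rep.res H.subtype (augIdeal k G)) 1) :
    ∃ z : k, x = z • H1π (Rep.res H.subtype (augIdeal k G)) (augCocycle k H) := by
  have hepi : Epi (δ (augSesRes_shortExact k H) 0 1 rfl) :=
    epi_δ_of_isZero (augSesRes_shortExact k H) 0 (aug_acyclic_res k G H 0)
  obtain ⟨w, rfl⟩ := (ModuleCat.epi_iff_surjective _).1 hepi x
  induction w using H0_induction_on with
  | h z => exact ⟨z.1, aug_δ_apply k H z⟩

/-- The norm element `∑_{h ∈ H} h` of `k[G]`. -/
def augNorm (H : Subgroup G) [Fintype H] : (Rep.leftRegular k G).V :=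
  ∑ h : H, MonoidAlgebra.single (h : G) 1

theorem augNorm_ρ (H : Subgroup G) [Fintype H] (σ : H) :
    (Rep.leftRegular k G).ρ (σ : G) (augNorm k H) = augNorm k H := by
  rw [augNorm, map_sum]
  refine Fintype.sum_equiv (Equiv.mulLeft σ) _ _ fun h => ?_
  rw [Representation.ofMulAction_single]
  rfl

theorem augHom_augNorm (H : Subgroup G) [Fintype H] :
    (augHom k G).hom (augNorm k H) = (Fintype.card H : k) := by
  rw [augNorm, map_sum, Finset.sum_congr rfl fun (x : H) _ => augHom_single k G (x : G) 1]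
  simp

/-- The augmentation of an `H`-invariant element of `k[G]` is a multiple of `|H|`. -/
theorem augHom_of_invariant (H : Subgroup G) [Fintype H] (y : (Rep.leftRegular k G).V)
    (hy : ∀ σ : H, (Rep.leftRegular k G).ρ (σ : G) y = y) :
    ∃ c : k, (augHom k G).hom y = (Fintype.card H : k) * c := by
  obtain ⟨T, hT, -⟩ := Subgroup.exists_isComplement_right H 1
  have h := aug_proj_sum k H.subtype T (Subgroup.isComplement_iff_existsUnique_inv_mul_mem.1 hT) y
  refine ⟨(augHom k G).hom (aug_proj k T y), ?_⟩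
  conv_lhs => rw [← h]
  rw [map_sum]
  have : ∀ σ : H, (augHom k G).hom ((Rep.leftRegular k G).ρ (H.subtype σ)
      (aug_proj k T ((Rep.leftRegular k G).ρ (H.subtype σ⁻¹) y))) =
      (augHom k G).hom (aug_proj k T y) := by
    intro σ
    rw [augHom_ρ]
    congr 2
    exact hy σ⁻¹
  rw [Finset.sum_congr rfl fun σ _ => this σ]
  simp

/-- (c2) `z • [σ ↦ σ - 1] = 0` in `H¹(H, I_G)` iff `z` is a multiple of `|H|`. -/
theorem aug_H1_smul_eq_zero_iff (H : Subgroup G) [Finite H] (z : k) :
    z • H1π (Rep.res H.subtype (augIdeal k G)) (augCocycle k H) = 0 ↔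
      ∃ c : k, z = (Nat.card H : k) * c := by
  have := Fintype.ofFinite H
  rw [← map_smul, H1π_eq_zero_iff, Nat.card_eq_fintype_card]
  constructor
  · rintro ⟨(x : (augIdeal k G).V), hx⟩
    have hx' : ∀ σ : H, (Rep.leftRegular k G).ρ (σ : G) x.1 - x.1 =
        z • (MonoidAlgebra.single (σ : G) 1 - MonoidAlgebra.single 1 1) := fun σ =>
      congrArg Subtype.val (congrFun hx σ)
    obtain ⟨c, hc⟩ := augHom_of_invariant k H (x.1 - MonoidAlgebra.single 1 z) (by
      intro σ
      have h1 := hx' σ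
      rw [map_sub, Representation.ofMulAction_single]
      rw [smul_sub, MonoidAlgebra.smul_single, MonoidAlgebra.smul_single, smul_eq_mul,
        mul_one] at h1
      rw [smul_eq_mul, mul_one, sub_eq_sub_iff_add_eq_add, ← sub_eq_iff_eq_add, add_sub_assoc,
        ← neg_sub (MonoidAlgebra.single (σ : G) z), ← h1]
      abel)
    rw [map_sub, augHom_single, (mem_augSub k G x.1).1 x.2, zero_sub] at hc
    exact ⟨-c, by rw [mul_neg, ← hc, neg_neg]⟩
  · rintro ⟨c, rfl⟩
    have hmem : MonoidAlgebra.single 1 ((Fintype.card H : k) * c) - c • augNorm k H ∈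
        augSub k G := by
      rw [mem_augSub, map_sub, map_smul, augHom_single, augHom_augNorm, smul_eq_mul, mul_comm,
        sub_self]
    refine ⟨(⟨_, hmem⟩ : (augIdeal k G).V), ?_⟩
    funext σ
    apply Subtype.ext
    change (Rep.leftRegular k G).ρ (σ : G) (MonoidAlgebra.single 1 ((Fintype.card H : k) * c) -
      c • augNorm k H) - (MonoidAlgebra.single 1 ((Fintype.card H : k) * c) - c • augNorm k H) =
      ((Fintype.card H : k) * c) • (MonoidAlgebra.single (σ : G) 1 - MonoidAlgebra.single 1 1)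
    rw [map_sub, map_smul, augNorm_ρ, Representation.ofMulAction_single, smul_sub,
      MonoidAlgebra.smul_single, MonoidAlgebra.smul_single, smul_eq_mul, smul_eq_mul, mul_one,
      mul_one]
    abel

/-- (d) dimension shifting `Hⁿ⁺¹(H, k) ≅ Hⁿ⁺²(H, I_G)` for finite subgroups `H ≤ G`,
given by the connecting homomorphism. -/
def augShiftIsoRes (H : Subgroup G) [Finite H] (n : ℕ) :
    groupCohomology (Rep.trivial k H k) (n + 1) ≅
      groupCohomology (Rep.res H.subtype (augIdeal k G)) (n + 2) :=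
  @asIso _ _ _ _ (δ (augSesRes_shortExact k H) (n + 1) (n + 2) rfl)
    (isIso_δ_of_isZero (augSesRes_shortExact k H) (n + 1) (aug_acyclic_res k G H n)
      (aug_acyclic_res k G H (n + 1)))

variable (G) in
/-- (d) dimension shifting `Hⁿ⁺¹(G, k) ≅ Hⁿ⁺²(G, I_G)` for finite `G`, given by the connecting
homomorphism. -/
def augShiftIso [Finite G] (n : ℕ) :
    groupCohomology (Rep.trivial k G k) (n + 1) ≅ groupCohomology (augIdeal k G) (n + 2) :=
  @asIso _ _ _ _ (δ (augSes_shortExact k G) (n + 1) (n + 2) rfl)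
    (isIso_δ_of_isZero (augSes_shortExact k G) (n + 1) (aug_acyclic_self k G n)
      (aug_acyclic_self k G (n + 1)))

end Aug

/-! ### The case `k = ℤ` -/

section Int

variable (G : Type) [Group G]

/-- The augmentation ideal `I_G ⊆ ℤ[G]` as a `G`-representation. -/
abbrev IG : Rep.{0} ℤ G := augIdeal ℤ G

variable {G}

/-- (b) `H¹(H, ℤ) = 0` for a finite group `H`. -/
theorem aug_H1_int_zero (H : Type) [Group H] [Finite H] :
    IsZero (groupCohomology (Rep.trivial ℤ H ℤ) 1) := by
  refine IsZero.of_iso ?_ (H1IsoOfIsTrivial (Rep.trivial ℤ H ℤ))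
  rw [ModuleCat.isZero_of_iff_subsingleton]
  refine ⟨fun f g => ?_⟩
  have hz : ∀ f : Additive H →+ ℤ, f = 0 := by
    intro f
    refine DFunLike.ext _ _ fun x => ?_
    have h1 : (Nat.card H) • x = 0 := by
      have := pow_card_eq_one' (G := H) (x := Additive.toMul x)
      exact congrArg Additive.ofMul this
    have h2 : (Nat.card H) • f x = 0 := by rw [← map_nsmul, h1, map_zero]
    have h3 : Nat.card H ≠ 0 := Nat.card_pos.ne'
    simpa [h3] using h2
  exact (hz f).trans (hz g).symm

/-- (b) `H²(H, I_G) = 0` for every finite subgroup `H ≤ G`. -/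
theorem IG_H2_zero (H : Subgroup G) [Finite H] :
    IsZero (groupCohomology (Rep.res H.subtype (IG G)) 2) :=
  (aug_H1_int_zero H).of_iso (augShiftIsoRes ℤ H 0).symm

/-- (d) `Hⁿ⁺²(G, I_G) ≅ Hⁿ⁺¹(G, ℤ)` for finite `G`. -/
theorem IG_shift [Finite G] (n : ℕ) :
    Nonempty (groupCohomology (IG G) (n + 2) ≅ groupCohomology (Rep.trivial ℤ G ℤ) (n + 1)) :=
  ⟨(augShiftIso ℤ G n).symm⟩

/-- (c) `H¹(H, I_G)` is generated by the class of the cocycle `σ ↦ σ - 1`. -/
theorem IG_H1_gen (H : Subgroup G) [Finite H]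
    (x : groupCohomology (Rep.res H.subtype (IG G)) 1) :
    ∃ m : ℤ, x = m • H1π (Rep.res H.subtype (IG G)) (augCocycle ℤ H) := by
  obtain ⟨z, hz⟩ := aug_H1_gen ℤ H x
  exact ⟨z, hz.trans (int_smul_eq_zsmul _ _ _)⟩

/-- (c) `m • [σ ↦ σ - 1] = 0` in `H¹(H, I_G)` iff `|H| ∣ m`. -/
theorem IG_H1_smul_eq_zero_iff (H : Subgroup G) [Finite H] (m : ℤ) :
    m • H1π (Rep.res H.subtype (IG G)) (augCocycle ℤ H) = 0 ↔ (Nat.card H : ℤ) ∣ m := by
  rw [← int_smul_eq_zsmul (ModuleCat.isModule _)]
  exact aug_H1_smul_eq_zero_iff ℤ H m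

/-- (c) the class of `σ ↦ σ - 1` in `H¹(H, I_G)` has order `|H|`. -/
theorem IG_H1_addOrderOf (H : Subgroup G) [Finite H] :
    addOrderOf (H1π (Rep.res H.subtype (IG G)) (augCocycle ℤ H)) = Nat.card H := by
  apply Nat.dvd_antisymm
  · rw [addOrderOf_dvd_iff_nsmul_eq_zero, ← natCast_zsmul, IG_H1_smul_eq_zero_iff]
  · have := (IG_H1_smul_eq_zero_iff H
      (addOrderOf (H1π (Rep.res H.subtype (IG G)) (augCocycle ℤ H)) : ℤ)).1
      (by rw [natCast_zsmul, addOrderOf_nsmul_eq_zero])
    exact_mod_cast this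

/-- (c) `H¹(H, I_G)` has order `|H|`. -/
theorem IG_H1_card (H : Subgroup G) [Finite H] :
    Nat.card (groupCohomology (Rep.res H.subtype (IG G)) 1) = Nat.card H := by
  rw [← IG_H1_addOrderOf H, ← Nat.card_zmultiples]
  have htop : AddSubgroup.zmultiples (H1π (Rep.res H.subtype (IG G)) (augCocycle ℤ H)) = ⊤ := by
    rw [eq_top_iff]
    intro x _
    obtain ⟨m, hm⟩ := IG_H1_gen H x
    exact AddSubgroup.mem_zmultiples_iff.2 ⟨m, hm.symm⟩
  rw [htop]
  exact (Nat.card_congr (Equiv.Set.univ _)).symm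

theorem IG_H1_finite (H : Subgroup G) [Finite H] :
    Finite (groupCohomology (Rep.res H.subtype (IG G)) 1) :=
  Nat.finite_of_card_ne_zero (by rw [IG_H1_card]; exact Nat.card_pos.ne')

end Int

end Fermat.Agent.CFT.P0
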