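/-
TEAM CFT, sub-project P0, package P0-7 (glue): the augmentation ideal `IG G` of `AugIdeal.lean` is
an `AugModel G` in the sense of `Tate.lean`; hence Tate's theorem `Stmt_tate`.
-/
import Fermat.Agent.CFT.P0.AugIdeal
import Fermat.Agent.CFT.P0.Tate

set_option autoImplicit false

noncomputable section

namespace Fermat.Agent.CFT.P0

open CategoryTheory CategoryTheory.Limits groupCohomology Rep

variable (G : Type)

/-- the additive map `ℤ[G] → M` extending `φ : G → M`. -/
def IG_liftAux (M : Type) [AddCommGroup M] (φ : G → M) : MonoidAlgebra ℤ G →+ M :=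
  (Finsupp.liftAddHom (fun g => (zmultiplesHom M) (φ g))).comp
    MonoidAlgebra.coeffAddEquiv.toAddMonoidHom

theorem IG_liftAux_single (M : Type) [AddCommGroup M] (φ : G → M) (g : G) (r : ℤ) :
    IG_liftAux G M φ (MonoidAlgebra.single g r) = r • φ g := by
  simp [IG_liftAux]

variable [Group G]

theorem IG_span (p : AddSubgroup (IG G).V) (hp : ∀ τ, augGen ℤ τ ∈ p) : p = ⊤ := by
  have key : ∀ y : MonoidAlgebra ℤ G, ∀ hy : y - MonoidAlgebra.single 1 ((augHom ℤ G).hom y) ∈
      augSub ℤ G, (⟨_, hy⟩ : (IG G).V) ∈ p := by
    intro y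
    induction y using MonoidAlgebra.induction_linear with
    | zero =>
      intro hy
      convert p.zero_mem
      simp
    | add a b ha hb =>
      intro hy
      have ha' : a - MonoidAlgebra.single 1 ((augHom ℤ G).hom a) ∈ augSub ℤ G := by
        rw [mem_augSub, map_sub, augHom_single, sub_self]
      have hb' : b - MonoidAlgebra.single 1 ((augHom ℤ G).hom b) ∈ augSub ℤ G := by
        rw [mem_augSub, map_sub, augHom_single, sub_self]
      convert p.add_mem (ha ha') (hb hb')
      change _ = (a - _) + (b - _)
      rw [map_add, MonoidAlgebra.single_add]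
      abel
    | single g r =>
      intro hy
      convert p.zsmul_mem (hp g) r
      change _ = r • (MonoidAlgebra.single g 1 - MonoidAlgebra.single 1 1)
      rw [augHom_single, smul_sub, MonoidAlgebra.smul_single, MonoidAlgebra.smul_single]
      simp
  rw [eq_top_iff]
  intro x _
  have hx : (augHom ℤ G).hom x.1 = 0 := x.2
  have h := key x.1 (by rw [hx]; simp)
  convert h
  rw [hx]; simp

/-- The augmentation ideal `IG G` is a model of the augmentation ideal. -/
def IG_model : AugModel G where
  I := IG G
  e := augGen ℤ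
  e_smul := augIdeal_ρ_augGen ℤ
  lift M _ φ h1 := ⟨(IG_liftAux G M φ).comp (augSub ℤ G).subtype.toAddMonoidHom, fun τ => by
    change IG_liftAux G M φ (MonoidAlgebra.single τ 1 - MonoidAlgebra.single 1 1) = φ τ
    rw [map_sub, IG_liftAux_single, IG_liftAux_single, h1]
    simp⟩
  span := IG_span G

/-- **P0-7 : Tate's theorem in degrees 3 and 4.** -/
theorem tate (h : Stmt_cohTriv.{0}) (hres : Stmt_resIndex.{0}) : Stmt_tate := by
  intro G _ _ C hC
  exact tate_of_model h hres (IG_model G) (fun H => IG_H1_card H) (fun H => IG_H2_zero H)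
    (IG_shift 1) C hC

end Fermat.Agent.CFT.P0
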