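/-
TEAM CFT, sub-project P0, package P0-5: the "ugly lemma".
-/
import Fermat.Agent.CFT.P0.Interface

set_option autoImplicit false

noncomputable section

namespace Fermat.Agent.CFT.P0

open CategoryTheory CategoryTheory.Limits groupCohomology Rep

/-- transport: `Hⁿ(N, res_N res_H A) ≅ Hⁿ(N.map H.subtype, res A)`. -/
def uglyResIso {G : Type} [Group G] (A : Rep.{0} ℤ G) (H : Subgroup G) (N : Subgroup H) (n : ℕ) :
    groupCohomology (Rep.res N.subtype (Rep.res H.subtype A)) n ≅
      groupCohomology (Rep.res (N.map H.subtype).subtype A) n :=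
  groupCohomology.mapIso (B := Rep.res N.subtype (Rep.res H.subtype A))
    (A := Rep.res (N.map H.subtype).subtype A)
    (N.equivMapOfInjective H.subtype H.subtype_injective)
    (@LinearEquiv.refl ℤ A.V _ _ A.hV2) (by intro g; rfl) n

/-- `H¹` of the trivial group vanishes. -/
lemma ugly_H1_subsingleton {G : Type} [Group G] [Subsingleton G] (A : Rep.{0} ℤ G) :
    IsZero (groupCohomology A 1) := by
  rw [ModuleCat.isZero_iff_subsingleton]
  refine ⟨fun x y => ?_⟩
  have key : ∀ z : groupCohomology A 1, z = 0 := by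
    intro z
    induction z using H1_induction_on with | @h z =>
    rw [H1π_eq_zero_iff]
    refine ⟨0, ?_⟩
    funext g
    have hg : g = 1 := Subsingleton.elim _ _
    subst hg
    simp
  rw [key x, key y]

/-- `H²` of the trivial group vanishes. -/
lemma ugly_H2_subsingleton {G : Type} [Group G] [Subsingleton G] (A : Rep.{0} ℤ G) :
    IsZero (groupCohomology A 2) := by
  rw [ModuleCat.isZero_iff_subsingleton]
  refine ⟨fun x y => ?_⟩
  have key : ∀ z : groupCohomology A 2, z = 0 := by
    intro z
    induction z using H2_induction_on with | @h z =>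
    rw [H2π_eq_zero_iff]
    refine ⟨fun _ => z (1, 1), ?_⟩
    funext g
    have hg : g = (1, 1) := Subsingleton.elim _ _
    subst hg
    simp
  rw [key x, key y]

/-- counting in a sequence `X → Y → Z` exact at `Y`. -/
lemma ugly_card {X Y Z : Type} [AddCommGroup X] [AddCommGroup Y] [AddCommGroup Z]
    [Finite X] [Finite Z] (f : X →+ Y) (g : Y →+ Z) (hfg : ∀ y, g y = 0 → ∃ x, f x = y) :
    Finite Y ∧ Nat.card Y ∣ Nat.card X * Nat.card Z := by
  have hle : g.ker ≤ f.range := fun y hy => hfg y hy
  have h1 : Nat.card Y = Nat.card (Y ⧸ g.ker) * Nat.card g.ker :=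
    AddSubgroup.card_eq_card_quotient_mul_card_addSubgroup _
  have h2 : Nat.card (Y ⧸ g.ker) = Nat.card g.range :=
    Nat.card_congr (QuotientAddGroup.quotientKerEquivRange g).toEquiv
  have h3 : Nat.card g.range ∣ Nat.card Z := AddSubgroup.card_addSubgroup_dvd_card _
  have h4 : Nat.card f.range ∣ Nat.card X := by
    rw [← Nat.card_congr (QuotientAddGroup.quotientKerEquivRange f).toEquiv]
    exact AddSubgroup.card_quotient_dvd_card _
  have h5 : Nat.card g.ker ∣ Nat.card f.range := AddSubgroup.card_dvd_of_le hle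
  have hdvd : Nat.card Y ∣ Nat.card X * Nat.card Z := by
    rw [h1, h2, mul_comm]
    exact Nat.mul_dvd_mul (h5.trans h4) h3
  refine ⟨?_, hdvd⟩
  apply Nat.finite_of_card_ne_zero
  intro h0
  rw [h0, zero_dvd_iff] at hdvd
  exact (Nat.mul_ne_zero Nat.card_pos.ne' Nat.card_pos.ne') hdvd

/-- one step of the dévissage along a normal subgroup. -/
theorem ugly_step (h1 : Stmt_infRes.{0}) {G : Type} [Group G] (A : Rep.{0} ℤ G)
    (N : Subgroup G) [N.Normal]
    (hN1 : IsZero (groupCohomology (Rep.res N.subtype A) 1))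
    (hN2 : Finite (groupCohomology (Rep.res N.subtype A) 2))
    (hQ1 : IsZero (groupCohomology (A.quotientToInvariants N) 1))
    (hQ2 : Finite (groupCohomology (A.quotientToInvariants N) 2)) :
    IsZero (groupCohomology A 1) ∧ Finite (groupCohomology A 2) ∧
      Nat.card (groupCohomology A 2) ∣
        Nat.card (groupCohomology (A.quotientToInvariants N) 2) *
          Nat.card (groupCohomology (Rep.res N.subtype A) 2) := by
  refine ⟨?_, ?_⟩
  · exact (H1InfRes_exact A N).isZero_of_both_zeros (hQ1.eq_of_src _ _) (hN1.eq_of_tgt _ _)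
  · obtain ⟨-, hex⟩ := h1 ℤ G A N 1 (by
      intro i hi hi2
      obtain rfl : i = 1 := by omega
      exact hN1)
    exact ugly_card (infMap A N 2).hom.toAddMonoidHom (resMap A N 2).hom.toAddMonoidHom hex

/-- the ugly lemma for `p`-subgroups. -/
theorem ugly_pgroup (h1 : Stmt_infRes.{0}) {G : Type} [Group G] [Finite G] (A : Rep.{0} ℤ G)
    (hA : PrimeLayers A) (p : ℕ) [hp : Fact p.Prime] :
    ∀ (k : ℕ) (H : Subgroup G), Nat.card H = p ^ k →
      IsZero (groupCohomology (Rep.res H.subtype A) 1) ∧
      Finite (groupCohomology (Rep.res H.subtype A) 2) ∧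
      Nat.card (groupCohomology (Rep.res H.subtype A) 2) ∣ Nat.card H := by
  intro k
  induction k with
  | zero =>
    intro H hH
    rw [pow_zero] at hH
    have : Subsingleton H := (Nat.card_eq_one_iff_unique.1 hH).1
    have h2 := ugly_H2_subsingleton (Rep.res H.subtype A)
    rw [ModuleCat.isZero_iff_subsingleton] at h2
    refine ⟨ugly_H1_subsingleton _, inferInstance, ?_⟩
    rw [Nat.card_of_subsingleton (0 : groupCohomology (Rep.res H.subtype A) 2)]
    exact one_dvd _
  | succ k ih =>
    intro H hH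
    obtain ⟨N, hN⟩ := Sylow.exists_subgroup_card_pow_prime (G := H) p (n := k)
      (by rw [hH]; exact pow_dvd_pow p (Nat.le_succ k))
    have hidx : N.index = p := by
      have := N.card_mul_index
      rw [hN, hH, pow_succ] at this
      exact Nat.eq_of_mul_eq_mul_left (pow_pos hp.out.pos k) this
    have : N.Normal := by
      apply Subgroup.normal_of_index_eq_minFac_card
      rw [hidx, hH, Nat.Prime.pow_minFac hp.out (Nat.succ_ne_zero k)]
    have hcardQ : Nat.card (H ⧸ N) = p := hidx
    obtain ⟨hQ1, hQ2, hQ3⟩ := hA H N (by rw [hcardQ]; exact hp.out)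
    have hcardN : Nat.card (N.map H.subtype) = p ^ k := by
      rw [Subgroup.card_map_of_injective H.subtype_injective, hN]
    obtain ⟨hN1, hN2, hN3⟩ := ih (N.map H.subtype) hcardN
    have e1 := uglyResIso A H N 1
    have e2 := uglyResIso A H N 2
    have hN1' : IsZero (groupCohomology (Rep.res N.subtype (Rep.res H.subtype A)) 1) :=
      hN1.of_iso e1
    have hN2' : Finite (groupCohomology (Rep.res N.subtype (Rep.res H.subtype A)) 2) :=
      Finite.of_equiv _ e2.toLinearEquiv.symm.toEquiv
    have hN3' : Nat.card (groupCohomology (Rep.res N.subtype (Rep.res H.subtype A)) 2) ∣ p ^ k := by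
      rw [Nat.card_congr e2.toLinearEquiv.toEquiv, ← hcardN]
      exact hN3
    obtain ⟨r1, r2, r3⟩ := ugly_step h1 (Rep.res H.subtype A) N hN1' hN2' hQ1 hQ2
    refine ⟨r1, r2, r3.trans ?_⟩
    rw [hH, pow_succ, mul_comm]
    rw [hcardQ] at hQ3
    exact Nat.mul_dvd_mul hN3' hQ3

/-- P0-5 : the "ugly lemma". -/
theorem ugly (h1 : Stmt_infRes.{0}) (h2 : Stmt_sylowVanish.{0}) (h3 : Stmt_sylowCard) :
    Stmt_ugly := by
  intro G _ _ A hA
  have key : ∀ (p : ℕ) [Fact p.Prime] (P : Sylow p G),
      IsZero (groupCohomology (Rep.res (P : Subgroup G).subtype A) 1) ∧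
      Finite (groupCohomology (Rep.res (P : Subgroup G).subtype A) 2) ∧
      Nat.card (groupCohomology (Rep.res (P : Subgroup G).subtype A) 2) ∣
        Nat.card (P : Subgroup G) := by
    intro p _ P
    obtain ⟨k, hk⟩ := IsPGroup.iff_card.1 P.isPGroup'
    exact ugly_pgroup h1 A hA p k P hk
  refine ⟨h2 ℤ G A 0 fun p _ P => (key p P).1, h3 G A 1 fun p _ P => (key p P).2⟩

end Fermat.Agent.CFT.P0

end
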