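/-
TEAM CFT, sub-project P0, package P0-11: cohomology of a finite group commutes with directed
unions of modules.
-/
import Fermat.Agent.CFT.P0.Prod

set_option autoImplicit false

noncomputable section

namespace Fermat.Agent.CFT.P0

open CategoryTheory CategoryTheory.Limits groupCohomology Rep

universe u

namespace UnionAux

variable {k : Type u} [CommRing k] {α : Type*} {c : ComplexShape α}

/-- if `φ : K ⟶ L` is injective in each degree, a cycle of `L` whose underlying chain comes from
`K` is the image of a cycle of `K`. -/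
theorem exists_cycle_of_mem (K L : HomologicalComplex (ModuleCat.{u} k) c) (φ : K ⟶ L)
    (hφ : ∀ n, Function.Injective (φ.f n).hom) (n : α) (z : L.cycles n) (b : K.X n)
    (hb : (φ.f n).hom b = (L.iCycles n).hom z) :
    ∃ y : K.cycles n, (HomologicalComplex.cyclesMap φ n).hom y = z := by
  have hd : ∀ (a b : α) (x : K.X a), (φ.f b).hom ((K.d a b).hom x) =
      (L.d a b).hom ((φ.f a).hom x) := by
    intro a b x
    have := φ.comm a b
    exact (congrArg (fun f => f.hom x) this).symm
  have hid : (L.d n (c.next n)).hom ((L.iCycles n).hom z) = 0 := by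
    have := L.iCycles_d n (c.next n)
    exact congrArg (fun f => f.hom z) this
  have hdb : (K.d n (c.next n)).hom b = 0 := by
    apply hφ
    rw [hd, hb, hid, map_zero]
  obtain ⟨y, hy⟩ := ProdAux.exists_cycle K n b hdb
  refine ⟨y, ?_⟩
  apply ProdAux.iCycles_injective L n
  have hi : (L.iCycles n).hom ((HomologicalComplex.cyclesMap φ n).hom y) =
      (φ.f n).hom ((K.iCycles n).hom y) := by
    have := HomologicalComplex.cyclesMap_i φ n
    exact congrArg (fun f => f.hom y) this
  rw [hi, hy, hb]

theorem homologyMap_π (K L : HomologicalComplex (ModuleCat.{u} k) c) (φ : K ⟶ L) (n : α)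
    (z : K.cycles n) : (HomologicalComplex.homologyMap φ n).hom ((K.homologyπ n).hom z) =
      (L.homologyπ n).hom ((HomologicalComplex.cyclesMap φ n).hom z) := by
  have := HomologicalComplex.homologyπ_naturality φ n
  exact congrArg (fun f => f.hom z) this

/-- a cycle which is a boundary has trivial class -/
theorem π_eq_zero_of_boundary (K : HomologicalComplex (ModuleCat.{u} k) c) (n : α)
    (z : K.cycles n) (w : K.X (c.prev n)) (h : (K.d (c.prev n) n).hom w = (K.iCycles n).hom z) :
    (K.homologyπ n).hom z = 0 := by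
  have ht : (K.iCycles n).hom ((K.toCycles (c.prev n) n).hom w) = (K.d (c.prev n) n).hom w := by
    have := K.toCycles_i (c.prev n) n
    exact congrArg (fun f => f.hom w) this
  have hz : (K.toCycles (c.prev n) n).hom w = z := by
    apply ProdAux.iCycles_injective K n
    rw [ht, h]
  have := K.toCycles_comp_homologyπ (c.prev n) n
  rw [← hz]
  exact congrArg (fun f => f.hom w) this

/-- a cycle with trivial class is a boundary -/
theorem boundary_of_π_eq_zero (K : HomologicalComplex (ModuleCat.{u} k) c) (n : α)
    (z : K.cycles n) (h : (K.homologyπ n).hom z = 0) :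
    ∃ w : K.X (c.prev n), (K.d (c.prev n) n).hom w = (K.iCycles n).hom z := by
  obtain ⟨w, hw⟩ := ProdAux.exists_boundary K n z h
  refine ⟨w, ?_⟩
  have := K.toCycles_i (c.prev n) n
  rw [← hw]
  exact (congrArg (fun f => f.hom w) this).symm

/-- finitely many elements of a directed union lie in one member. -/
theorem exists_common {ι X β : Type*} [Nonempty ι] [Finite β] (S : ι → Set X)
    (hdir : ∀ i j, ∃ l, S i ⊆ S l ∧ S j ⊆ S l) (hcov : ∀ a : X, ∃ i, a ∈ S i) (w : β → X) :
    ∃ i, ∀ b, w b ∈ S i := by
  classical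
  have key : ∀ s : Finset β, ∃ i, ∀ b ∈ s, w b ∈ S i := by
    intro s
    induction s using Finset.induction_on with
    | empty => exact ⟨Classical.arbitrary ι, by simp⟩
    | insert a s _ ih =>
      obtain ⟨i, hi⟩ := ih
      obtain ⟨j, hj⟩ := hcov (w a)
      obtain ⟨l, hl1, hl2⟩ := hdir i j
      refine ⟨l, ?_⟩
      intro b hb
      rcases Finset.mem_insert.1 hb with rfl | hb
      · exact hl2 hj
      · exact hl1 (hi b hb)
  cases nonempty_fintype β
  obtain ⟨i, hi⟩ := key Finset.univ
  exact ⟨i, fun b => hi b (Finset.mem_univ b)⟩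

/-- a morphism of representations obtained from an inclusion of images. -/
theorem exists_factor {G : Type u} [Group G] {A B C : Rep.{u} k G} (f : B ⟶ A) (f' : C ⟶ A)
    (hinj : Function.Injective f'.hom) (hsub : Set.range f.hom ⊆ Set.range f'.hom) :
    ∃ g : B ⟶ C, g ≫ f' = f := by
  have h1 : ∀ b : B, ∃ c : C, f'.hom c = f.hom b := fun b => hsub ⟨b, rfl⟩
  choose g0 hg0 using h1
  let gl : B →ₗ[k] C :=
    { toFun := g0
      map_add' := by
        intro x y
        apply hinj
        rw [map_add, hg0, hg0, hg0, map_add]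
      map_smul' := by
        intro r x
        apply hinj
        simp only [RingHom.id_apply]
        rw [map_smul, hg0, hg0, map_smul] }
  have hgl : ∀ (s : G) (v : B), gl (B.ρ s v) = C.ρ s (gl v) := by
    intro s v
    apply hinj
    show f'.hom (g0 _) = f'.hom (C.ρ s (g0 v))
    rw [hg0, hom_comm_apply, hom_comm_apply, hg0]
  refine ⟨Rep.ofHom (LinearMap.intertwiningMap_of_isIntertwiningMap B.ρ C.ρ gl hgl), ?_⟩
  ext x
  exact hg0 x

end UnionAux

/-- P0-11 : for finite `G`, cohomology commutes with directed unions. -/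
theorem union : Stmt_union.{u} := by
  intro k G _ _ _ ι _ A Ai f hinj hdir hcov n
  have hcinj : ∀ {B C : Rep.{u} k G} (φ : B ⟶ C), Function.Injective φ.hom →
      ∀ m, Function.Injective ((cochainsMap (MonoidHom.id G) φ).f m).hom := by
    intro B C φ hφ m x y hxy
    funext g
    apply hφ
    exact congrFun hxy g
  constructor
  · intro x
    obtain ⟨z, rfl⟩ := ProdAux.homologyπ_surjective (inhomogeneousCochains A) n x
    obtain ⟨i, hi⟩ := UnionAux.exists_common (fun i => Set.range (f i).hom) hdir hcov
      (((inhomogeneousCochains A).iCycles n).hom z : (Fin n → G) → A)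
    choose b hb using hi
    obtain ⟨y, hy⟩ := UnionAux.exists_cycle_of_mem (inhomogeneousCochains (Ai i))
      (inhomogeneousCochains A) (cochainsMap (MonoidHom.id G) (f i)) (hcinj _ (hinj i)) n z b
      (funext hb)
    refine ⟨i, ((inhomogeneousCochains (Ai i)).homologyπ n).hom y, ?_⟩
    rw [← hy]
    exact UnionAux.homologyMap_π _ _ _ n y
  · intro i y hy
    obtain ⟨z, rfl⟩ := ProdAux.homologyπ_surjective (inhomogeneousCochains (Ai i)) n y
    have h0 : ((inhomogeneousCochains A).homologyπ n).hom
        ((HomologicalComplex.cyclesMap (cochainsMap (MonoidHom.id G) (f i)) n).hom z) = 0 := by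
      rw [← UnionAux.homologyMap_π]
      exact hy
    obtain ⟨w, hw⟩ := UnionAux.boundary_of_π_eq_zero _ n _ h0
    obtain ⟨j, hj⟩ := UnionAux.exists_common (fun i => Set.range (f i).hom) hdir hcov
      (w : (Fin ((ComplexShape.up ℕ).prev n) → G) → A)
    obtain ⟨l, hl1, hl2⟩ := hdir i j
    obtain ⟨g, hg⟩ := UnionAux.exists_factor (f i) (f l) (hinj l) hl1
    refine ⟨l, g, hg, ?_⟩
    have hj' : ∀ b, ∃ c : Ai l, (f l).hom c = w b := fun b => hl2 (hj b)
    choose w' hw' using hj'
    have e1 := UnionAux.homologyMap_π _ _ (cochainsMap (MonoidHom.id G) g) n z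
    refine e1.trans ?_
    apply UnionAux.π_eq_zero_of_boundary _ n _ w'
    apply hcinj (f l) (hinj l)
    have hd : ∀ {K L : HomologicalComplex (ModuleCat.{u} k) (ComplexShape.up ℕ)} (φ : K ⟶ L)
        (a b : ℕ) (x : K.X a), (φ.f b).hom ((K.d a b).hom x) = (L.d a b).hom ((φ.f a).hom x) := by
      intro K L φ a b x
      have := φ.comm a b
      exact (congrArg (fun f => f.hom x) this).symm
    have hi : ∀ {K L : HomologicalComplex (ModuleCat.{u} k) (ComplexShape.up ℕ)} (φ : K ⟶ L)
        (y : K.cycles n), (L.iCycles n).hom ((HomologicalComplex.cyclesMap φ n).hom y) =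
        (φ.f n).hom ((K.iCycles n).hom y) := by
      intro K L φ y
      have := HomologicalComplex.cyclesMap_i φ n
      exact congrArg (fun f => f.hom y) this
    have hww : ((cochainsMap (MonoidHom.id G) (f l)).f ((ComplexShape.up ℕ).prev n)).hom w' = w :=
      funext hw'
    rw [hd, hww, hw, hi, hi]
    have hcomp : cochainsMap (MonoidHom.id G) (f i) =
        cochainsMap (MonoidHom.id G) g ≫ cochainsMap (MonoidHom.id G) (f l) := by
      rw [← cochainsMap_id_comp, hg]
    rw [hcomp]
    rfl

end Fermat.Agent.CFT.P0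

end
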