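import Fermat.Agent.CFT.P0.Interface
import Fermat.Agent.CFT.P0.Interface2
import Fermat.Agent.CFT.P0.ShiftExists
import Fermat.Agent.CFT.P0.ResIndex
import Fermat.Agent.CFT.P0.InfRes
import Fermat.Agent.CFT.P0.Cyclic
import Fermat.Agent.CFT.P0.Sylow
import Fermat.Agent.CFT.P0.Ugly
import Fermat.Agent.CFT.P0.CohTriv
import Fermat.Agent.CFT.P0.Herbrand
import Fermat.Agent.CFT.P0.Shapiro
import Fermat.Agent.CFT.P0.Prod
import Fermat.Agent.CFT.P0.Union
import Fermat.Agent.CFT.P0.CycH2
import Fermat.Agent.CFT.P0.TateFinal

/-!
# P0 : the finite group cohomology toolkit, unconditional form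

Every `Stmt_*` of `Interface.lean` / `Interface2.lean` is proved here without hypotheses.
Already unconditional in their own files: `shift`, `periodic`, `herbrandBridge`, `herbrandMul`,
`herbrandFinite`, `shapiro`, `prod`, `union`, `cycH2`, `cycNat`, `cycRes`, `cycInf`.
-/

universe u

namespace Fermat.Agent.CFT.P0

theorem all_resIndex : Stmt_resIndex.{u} := resIndex shift

theorem all_cardSmul : Stmt_cardSmul.{u} := cardSmul all_resIndex

theorem all_infRes : Stmt_infRes.{u} := infRes shift

theorem all_sylowVanish : Stmt_sylowVanish.{u} := sylowVanish all_resIndex all_cardSmul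

theorem all_sylowCard : Stmt_sylowCard := sylowCard all_resIndex all_cardSmul

theorem all_ugly : Stmt_ugly := ugly all_infRes all_sylowVanish all_sylowCard

theorem all_cohTriv : Stmt_cohTriv.{u} := cohTriv all_infRes all_sylowVanish periodic

theorem all_tate : Stmt_tate := tate all_cohTriv all_resIndex

end Fermat.Agent.CFT.P0
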